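import Mathlib

set_option autoImplicit false

namespace Fermat.Agent.S05

/-- A real-valued multiplicative ultrametric absolute value on a field. -/
structure RVal (K : Type*) [Field K] where
  /-- the absolute value -/
  w : K → ℝ
  w_zero : w 0 = 0
  w_one : w 1 = 1
  w_mul : ∀ x y, w (x * y) = w x * w y
  w_add : ∀ x y, w (x + y) ≤ max (w x) (w y)
  w_pos : ∀ x, x ≠ 0 → 0 < w x

namespace RVal

variable {K : Type*} [Field K] (V : RVal K)

lemma w_nonneg (x : K) : 0 ≤ V.w x := by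
  by_cases h : x = 0
  · rw [h, V.w_zero]
  · exact (V.w_pos x h).le

lemma w_eq_zero {x : K} : V.w x = 0 ↔ x = 0 := by
  constructor
  · intro h
    by_contra hx
    exact (V.w_pos x hx).ne' h
  · rintro rfl
    exact V.w_zero

lemma w_ne_zero {x : K} (hx : x ≠ 0) : V.w x ≠ 0 := (V.w_pos x hx).ne'

lemma w_neg_one : V.w (-1) = 1 := by
  have h1 : V.w (-1) * V.w (-1) = 1 := by
    rw [← V.w_mul]; simp [V.w_one]
  have h2 : 0 < V.w (-1) := V.w_pos _ (by simp)
  nlinarith

lemma w_neg (x : K) : V.w (-x) = V.w x := by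
  rw [← neg_one_mul, V.w_mul, V.w_neg_one, one_mul]

lemma w_sub (x y : K) : V.w (x - y) ≤ max (V.w x) (V.w y) := by
  rw [sub_eq_add_neg]
  have := V.w_add x (-y)
  rwa [V.w_neg] at this

lemma w_sub_comm (x y : K) : V.w (x - y) = V.w (y - x) := by
  rw [← neg_sub, V.w_neg]

lemma w_pow (x : K) (n : ℕ) : V.w (x ^ n) = V.w x ^ n := by
  induction n with
  | zero => simp [V.w_one]
  | succ n ih => rw [pow_succ, V.w_mul, ih, pow_succ]

lemma w_inv (x : K) : V.w x⁻¹ = (V.w x)⁻¹ := by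
  by_cases h : x = 0
  · simp [h, V.w_zero]
  · have h1 : V.w x⁻¹ * V.w x = 1 := by
      rw [← V.w_mul, inv_mul_cancel₀ h, V.w_one]
    exact eq_inv_of_mul_eq_one_left h1

lemma w_div (x y : K) : V.w (x / y) = V.w x / V.w y := by
  rw [div_eq_mul_inv, V.w_mul, V.w_inv, div_eq_mul_inv]

lemma w_zpow (x : K) (n : ℤ) : V.w (x ^ n) = V.w x ^ n := by
  cases n with
  | ofNat n => simp [V.w_pow]
  | negSucc n => simp [zpow_negSucc, V.w_inv, V.w_pow]

lemma w_add_le {x y : K} {c : ℝ} (hx : V.w x ≤ c) (hy : V.w y ≤ c) : V.w (x + y) ≤ c :=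
  (V.w_add x y).trans (max_le hx hy)

lemma w_add_lt {x y : K} {c : ℝ} (hx : V.w x < c) (hy : V.w y < c) : V.w (x + y) < c :=
  (V.w_add x y).trans_lt (max_lt hx hy)

lemma w_sub_le {x y : K} {c : ℝ} (hx : V.w x ≤ c) (hy : V.w y ≤ c) : V.w (x - y) ≤ c :=
  (V.w_sub x y).trans (max_le hx hy)

lemma w_sub_lt {x y : K} {c : ℝ} (hx : V.w x < c) (hy : V.w y < c) : V.w (x - y) < c :=
  (V.w_sub x y).trans_lt (max_lt hx hy)

/-- The dominant term determines the absolute value of a sum. -/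
lemma w_add_eq_of_lt {x y : K} (h : V.w y < V.w x) : V.w (x + y) = V.w x := by
  apply le_antisymm (V.w_add_le le_rfl h.le)
  by_contra hlt
  rw [not_le] at hlt
  have h2 : V.w x ≤ max (V.w (x + y)) (V.w y) := by
    have := V.w_sub (x + y) y
    simpa using this
  have h3 : max (V.w (x + y)) (V.w y) < V.w x := max_lt hlt h
  exact absurd h2 (not_le.mpr h3)

lemma w_add_eq_of_lt' {x y : K} (h : V.w x < V.w y) : V.w (x + y) = V.w y := by
  rw [add_comm]; exact V.w_add_eq_of_lt h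

lemma w_sub_eq_of_lt {x y : K} (h : V.w y < V.w x) : V.w (x - y) = V.w x := by
  rw [sub_eq_add_neg]
  exact V.w_add_eq_of_lt (by rwa [V.w_neg])

lemma w_sub_eq_of_lt' {x y : K} (h : V.w x < V.w y) : V.w (x - y) = V.w y := by
  rw [V.w_sub_comm]; exact V.w_sub_eq_of_lt h

lemma w_natCast_le (n : ℕ) : V.w (n : K) ≤ 1 := by
  induction n with
  | zero => simp [V.w_zero]
  | succ n ih =>
    push_cast
    exact V.w_add_le ih V.w_one.le

lemma w_intCast_le (n : ℤ) : V.w (n : K) ≤ 1 := by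
  cases n with
  | ofNat n => simpa using V.w_natCast_le n
  | negSucc n =>
    rw [Int.cast_negSucc, V.w_neg]
    exact V.w_natCast_le _

lemma w_two_le : V.w (2 : K) ≤ 1 := by
  have := V.w_natCast_le 2
  simpa using this

end RVal

end Fermat.Agent.S05
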