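import Mathlib

set_option autoImplicit false

namespace Fermat.Agent.S05

open WeierstrassCurve WeierstrassCurve.Affine

variable {K : Type*} [Field K]

/-- The short model `Y² = X³ + aX² + bX`. -/
def shortW (a b : K) : WeierstrassCurve K := ⟨0, a, 0, b, 0⟩

@[simp] lemma shortW_a₁ (a b : K) : (shortW a b).a₁ = 0 := rfl
@[simp] lemma shortW_a₂ (a b : K) : (shortW a b).a₂ = a := rfl
@[simp] lemma shortW_a₃ (a b : K) : (shortW a b).a₃ = 0 := rfl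
@[simp] lemma shortW_a₄ (a b : K) : (shortW a b).a₄ = b := rfl
@[simp] lemma shortW_a₆ (a b : K) : (shortW a b).a₆ = 0 := rfl

lemma shortW_equation {a b x y : K} :
    (shortW a b).toAffine.Equation x y ↔ y ^ 2 = x ^ 3 + a * x ^ 2 + b * x := by
  rw [Affine.equation_iff]
  simp

lemma shortW_negY (a b x y : K) : (shortW a b).toAffine.negY x y = -y := by
  simp [Affine.negY]

/-- Three collinear points `(x₁,y₁)`, `(x₂,y₂)`, `(x₃,-y₃)` of the short model on the line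
`Y = l X + n`, with the Vieta relations (valid also for tangent lines). -/
structure LineData (a b x₁ y₁ x₂ y₂ x₃ y₃ l n : K) : Prop where
  e₁ : y₁ ^ 2 = x₁ ^ 3 + a * x₁ ^ 2 + b * x₁
  e₂ : y₂ ^ 2 = x₂ ^ 3 + a * x₂ ^ 2 + b * x₂
  e₃ : y₃ ^ 2 = x₃ ^ 3 + a * x₃ ^ 2 + b * x₃
  L₁ : y₁ = l * x₁ + n
  L₂ : y₂ = l * x₂ + n
  L₃ : -y₃ = l * x₃ + n
  V₁ : x₁ + x₂ + x₃ = l ^ 2 - a
  V₂ : x₁ * x₂ + x₁ * x₃ + x₂ * x₃ = b - 2 * l * n
  V₃ : x₁ * x₂ * x₃ = n ^ 2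

namespace LineData

variable {a b x₁ y₁ x₂ y₂ x₃ y₃ l n : K}

lemma nu_mul (h : LineData a b x₁ y₁ x₂ y₂ x₃ y₃ l n) :
    n * (y₁ * x₂ + y₂ * x₁) = x₁ * x₂ * (b - x₁ * x₂) := by
  rw [h.L₁, h.L₂]
  linear_combination (x₁ * x₂) * h.V₂ - (x₁ + x₂) * h.V₃

lemma nu_mul' (h : LineData a b x₁ y₁ x₂ y₂ x₃ y₃ l n) :
    n * (x₂ - x₁) = y₁ * x₂ - y₂ * x₁ := by
  rw [h.L₁, h.L₂]; ring

lemma slope_mul (h : LineData a b x₁ y₁ x₂ y₂ x₃ y₃ l n) :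
    l * (y₁ + y₂) = x₁ ^ 2 + x₁ * x₂ + x₂ ^ 2 + a * (x₁ + x₂) + b := by
  rw [h.L₁, h.L₂]
  linear_combination h.V₂ - (x₁ + x₂) * h.V₁

lemma prodP (h : LineData a b x₁ y₁ x₂ y₂ x₃ y₃ l n) {α : K} (hα : α ^ 2 = a) :
    (y₁ - α * x₁) * (y₂ - α * x₂) * (y₃ + α * x₃) = -(n * (n ^ 2 + b * (l - α) ^ 2)) := by
  have h3 : y₃ = -(l * x₃ + n) := by rw [← h.L₃]; ring
  rw [h.L₁, h.L₂, h3]
  linear_combination (-(l - α) ^ 3) * h.V₃ - (l - α) ^ 2 * n * h.V₂ - (l - α) * n ^ 2 * h.V₁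
    - (l - α) * n ^ 2 * hα

lemma prodM (h : LineData a b x₁ y₁ x₂ y₂ x₃ y₃ l n) {α : K} (hα : α ^ 2 = a) :
    (y₁ + α * x₁) * (y₂ + α * x₂) * (y₃ - α * x₃) = -(n * (n ^ 2 + b * (l + α) ^ 2)) := by
  have h3 : y₃ = -(l * x₃ + n) := by rw [← h.L₃]; ring
  rw [h.L₁, h.L₂, h3]
  linear_combination (-(l + α) ^ 3) * h.V₃ - (l + α) ^ 2 * n * h.V₂ - (l + α) * n ^ 2 * h.V₁
    - (l + α) * n ^ 2 * hα

lemma prodY (h : LineData a b x₁ y₁ x₂ y₂ x₃ y₃ l n) :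
    y₁ * y₂ * y₃ = -(n * (n ^ 2 - a * l * n + b * l ^ 2)) := by
  have h3 : y₃ = -(l * x₃ + n) := by rw [← h.L₃]; ring
  rw [h.L₁, h.L₂, h3]
  linear_combination (-l ^ 3) * h.V₃ - l ^ 2 * n * h.V₂ - l * n ^ 2 * h.V₁

lemma zsum (h : LineData a b x₁ y₁ x₂ y₂ x₃ y₃ l n) :
    x₁ * y₂ * y₃ + x₂ * y₁ * y₃ - x₃ * y₁ * y₂ = -(n * (2 * l * b - a * n)) := by
  have h3 : y₃ = -(l * x₃ + n) := by rw [← h.L₃]; ring
  rw [h.L₁, h.L₂, h3]
  linear_combination (-3 * l ^ 2) * h.V₃ - 2 * l * n * h.V₂ - n ^ 2 * h.V₁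

end LineData

variable [DecidableEq K]

/-- The chord–tangent description of the sum of two points of the short model. -/
theorem add_line {a b : K} {x₁ y₁ x₂ y₂ : K}
    (h₁ : (shortW a b).toAffine.Nonsingular x₁ y₁) (h₂ : (shortW a b).toAffine.Nonsingular x₂ y₂)
    (hxy : ¬(x₁ = x₂ ∧ y₁ = -y₂)) :
    ∃ (x₃ y₃ l n : K) (h₃ : (shortW a b).toAffine.Nonsingular x₃ y₃),
      Point.some x₁ y₁ h₁ + Point.some x₂ y₂ h₂ = Point.some x₃ y₃ h₃ ∧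
      LineData a b x₁ y₁ x₂ y₂ x₃ y₃ l n := by
  have hxy' : ¬(x₁ = x₂ ∧ y₁ = (shortW a b).toAffine.negY x₂ y₂) := by
    rwa [shortW_negY]
  have e₁ := shortW_equation.mp h₁.1
  have e₂ := shortW_equation.mp h₂.1
  set l := (shortW a b).toAffine.slope x₁ x₂ y₁ y₂ with hl
  have F2 : l * (y₁ + y₂) = x₁ ^ 2 + x₁ * x₂ + x₂ ^ 2 + a * (x₁ + x₂) + b := by
    by_cases hx : x₁ = x₂
    · subst hx
      have hy : y₁ = y₂ := by
        have : y₁ ^ 2 = y₂ ^ 2 := by rw [e₁, e₂]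
        rcases eq_or_eq_neg_of_sq_eq_sq _ _ this with h | h
        · exact h
        · exact absurd ⟨rfl, h⟩ hxy
      subst hy
      have hne : y₁ ≠ (shortW a b).toAffine.negY x₁ y₁ := fun h => hxy' ⟨rfl, h⟩
      rw [hl, Affine.slope_of_Y_ne rfl hne]
      rw [shortW_negY] at hne ⊢
      have h2 : y₁ + y₁ ≠ 0 := fun h => hne (eq_neg_of_add_eq_zero_left h)
      rw [sub_neg_eq_add, div_mul_cancel₀ _ h2]
      simp
      ring
    · rw [hl, Affine.slope_of_X_ne hx]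
      have : x₁ - x₂ ≠ 0 := sub_ne_zero.mpr hx
      field_simp
      linear_combination e₁ - e₂
  have L2 : y₂ = l * x₂ + (y₁ - l * x₁) := by
    by_cases hx : x₁ = x₂
    · subst hx
      have hy : y₁ = y₂ := by
        have : y₁ ^ 2 = y₂ ^ 2 := by rw [e₁, e₂]
        rcases eq_or_eq_neg_of_sq_eq_sq _ _ this with h | h
        · exact h
        · exact absurd ⟨rfl, h⟩ hxy
      subst hy; ring
    · rw [hl, Affine.slope_of_X_ne hx]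
      have : x₁ - x₂ ≠ 0 := sub_ne_zero.mpr hx
      field_simp
      ring
  have V1 : x₁ + x₂ + (shortW a b).toAffine.addX x₁ x₂ l = l ^ 2 - a := by
    simp [Affine.addX]
  have V2 : x₁ * x₂ + x₁ * (shortW a b).toAffine.addX x₁ x₂ l
      + x₂ * (shortW a b).toAffine.addX x₁ x₂ l = b - 2 * l * (y₁ - l * x₁) := by
    rw [L2] at F2
    linear_combination F2 + (x₁ + x₂) * V1
  have h₃ := Affine.nonsingular_add h₁ h₂ hxy'
  refine ⟨(shortW a b).toAffine.addX x₁ x₂ l, (shortW a b).toAffine.addY x₁ x₂ y₁ l, l, y₁ - l * x₁,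
    h₃, Point.add_some hxy', ⟨e₁, e₂, shortW_equation.mp h₃.1, by ring, L2, ?_, V1, V2, ?_⟩⟩
  · simp [Affine.addY, Affine.negAddY, Affine.negY]
    ring
  · linear_combination x₁ * V2 - e₁ - x₁ ^ 2 * V1

end Fermat.Agent.S05
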