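import Mathlib
import Fermat.Agent.S05.Short
import Fermat.Agent.S05.RVal

/-!
# S05, piece P2: congruent pairs of points with nonsingular reduction on the short model
-/

set_option autoImplicit false

namespace Fermat.Agent.S05

open WeierstrassCurve WeierstrassCurve.Affine

variable {K : Type*} [Field K]

/-- (P2) Two congruent points `(x, y)`, `(x', y')` of the short model with integral coordinates
whose common reduction is a nonsingular point differ by a point of the kernel of reduction. -/
theorem cong_sub_good [DecidableEq K] (V : RVal K) {a b : K} (ha : V.w a ≤ 1) (hb : V.w b ≤ 1)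
    (h2 : V.w 2 = 1) {x y x' y' : K} (h : (shortW a b).toAffine.Nonsingular x y)
    (h' : (shortW a b).toAffine.Nonsingular x' y') (hx : V.w x ≤ 1) (hxx : V.w (x' - x) < 1)
    (hyy : V.w (y' - y) < 1) (hns : V.w y = 1 ∨ V.w (3 * x ^ 2 + 2 * a * x + b) = 1) :
    Point.some x' y' h' - Point.some x y h = 0 ∨
      ∃ (x₃ y₃ : K) (h₃ : (shortW a b).toAffine.Nonsingular x₃ y₃),
        Point.some x' y' h' - Point.some x y h = Point.some x₃ y₃ h₃ ∧ 1 < V.w x₃ := by
  by_cases heq : x' = x ∧ y' = y
  · left
    obtain ⟨rfl, rfl⟩ := heq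
    exact sub_self _
  right
  have hneg : (shortW a b).toAffine.Nonsingular x (-y) := by
    have := (Affine.nonsingular_neg (W' := (shortW a b).toAffine) x y).mpr h
    rwa [shortW_negY] at this
  have hsub : Point.some x' y' h' - Point.some x y h =
      Point.some x' y' h' + Point.some x (-y) hneg := by
    rw [sub_eq_add_neg, Point.neg_some]
    congr 2
    exact shortW_negY a b x y
  have hxy : ¬(x' = x ∧ y' = -(-y)) := by rwa [neg_neg]
  obtain ⟨x₃, y₃, l, n, h₃, hadd, hL⟩ := add_line h' hneg hxy
  refine ⟨x₃, y₃, h₃, hsub.trans hadd, ?_⟩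
  have hx' : V.w x' ≤ 1 := by
    have : x' = (x' - x) + x := by ring
    rw [this]
    exact V.w_add_le hxx.le hx
  -- the two relations for the slope
  have hS : l * (y' - y) = x' ^ 2 + x' * x + x ^ 2 + a * (x' + x) + b := by
    have := hL.slope_mul
    rw [← this]; ring
  have hT : l * (x' - x) = y' + y := by
    have h1 := hL.L₁
    have h2 := hL.L₂
    linear_combination h2 - h1
  -- `|l| > 1`
  have hl : 1 < V.w l := by
    by_contra hl
    have hl : V.w l ≤ 1 := not_lt.mp hl
    have hw0 : ∀ z, 0 ≤ V.w z := V.w_nonneg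
    have h1 : V.w (y' + y) < 1 := by
      rw [← hT, V.w_mul]
      calc V.w l * V.w (x' - x) ≤ 1 * V.w (x' - x) := by
            exact mul_le_mul_of_nonneg_right hl (hw0 _)
        _ = V.w (x' - x) := one_mul _
        _ < 1 := hxx
    have hy : V.w y < 1 := by
      have h3 : V.w (2 * y) < 1 := by
        have : 2 * y = (y' + y) - (y' - y) := by ring
        rw [this]
        exact V.w_sub_lt h1 hyy
      rwa [V.w_mul, h2, one_mul] at h3
    have h4 : V.w (x' ^ 2 + x' * x + x ^ 2 + a * (x' + x) + b) < 1 := by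
      rw [← hS, V.w_mul]
      calc V.w l * V.w (y' - y) ≤ 1 * V.w (y' - y) := by
            exact mul_le_mul_of_nonneg_right hl (hw0 _)
        _ = V.w (y' - y) := one_mul _
        _ < 1 := hyy
    have h5 : V.w (3 * x ^ 2 + 2 * a * x + b) < 1 := by
      have : 3 * x ^ 2 + 2 * a * x + b =
          (x' ^ 2 + x' * x + x ^ 2 + a * (x' + x) + b) - (x' - x) * (x' + 2 * x + a) := by ring
      rw [this]
      refine V.w_sub_lt h4 ?_
      rw [V.w_mul]
      have h6 : V.w (x' + 2 * x + a) ≤ 1 := by
        refine V.w_add_le (V.w_add_le hx' ?_) ha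
        rw [V.w_mul, h2, one_mul]
        exact hx
      calc V.w (x' - x) * V.w (x' + 2 * x + a) ≤ V.w (x' - x) * 1 := by
            exact mul_le_mul_of_nonneg_left h6 (hw0 _)
        _ = V.w (x' - x) := mul_one _
        _ < 1 := hxx
    rcases hns with hns | hns
    · exact absurd hns hy.ne
    · exact absurd hns h5.ne
  -- `x₃ = l² - a - x' - x`
  have hx₃ : x₃ = l ^ 2 - (a + x' + x) := by
    have := hL.V₁
    linear_combination this
  rw [hx₃]
  have hl2 : 1 < V.w (l ^ 2) := by
    rw [V.w_pow]
    exact one_lt_pow₀ hl two_ne_zero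
  have hsmall : V.w (a + x' + x) ≤ 1 := V.w_add_le (V.w_add_le ha hx') hx
  rw [V.w_sub_eq_of_lt (lt_of_le_of_lt hsmall hl2)]
  exact hl2

end Fermat.Agent.S05
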