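import Mathlib

/-!
# S05 helper: the kernel of reduction of an integral Weierstrass curve has no torsion of
order prime to the residue characteristic

Let `A` be a valuation subring of a field `K` and `W` a Weierstrass curve over `K` with
coefficients in `A`.  For `w` a nonzero nonunit of `A`, the set `G_w` of points `P` which are
zero or have `x(P) ≠ 0` and `(x(P) w)⁻¹ ∈ A` is a subgroup, and `u(P) = (x(P) w)⁻¹` satisfies the
parallelogram law modulo the maximal ideal.  Consequently `u(n • P₀) ≡ n²` for `P₀` with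
`x(P₀) = w⁻¹`, so `n • P₀ ≠ 0` when `n` is a unit of `A`.
-/

set_option autoImplicit false

open WeierstrassCurve WeierstrassCurve.Affine

namespace Fermat.Agent.S05.KerRed

variable {K : Type*} [Field K] (A : ValuationSubring K)

/-! ### Valuation subring helpers -/

lemma mul_mem_nonunits_of_mem {a m : K} (ha : a ∈ A) (hm : m ∈ A.nonunits) :
    m * a ∈ A.nonunits := by
  rw [ValuationSubring.mem_nonunits_iff] at hm ⊢
  rw [map_mul]
  have h1 : A.valuation a ≤ 1 := (A.valuation_le_one_iff a).mpr ha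
  calc A.valuation m * A.valuation a ≤ A.valuation m * 1 := by gcongr
    _ = A.valuation m := mul_one _
    _ < 1 := hm

lemma mem_of_mul_mem_of_add_mem {a b : K} (hab : a * b ∈ A) (hs : a + b ∈ A) : a ∈ A := by
  rw [← A.valuation_le_one_iff] at hab hs ⊢
  by_contra h
  have h : 1 < A.valuation a := not_le.mp h
  have hb : A.valuation b < 1 := by
    by_contra hb
    have hb : 1 ≤ A.valuation b := not_lt.mp hb
    rw [map_mul] at hab
    have : 1 < A.valuation a * A.valuation b := by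
      calc (1 : A.ValueGroup) < A.valuation a := h
        _ = A.valuation a * 1 := (mul_one _).symm
        _ ≤ A.valuation a * A.valuation b := by gcongr
    exact absurd hab (not_le.mpr this)
  have : A.valuation (a + b) = A.valuation a :=
    Valuation.map_add_eq_of_lt_left _ (hb.trans h)
  rw [this] at hs
  exact absurd hs (not_le.mpr h)

lemma one_sub_mul_ne_zero {w c : K} (hw : w ∈ A.nonunits) (hc : c ∈ A) : 1 - w * c ≠ 0 := by
  have h := mul_mem_nonunits_of_mem A hc hw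
  rw [ValuationSubring.mem_nonunits_iff] at h
  intro h0
  have : A.valuation (1 - w * c) = 1 := Valuation.map_one_sub_of_lt _ h
  rw [h0, map_zero] at this
  exact zero_ne_one this

lemma inv_one_sub_mul_mem {w c : K} (hw : w ∈ A.nonunits) (hc : c ∈ A) : (1 - w * c)⁻¹ ∈ A := by
  have h := mul_mem_nonunits_of_mem A hc hw
  rw [ValuationSubring.mem_nonunits_iff] at h
  rw [← A.valuation_le_one_iff, map_inv₀, Valuation.map_one_sub_of_lt _ h, inv_one]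

lemma nonunits_mem {m : K} (hm : m ∈ A.nonunits) : m ∈ A := A.nonunits_subset hm

/-! ### Pure field identities -/

lemma pair_prod_identity {b₄ b₆ b₈ w x₁ x₂ p u₁ u₂ : K}
    (e₁ : x₁ * (u₁ * w) = 1) (e₂ : x₂ * (u₂ * w) = 1)
    (hprod : p * (x₁ - x₂) ^ 2 = (x₁ * x₂) ^ 2 - b₄ * (x₁ * x₂) - b₆ * (x₁ + x₂) - b₈) :
    p * ((u₁ - u₂) ^ 2 * w ^ 2) =
      1 - w * (w * (b₄ * u₁ * u₂ + b₆ * (u₁ + u₂) * u₁ * u₂ * w +
        b₈ * u₁ ^ 2 * u₂ ^ 2 * w ^ 2)) := by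
  grind

lemma pair_sum_identity {b₂ b₄ b₆ w x₁ x₂ s u₁ u₂ : K}
    (e₁ : x₁ * (u₁ * w) = 1) (e₂ : x₂ * (u₂ * w) = 1) (hw : w ≠ 0)
    (hsum : s * (x₁ - x₂) ^ 2 =
      2 * (x₁ + x₂) * (x₁ * x₂) + b₂ * (x₁ * x₂) + b₄ * (x₁ + x₂) + b₆) :
    s * ((u₁ - u₂) ^ 2 * w) =
      2 * (u₁ + u₂) + w * (b₂ * u₁ * u₂ + b₄ * (u₁ + u₂) * u₁ * u₂ * w +
        b₆ * u₁ ^ 2 * u₂ ^ 2 * w ^ 2) := by
  have h : w * (s * ((u₁ - u₂) ^ 2 * w)) =
      w * (2 * (u₁ + u₂) + w * (b₂ * u₁ * u₂ + b₄ * (u₁ + u₂) * u₁ * u₂ * w +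
        b₆ * u₁ ^ 2 * u₂ ^ 2 * w ^ 2)) := by
    grind
  exact mul_left_cancel₀ hw h

/-- The core computation for two points with distinct `x`-coordinates: from the sum and product
of `x(P+Q)` and `x(P-Q)`. -/
lemma pair_core {b₂ b₄ b₆ b₈ w x₁ x₂ x₃ x₄ : K}
    (hb₂ : b₂ ∈ A) (hb₄ : b₄ ∈ A) (hb₆ : b₆ ∈ A) (hb₈ : b₈ ∈ A)
    (hw : w ∈ A.nonunits) (hw0 : w ≠ 0) (hx₁ : x₁ ≠ 0) (hx₂ : x₂ ≠ 0)
    (hu₁ : (x₁ * w)⁻¹ ∈ A) (hu₂ : (x₂ * w)⁻¹ ∈ A)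
    (hsum : (x₃ + x₄) * (x₁ - x₂) ^ 2 =
      2 * (x₁ + x₂) * (x₁ * x₂) + b₂ * (x₁ * x₂) + b₄ * (x₁ + x₂) + b₆)
    (hprod : x₃ * x₄ * (x₁ - x₂) ^ 2 =
      (x₁ * x₂) ^ 2 - b₄ * (x₁ * x₂) - b₆ * (x₁ + x₂) - b₈) :
    x₃ ≠ 0 ∧ x₄ ≠ 0 ∧ (x₃ * w)⁻¹ ∈ A ∧ (x₄ * w)⁻¹ ∈ A ∧
      (x₃ * w)⁻¹ + (x₄ * w)⁻¹ - 2 * (x₁ * w)⁻¹ - 2 * (x₂ * w)⁻¹ ∈ A.nonunits := by
  set u₁ := (x₁ * w)⁻¹ with hu₁def
  set u₂ := (x₂ * w)⁻¹ with hu₂def
  have e₁ : x₁ * (u₁ * w) = 1 := by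
    rw [hu₁def]; field_simp
  have e₂ : x₂ * (u₂ * w) = 1 := by
    rw [hu₂def]; field_simp
  have hwA : w ∈ A := nonunits_mem A hw
  set c₁ := w * (b₄ * u₁ * u₂ + b₆ * (u₁ + u₂) * u₁ * u₂ * w + b₈ * u₁ ^ 2 * u₂ ^ 2 * w ^ 2)
    with hc₁
  set c₂ := b₂ * u₁ * u₂ + b₄ * (u₁ + u₂) * u₁ * u₂ * w + b₆ * u₁ ^ 2 * u₂ ^ 2 * w ^ 2 with hc₂
  have hc₁A : c₁ ∈ A := by
    rw [hc₁]
    exact A.mul_mem _ _ hwA (A.add_mem _ _ (A.add_mem _ _ (A.mul_mem _ _ (A.mul_mem _ _ hb₄ hu₁) hu₂)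
      (A.mul_mem _ _ (A.mul_mem _ _ (A.mul_mem _ _ (A.mul_mem _ _ hb₆ (A.add_mem _ _ hu₁ hu₂)) hu₁)
        hu₂) hwA))
      (A.mul_mem _ _ (A.mul_mem _ _ (A.mul_mem _ _ hb₈ (pow_mem hu₁ 2)) (pow_mem hu₂ 2))
        (pow_mem hwA 2)))
  have hc₂A : c₂ ∈ A := by
    rw [hc₂]
    exact A.add_mem _ _ (A.add_mem _ _ (A.mul_mem _ _ (A.mul_mem _ _ hb₂ hu₁) hu₂)
      (A.mul_mem _ _ (A.mul_mem _ _ (A.mul_mem _ _ (A.mul_mem _ _ hb₄ (A.add_mem _ _ hu₁ hu₂)) hu₁)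
        hu₂) hwA))
      (A.mul_mem _ _ (A.mul_mem _ _ (A.mul_mem _ _ hb₆ (pow_mem hu₁ 2)) (pow_mem hu₂ 2))
        (pow_mem hwA 2))
  have hP : x₃ * x₄ * ((u₁ - u₂) ^ 2 * w ^ 2) = 1 - w * c₁ :=
    pair_prod_identity e₁ e₂ hprod
  have hS : (x₃ + x₄) * ((u₁ - u₂) ^ 2 * w) = 2 * (u₁ + u₂) + w * c₂ :=
    pair_sum_identity e₁ e₂ hw0 hsum
  have hN₁ : 1 - w * c₁ ≠ 0 := one_sub_mul_ne_zero A hw hc₁A
  have hN₁inv : (1 - w * c₁)⁻¹ ∈ A := inv_one_sub_mul_mem A hw hc₁A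
  have hx₃ : x₃ ≠ 0 := by
    rintro rfl
    rw [zero_mul, zero_mul] at hP
    exact hN₁ hP.symm
  have hx₄ : x₄ ≠ 0 := by
    rintro rfl
    rw [mul_zero, zero_mul] at hP
    exact hN₁ hP.symm
  have hd : u₁ - u₂ ≠ 0 := by
    intro h
    rw [h] at hP
    simp at hP
    exact hN₁ hP.symm
  -- product and sum of the new `u`'s
  have hprod' : (x₃ * w)⁻¹ * (x₄ * w)⁻¹ = (u₁ - u₂) ^ 2 * (1 - w * c₁)⁻¹ := by
    rw [← hP]
    field_simp
  have hsum' : (x₃ * w)⁻¹ + (x₄ * w)⁻¹ = (2 * (u₁ + u₂) + w * c₂) * (1 - w * c₁)⁻¹ := by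
    rw [← hP, ← hS]
    field_simp
    ring
  have hprodA : (x₃ * w)⁻¹ * (x₄ * w)⁻¹ ∈ A := by
    rw [hprod']
    exact A.mul_mem _ _ (pow_mem (sub_mem hu₁ hu₂) 2) hN₁inv
  have h2A : (2 : K) ∈ A := by
    have : (2 : K) = 1 + 1 := by norm_num
    rw [this]
    exact A.add_mem _ _ A.one_mem A.one_mem
  have hsumA : (x₃ * w)⁻¹ + (x₄ * w)⁻¹ ∈ A := by
    rw [hsum']
    exact A.mul_mem _ _ (A.add_mem _ _ (A.mul_mem _ _ h2A (A.add_mem _ _ hu₁ hu₂))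
      (A.mul_mem _ _ hwA hc₂A)) hN₁inv
  have hu₃ : (x₃ * w)⁻¹ ∈ A := mem_of_mul_mem_of_add_mem A hprodA hsumA
  have hu₄ : (x₄ * w)⁻¹ ∈ A :=
    mem_of_mul_mem_of_add_mem A (by rwa [mul_comm] at hprodA) (by rwa [add_comm] at hsumA)
  refine ⟨hx₃, hx₄, hu₃, hu₄, ?_⟩
  have hkey : (x₃ * w)⁻¹ + (x₄ * w)⁻¹ - 2 * u₁ - 2 * u₂ =
      w * ((c₂ + 2 * (u₁ + u₂) * c₁) * (1 - w * c₁)⁻¹) := by
    rw [hsum']
    field_simp
    ring
  rw [hkey]
  exact mul_mem_nonunits_of_mem A (A.mul_mem _ _ (A.add_mem _ _ hc₂A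
    (A.mul_mem _ _ (A.mul_mem _ _ h2A (A.add_mem _ _ hu₁ hu₂)) hc₁A)) hN₁inv) hw

lemma dbl_den_identity {b₂ b₄ b₆ w x e u : K} (e₁ : x * (u * w) = 1)
    (hD2 : e = 4 * x ^ 3 + b₂ * x ^ 2 + 2 * b₄ * x + b₆) :
    e * (u * w) ^ 4 =
      w * (4 * u + w * (b₂ * u ^ 2 + 2 * b₄ * u ^ 3 * w + b₆ * u ^ 4 * w ^ 2)) := by
  grind

lemma dbl_num_identity {b₄ b₆ b₈ w x x' e u : K} (e₁ : x * (u * w) = 1)
    (hD1 : x' * e = x ^ 4 - b₄ * x ^ 2 - 2 * b₆ * x - b₈) :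
    x' * (e * (u * w) ^ 4) =
      1 - w * (w * (b₄ * u ^ 2 + 2 * b₆ * u ^ 3 * w + b₈ * u ^ 4 * w ^ 2)) := by
  grind

/-- The core computation for doubling, vertical tangent case. -/
lemma dbl_core_zero {b₂ b₄ b₆ w x : K}
    (hb₂ : b₂ ∈ A) (hb₄ : b₄ ∈ A) (hb₆ : b₆ ∈ A)
    (hw : w ∈ A.nonunits) (hw0 : w ≠ 0) (hx : x ≠ 0) (hu : (x * w)⁻¹ ∈ A)
    (hD2 : (0 : K) = 4 * x ^ 3 + b₂ * x ^ 2 + 2 * b₄ * x + b₆) :
    4 * (x * w)⁻¹ ∈ A.nonunits := by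
  set u := (x * w)⁻¹ with hudef
  have e₁ : x * (u * w) = 1 := by
    rw [hudef]; field_simp
  have hwA : w ∈ A := nonunits_mem A hw
  have h2A : (2 : K) ∈ A := by
    have : (2 : K) = 1 + 1 := by norm_num
    rw [this]
    exact A.add_mem _ _ A.one_mem A.one_mem
  set c₂ := b₂ * u ^ 2 + 2 * b₄ * u ^ 3 * w + b₆ * u ^ 4 * w ^ 2 with hc₂
  have hc₂A : c₂ ∈ A := by
    rw [hc₂]
    exact A.add_mem _ _ (A.add_mem _ _ (A.mul_mem _ _ hb₂ (pow_mem hu 2))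
      (A.mul_mem _ _ (A.mul_mem _ _ (A.mul_mem _ _ h2A hb₄) (pow_mem hu 3)) hwA))
      (A.mul_mem _ _ (A.mul_mem _ _ hb₆ (pow_mem hu 4)) (pow_mem hwA 2))
  have h := dbl_den_identity e₁ hD2
  rw [zero_mul] at h
  have h4 : 4 * u = w * (-c₂) := by
    have := (mul_eq_zero.mp h.symm).resolve_left hw0
    linear_combination this
  rw [h4]
  exact mul_mem_nonunits_of_mem A (neg_mem hc₂A) hw

/-- The core computation for doubling, generic case. -/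
lemma dbl_core {b₂ b₄ b₆ b₈ w x x' e : K}
    (hb₂ : b₂ ∈ A) (hb₄ : b₄ ∈ A) (hb₆ : b₆ ∈ A) (hb₈ : b₈ ∈ A)
    (hw : w ∈ A.nonunits) (hw0 : w ≠ 0) (hx : x ≠ 0) (hu : (x * w)⁻¹ ∈ A)
    (hD2 : e = 4 * x ^ 3 + b₂ * x ^ 2 + 2 * b₄ * x + b₆)
    (hD1 : x' * e = x ^ 4 - b₄ * x ^ 2 - 2 * b₆ * x - b₈) :
    x' ≠ 0 ∧ (x' * w)⁻¹ ∈ A ∧ (x' * w)⁻¹ - 4 * (x * w)⁻¹ ∈ A.nonunits := by
  set u := (x * w)⁻¹ with hudef
  have e₁ : x * (u * w) = 1 := by
    rw [hudef]; field_simp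
  have hwA : w ∈ A := nonunits_mem A hw
  have h2A : (2 : K) ∈ A := by
    have : (2 : K) = 1 + 1 := by norm_num
    rw [this]
    exact A.add_mem _ _ A.one_mem A.one_mem
  have h4A : (4 : K) ∈ A := by
    have : (4 : K) = 2 * 2 := by norm_num
    rw [this]
    exact A.mul_mem _ _ h2A h2A
  set c₁ := w * (b₄ * u ^ 2 + 2 * b₆ * u ^ 3 * w + b₈ * u ^ 4 * w ^ 2) with hc₁
  set c₂ := b₂ * u ^ 2 + 2 * b₄ * u ^ 3 * w + b₆ * u ^ 4 * w ^ 2 with hc₂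
  have hc₁A : c₁ ∈ A := by
    rw [hc₁]
    exact A.mul_mem _ _ hwA (A.add_mem _ _ (A.add_mem _ _ (A.mul_mem _ _ hb₄ (pow_mem hu 2))
      (A.mul_mem _ _ (A.mul_mem _ _ (A.mul_mem _ _ h2A hb₆) (pow_mem hu 3)) hwA))
      (A.mul_mem _ _ (A.mul_mem _ _ hb₈ (pow_mem hu 4)) (pow_mem hwA 2)))
  have hc₂A : c₂ ∈ A := by
    rw [hc₂]
    exact A.add_mem _ _ (A.add_mem _ _ (A.mul_mem _ _ hb₂ (pow_mem hu 2))
      (A.mul_mem _ _ (A.mul_mem _ _ (A.mul_mem _ _ h2A hb₄) (pow_mem hu 3)) hwA))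
      (A.mul_mem _ _ (A.mul_mem _ _ hb₆ (pow_mem hu 4)) (pow_mem hwA 2))
  have hden : e * (u * w) ^ 4 = w * (4 * u + w * c₂) := dbl_den_identity e₁ hD2
  have hnum : x' * (e * (u * w) ^ 4) = 1 - w * c₁ := dbl_num_identity e₁ hD1
  have hN₁ : 1 - w * c₁ ≠ 0 := one_sub_mul_ne_zero A hw hc₁A
  have hN₁inv : (1 - w * c₁)⁻¹ ∈ A := inv_one_sub_mul_mem A hw hc₁A
  have hx' : x' ≠ 0 := by
    rintro rfl
    rw [zero_mul] at hnum
    exact hN₁ hnum.symm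
  rw [hden] at hnum
  have hM₂ : 4 * u + w * c₂ ≠ 0 := by
    intro h
    rw [h, mul_zero, mul_zero] at hnum
    exact hN₁ hnum.symm
  have hu' : (x' * w)⁻¹ = (4 * u + w * c₂) * (1 - w * c₁)⁻¹ := by
    rw [← hnum]
    field_simp
  refine ⟨hx', ?_, ?_⟩
  · rw [hu']
    exact A.mul_mem _ _ (A.add_mem _ _ (A.mul_mem _ _ h4A hu) (A.mul_mem _ _ hwA hc₂A)) hN₁inv
  · have hkey : (x' * w)⁻¹ - 4 * u = w * ((c₂ + 4 * u * c₁) * (1 - w * c₁)⁻¹) := by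
      rw [hu']
      field_simp
      ring
    rw [hkey]
    exact mul_mem_nonunits_of_mem A (A.mul_mem _ _ (A.add_mem _ _ hc₂A
      (A.mul_mem _ _ (A.mul_mem _ _ h4A hu) hc₁A)) hN₁inv) hw

/-! ### Weierstrass curve identities -/

section Weierstrass

variable [DecidableEq K] (W : WeierstrassCurve.Affine K)

lemma addX_add_addX {x₁ x₂ y₁ y₂ : K} (h₁ : W.Equation x₁ y₁) (h₂ : W.Equation x₂ y₂)
    (hx : x₁ ≠ x₂) :
    (W.addX x₁ x₂ (W.slope x₁ x₂ y₁ y₂) + W.addX x₁ x₂ (W.slope x₁ x₂ y₁ (W.negY x₂ y₂))) *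
        (x₁ - x₂) ^ 2 =
      2 * (x₁ + x₂) * (x₁ * x₂) + W.b₂ * (x₁ * x₂) + W.b₄ * (x₁ + x₂) + W.b₆ := by
  rw [slope_of_X_ne hx, slope_of_X_ne hx]
  rw [equation_iff] at h₁ h₂
  have hd : x₁ - x₂ ≠ 0 := sub_ne_zero.mpr hx
  simp only [addX, negY, b₂, b₄, b₆]
  field_simp
  linear_combination 2 * h₁ + 2 * h₂

lemma addX_mul_addX {x₁ x₂ y₁ y₂ : K} (h₁ : W.Equation x₁ y₁) (h₂ : W.Equation x₂ y₂)
    (hx : x₁ ≠ x₂) :
    (W.addX x₁ x₂ (W.slope x₁ x₂ y₁ y₂) * W.addX x₁ x₂ (W.slope x₁ x₂ y₁ (W.negY x₂ y₂))) *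
        (x₁ - x₂) ^ 2 =
      (x₁ * x₂) ^ 2 - W.b₄ * (x₁ * x₂) - W.b₆ * (x₁ + x₂) - W.b₈ := by
  rw [slope_of_X_ne hx, slope_of_X_ne hx]
  rw [equation_iff] at h₁ h₂
  have hd : x₁ - x₂ ≠ 0 := sub_ne_zero.mpr hx
  simp only [addX, negY, b₄, b₆, b₈]
  field_simp
  grind

omit [DecidableEq K] in
lemma dbl_den {x y : K} (h : W.Equation x y) :
    (y - W.negY x y) ^ 2 = 4 * x ^ 3 + W.b₂ * x ^ 2 + 2 * W.b₄ * x + W.b₆ := by
  rw [equation_iff] at h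
  simp only [negY, b₂, b₄, b₆]
  linear_combination 4 * h

lemma dbl_num {x y : K} (h : W.Equation x y) (hy : y ≠ W.negY x y) :
    W.addX x x (W.slope x x y y) * (y - W.negY x y) ^ 2 =
      x ^ 4 - W.b₄ * x ^ 2 - 2 * W.b₆ * x - W.b₈ := by
  rw [slope_of_Y_ne rfl hy]
  have hd : y - W.negY x y ≠ 0 := sub_ne_zero.mpr hy
  have hη : y - W.negY x y = 2 * y + W.a₁ * x + W.a₃ := by
    simp only [negY]; ring
  rw [equation_iff] at h
  generalize y - W.negY x y = η at hd hη ⊢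
  have key : W.addX x x ((3 * x ^ 2 + 2 * W.a₂ * x + W.a₄ - W.a₁ * y) / η) * η ^ 2 =
      (3 * x ^ 2 + 2 * W.a₂ * x + W.a₄ - W.a₁ * y) ^ 2 +
        W.a₁ * (3 * x ^ 2 + 2 * W.a₂ * x + W.a₄ - W.a₁ * y) * η - (W.a₂ + 2 * x) * η ^ 2 := by
    simp only [addX]
    field_simp
    ring
  rw [key, hη]
  simp only [b₄, b₆, b₈]
  grind

end Weierstrass

/-! ### Points -/

section Points

variable [DecidableEq K] (W : WeierstrassCurve.Affine K)

/-- The Weierstrass curve `W` has coefficients in the valuation subring `A`. -/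
def IntegralCoeffs : Prop :=
  W.a₁ ∈ A ∧ W.a₂ ∈ A ∧ W.a₃ ∈ A ∧ W.a₄ ∈ A ∧ W.a₆ ∈ A

variable {A W}

omit [DecidableEq K] in
lemma two_mem : (2 : K) ∈ A := by
  have : (2 : K) = 1 + 1 := by norm_num
  rw [this]
  exact A.add_mem _ _ A.one_mem A.one_mem

omit [DecidableEq K] in
lemma four_mem : (4 : K) ∈ A := by
  have : (4 : K) = 2 * 2 := by norm_num
  rw [this]
  exact A.mul_mem _ _ two_mem two_mem

omit [DecidableEq K] in
lemma IntegralCoeffs.b₂_mem (hW : IntegralCoeffs A W) : W.b₂ ∈ A := by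
  obtain ⟨h₁, h₂, h₃, h₄, h₆⟩ := hW
  simp only [b₂]
  exact A.add_mem _ _ (pow_mem h₁ 2) (A.mul_mem _ _ four_mem h₂)

omit [DecidableEq K] in
lemma IntegralCoeffs.b₄_mem (hW : IntegralCoeffs A W) : W.b₄ ∈ A := by
  obtain ⟨h₁, h₂, h₃, h₄, h₆⟩ := hW
  simp only [b₄]
  exact A.add_mem _ _ (A.mul_mem _ _ two_mem h₄) (A.mul_mem _ _ h₁ h₃)

omit [DecidableEq K] in
lemma IntegralCoeffs.b₆_mem (hW : IntegralCoeffs A W) : W.b₆ ∈ A := by
  obtain ⟨h₁, h₂, h₃, h₄, h₆⟩ := hW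
  simp only [b₆]
  exact A.add_mem _ _ (pow_mem h₃ 2) (A.mul_mem _ _ four_mem h₆)

omit [DecidableEq K] in
lemma IntegralCoeffs.b₈_mem (hW : IntegralCoeffs A W) : W.b₈ ∈ A := by
  obtain ⟨h₁, h₂, h₃, h₄, h₆⟩ := hW
  simp only [b₈]
  exact sub_mem (A.add_mem _ _ (sub_mem (A.add_mem _ _ (A.mul_mem _ _ (pow_mem h₁ 2) h₆)
    (A.mul_mem _ _ (A.mul_mem _ _ four_mem h₂) h₆)) (A.mul_mem _ _ (A.mul_mem _ _ h₁ h₃) h₄))
    (A.mul_mem _ _ h₂ (pow_mem h₃ 2))) (pow_mem h₄ 2)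

variable (W) in
/-- The coordinate `u(P) = (x(P) w)⁻¹`, with `u(0) = 0`. -/
noncomputable def uOf (w : K) : W.Point → K
  | .zero => 0
  | .some x _ _ => (x * w)⁻¹

variable (A W) in
/-- Membership in the subgroup `G_w`: `P = 0`, or `x(P) ≠ 0` and `(x(P) w)⁻¹ ∈ A`. -/
def InG (w : K) : W.Point → Prop
  | .zero => True
  | .some x _ _ => x ≠ 0 ∧ (x * w)⁻¹ ∈ A

omit [DecidableEq K] in
@[simp] lemma uOf_zero (w : K) : uOf W w 0 = 0 := rfl

omit [DecidableEq K] in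
@[simp] lemma uOf_some (w : K) {x y : K} (h : W.Nonsingular x y) :
    uOf W w (Point.some x y h) = (x * w)⁻¹ := rfl

omit [DecidableEq K] in
@[simp] lemma InG_zero (w : K) : InG A W w 0 := trivial

omit [DecidableEq K] in
@[simp] lemma InG_some (w : K) {x y : K} (h : W.Nonsingular x y) :
    InG A W w (Point.some x y h) ↔ x ≠ 0 ∧ (x * w)⁻¹ ∈ A := Iff.rfl

omit [DecidableEq K] in
lemma uOf_neg (w : K) (P : W.Point) : uOf W w (-P) = uOf W w P := by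
  cases P <;> rfl

omit [DecidableEq K] in
lemma InG_neg (w : K) (P : W.Point) : InG A W w (-P) ↔ InG A W w P := by
  cases P <;> exact Iff.rfl

/-- Doubling: `G_w` is stable and `u(2P) ≡ 4 u(P)`. -/
lemma dbl_point (hW : IntegralCoeffs A W) {w : K} (hw : w ∈ A.nonunits) (hw0 : w ≠ 0)
    (P : W.Point) (hP : InG A W w P) :
    InG A W w (P + P) ∧ uOf W w (P + P) - 4 * uOf W w P ∈ A.nonunits := by
  cases P with
  | zero =>
    rw [← Point.zero_def, add_zero]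
    refine ⟨trivial, ?_⟩
    simp only [uOf_zero, mul_zero, sub_zero]
    exact zero_mem _
  | some x y h =>
    obtain ⟨hx, hu⟩ := hP
    by_cases hy : y = W.negY x y
    · rw [Point.add_self_of_Y_eq hy]
      refine ⟨trivial, ?_⟩
      have hD2 := dbl_den W h.1
      rw [sub_eq_zero.mpr hy, zero_pow two_ne_zero] at hD2
      have := dbl_core_zero A hW.b₂_mem hW.b₄_mem hW.b₆_mem hw hw0 hx hu hD2
      simp only [uOf_zero, uOf_some, zero_sub]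
      exact neg_mem this
    · rw [Point.add_self_of_Y_ne hy]
      obtain ⟨hx', hu', hd⟩ := dbl_core A hW.b₂_mem hW.b₄_mem hW.b₆_mem hW.b₈_mem hw hw0 hx hu
        (dbl_den W h.1) (dbl_num W h.1 hy)
      exact ⟨⟨hx', hu'⟩, hd⟩

/-- The parallelogram law on `G_w` modulo the maximal ideal. -/
theorem parallelogram (hW : IntegralCoeffs A W) {w : K} (hw : w ∈ A.nonunits) (hw0 : w ≠ 0)
    (P Q : W.Point) (hP : InG A W w P) (hQ : InG A W w Q) :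
    InG A W w (P + Q) ∧ InG A W w (P - Q) ∧
      uOf W w (P + Q) + uOf W w (P - Q) - 2 * uOf W w P - 2 * uOf W w Q ∈ A.nonunits := by
  cases P with
  | zero =>
    rw [← Point.zero_def, zero_add, zero_sub]
    refine ⟨hQ, (InG_neg w Q).mpr hQ, ?_⟩
    rw [uOf_neg, uOf_zero]
    have : uOf W w Q + uOf W w Q - 2 * 0 - 2 * uOf W w Q = 0 := by ring
    rw [this]
    exact zero_mem _
  | some x₁ y₁ h₁ =>
    cases Q with
    | zero =>
      rw [← Point.zero_def, add_zero, sub_zero]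
      refine ⟨hP, hP, ?_⟩
      rw [uOf_zero]
      have : uOf W w (Point.some x₁ y₁ h₁) + uOf W w (Point.some x₁ y₁ h₁) -
          2 * uOf W w (Point.some x₁ y₁ h₁) - 2 * 0 = 0 := by ring
      rw [this]
      exact zero_mem _
    | some x₂ y₂ h₂ =>
      by_cases hx : x₁ = x₂
      · obtain ⟨hd1, hd2⟩ := dbl_point hW hw hw0 (Point.some x₁ y₁ h₁) hP
        rcases (Point.X_eq_iff (h₁ := h₁) (h₂ := h₂)).mp hx with hPQ | hPQ
        · rw [← hPQ, sub_self]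
          refine ⟨hd1, trivial, ?_⟩
          rw [uOf_zero]
          have : uOf W w (Point.some x₁ y₁ h₁ + Point.some x₁ y₁ h₁) + 0 -
              2 * uOf W w (Point.some x₁ y₁ h₁) - 2 * uOf W w (Point.some x₁ y₁ h₁) =
              uOf W w (Point.some x₁ y₁ h₁ + Point.some x₁ y₁ h₁) -
                4 * uOf W w (Point.some x₁ y₁ h₁) := by ring
          rw [this]
          exact hd2
        · have hQ' : Point.some x₂ y₂ h₂ = -Point.some x₁ y₁ h₁ := by rw [hPQ, neg_neg]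
          rw [hQ', add_neg_cancel, sub_neg_eq_add, uOf_neg]
          refine ⟨trivial, hd1, ?_⟩
          rw [uOf_zero]
          have : 0 + uOf W w (Point.some x₁ y₁ h₁ + Point.some x₁ y₁ h₁) -
              2 * uOf W w (Point.some x₁ y₁ h₁) - 2 * uOf W w (Point.some x₁ y₁ h₁) =
              uOf W w (Point.some x₁ y₁ h₁ + Point.some x₁ y₁ h₁) -
                4 * uOf W w (Point.some x₁ y₁ h₁) := by ring
          rw [this]
          exact hd2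
      · obtain ⟨hx₁, hu₁⟩ := hP
        obtain ⟨hx₂, hu₂⟩ := hQ
        obtain ⟨hx₃, hx₄, hu₃, hu₄, hpar⟩ := pair_core A hW.b₂_mem hW.b₄_mem hW.b₆_mem hW.b₈_mem
          hw hw0 hx₁ hx₂ hu₁ hu₂ (addX_add_addX W h₁.1 h₂.1 hx) (addX_mul_addX W h₁.1 h₂.1 hx)
        rw [sub_eq_add_neg, Point.neg_some, Point.add_of_X_ne hx, Point.add_of_X_ne hx]
        exact ⟨⟨hx₃, hu₃⟩, ⟨hx₄, hu₄⟩, hpar⟩

/-- `u(n • P₀) ≡ n²` modulo the maximal ideal, where `u = x(P₀) / x`. -/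
theorem uOf_nsmul (hW : IntegralCoeffs A W) {x₀ y₀ : K} (h₀ : W.Nonsingular x₀ y₀)
    (hx₀ : x₀ ∉ A) (n : ℕ) :
    InG A W x₀⁻¹ (n • Point.some x₀ y₀ h₀) ∧
      uOf W x₀⁻¹ (n • Point.some x₀ y₀ h₀) - (n : K) ^ 2 ∈ A.nonunits := by
  have hx₀0 : x₀ ≠ 0 := fun h => hx₀ (h ▸ A.zero_mem)
  have hw : x₀⁻¹ ∈ A.nonunits := A.inv_mem_nonunits_iff.mpr (Or.inr hx₀)
  have hw0 : x₀⁻¹ ≠ 0 := inv_ne_zero hx₀0
  have hP₀ : InG A W x₀⁻¹ (Point.some x₀ y₀ h₀) := by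
    refine ⟨hx₀0, ?_⟩
    rw [mul_inv_cancel₀ hx₀0, inv_one]
    exact A.one_mem
  have hu₀ : uOf W x₀⁻¹ (Point.some x₀ y₀ h₀) = 1 := by
    rw [uOf_some, mul_inv_cancel₀ hx₀0, inv_one]
  induction n using Nat.twoStepInduction with
  | zero =>
    rw [zero_smul]
    refine ⟨trivial, ?_⟩
    simp only [uOf_zero, Nat.cast_zero, ne_eq, OfNat.ofNat_ne_zero, not_false_eq_true, zero_pow,
      sub_zero]
    exact zero_mem _
  | one =>
    rw [one_smul]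
    refine ⟨hP₀, ?_⟩
    rw [hu₀]
    simp only [Nat.cast_one, one_pow, sub_self]
    exact zero_mem _
  | more n ih0 ih1 =>
    obtain ⟨hG0, hu0⟩ := ih0
    obtain ⟨hG1, hu1⟩ := ih1
    obtain ⟨hadd, -, hpar⟩ := parallelogram hW hw hw0 _ _ hG1 hP₀
    have e1 : (n + 1) • Point.some x₀ y₀ h₀ + Point.some x₀ y₀ h₀ =
        (n + 2) • Point.some x₀ y₀ h₀ := by
      exact (succ_nsmul (Point.some x₀ y₀ h₀) (n + 1)).symm
    have e2 : (n + 1) • Point.some x₀ y₀ h₀ - Point.some x₀ y₀ h₀ =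
        n • Point.some x₀ y₀ h₀ := by
      rw [succ_nsmul, add_sub_cancel_right]
    rw [e1] at hadd hpar
    rw [e2, hu₀] at hpar
    refine ⟨hadd, ?_⟩
    have key : uOf W x₀⁻¹ ((n + 2) • Point.some x₀ y₀ h₀) - ((n + 2 : ℕ) : K) ^ 2 =
        (uOf W x₀⁻¹ ((n + 2) • Point.some x₀ y₀ h₀) + uOf W x₀⁻¹ (n • Point.some x₀ y₀ h₀) -
          2 * uOf W x₀⁻¹ ((n + 1) • Point.some x₀ y₀ h₀) - 2 * 1) -
        (uOf W x₀⁻¹ (n • Point.some x₀ y₀ h₀) - (n : K) ^ 2) +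
        ((uOf W x₀⁻¹ ((n + 1) • Point.some x₀ y₀ h₀) - ((n + 1 : ℕ) : K) ^ 2) +
          (uOf W x₀⁻¹ ((n + 1) • Point.some x₀ y₀ h₀) - ((n + 1 : ℕ) : K) ^ 2)) := by
      push_cast
      ring
    rw [key]
    exact add_mem (sub_mem hpar hu0) (add_mem hu1 hu1)

omit [DecidableEq K] in
lemma natCast_mem_nonunits_of_sq {n : ℕ} (h : (n : K) ^ 2 ∈ A.nonunits) :
    (n : K) ∈ A.nonunits := by
  rw [ValuationSubring.mem_nonunits_iff] at h ⊢
  by_contra hn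
  have hn : 1 ≤ A.valuation (n : K) := not_lt.mp hn
  rw [map_pow] at h
  exact absurd h (not_lt.mpr (one_le_pow₀ hn))

/-- **The kernel of reduction has no torsion of order prime to the residue characteristic.**
If `W` has coefficients in the valuation subring `A`, the point `(x, y)` has `x ∉ A`, and `n` is
a unit of `A`, then `n • (x, y) ≠ 0`. -/
theorem nsmul_ne_zero_of_X_notMem (hW : IntegralCoeffs A W) {x y : K} (h : W.Nonsingular x y)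
    (hx : x ∉ A) (n : ℕ) (hn : (n : K) ∉ A.nonunits) : n • Point.some x y h ≠ 0 := by
  intro h0
  obtain ⟨-, hu⟩ := uOf_nsmul hW h hx n
  rw [h0, uOf_zero, zero_sub] at hu
  exact hn (natCast_mem_nonunits_of_sq (by simpa using neg_mem hu))

variable (A W) in
/-- The kernel of reduction: the zero point and the affine points whose `x`-coordinate is not
in `A`. -/
def InKer : W.Point → Prop
  | .zero => True
  | .some x _ _ => x ∉ A

omit [DecidableEq K] in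
@[simp] lemma InKer_zero : InKer A W 0 := trivial

omit [DecidableEq K] in
@[simp] lemma InKer_some {x y : K} (h : W.Nonsingular x y) :
    InKer A W (Point.some x y h) ↔ x ∉ A := Iff.rfl

omit [DecidableEq K] in
lemma InKer_neg (P : W.Point) : InKer A W (-P) ↔ InKer A W P := by
  cases P <;> exact Iff.rfl

omit [DecidableEq K] in
lemma InKer_of_InG {w : K} (hw : w ∈ A.nonunits) (hw0 : w ≠ 0) {P : W.Point}
    (hP : InG A W w P) : InKer A W P := by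
  cases P with
  | zero => trivial
  | some x y h =>
    obtain ⟨hx, hu⟩ := hP
    intro hxA
    have h1 : x * w ∈ A.nonunits := by
      rw [mul_comm]; exact mul_mem_nonunits_of_mem A hxA hw
    rw [ValuationSubring.mem_nonunits_iff] at h1
    rw [← A.valuation_le_one_iff, map_inv₀] at hu
    have h2 : A.valuation (x * w) ≠ 0 := by
      rw [ne_eq, Valuation.zero_iff]
      exact mul_ne_zero hx hw0
    have h3 : 1 ≤ A.valuation (x * w) := by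
      rwa [inv_le_one₀ (zero_lt_iff.mpr h2)] at hu
    exact absurd h1 (not_lt.mpr h3)

/-- The kernel of reduction is closed under addition. -/
theorem InKer_add (hW : IntegralCoeffs A W) {P Q : W.Point} (hP : InKer A W P)
    (hQ : InKer A W Q) : InKer A W (P + Q) := by
  cases P with
  | zero => rwa [← Point.zero_def, zero_add]
  | some x₁ y₁ h₁ =>
    cases Q with
    | zero => rwa [← Point.zero_def, add_zero]
    | some x₂ y₂ h₂ =>
      have hx₁ : x₁ ∉ A := hP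
      have hx₂ : x₂ ∉ A := hQ
      have hx₁0 : x₁ ≠ 0 := fun h => hx₁ (h ▸ A.zero_mem)
      have hx₂0 : x₂ ≠ 0 := fun h => hx₂ (h ▸ A.zero_mem)
      rcases A.mem_or_inv_mem (x₁ / x₂) with hm | hm
      · -- use `w = x₁⁻¹`
        have hw : x₁⁻¹ ∈ A.nonunits := A.inv_mem_nonunits_iff.mpr (Or.inr hx₁)
        have hG₁ : InG A W x₁⁻¹ (Point.some x₁ y₁ h₁) := by
          refine ⟨hx₁0, ?_⟩
          rw [mul_inv_cancel₀ hx₁0, inv_one]
          exact A.one_mem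
        have hG₂ : InG A W x₁⁻¹ (Point.some x₂ y₂ h₂) := by
          refine ⟨hx₂0, ?_⟩
          have : (x₂ * x₁⁻¹)⁻¹ = x₁ / x₂ := by field_simp
          rwa [this]
        exact InKer_of_InG hw (inv_ne_zero hx₁0)
          (parallelogram hW hw (inv_ne_zero hx₁0) _ _ hG₁ hG₂).1
      · have hw : x₂⁻¹ ∈ A.nonunits := A.inv_mem_nonunits_iff.mpr (Or.inr hx₂)
        have hG₁ : InG A W x₂⁻¹ (Point.some x₁ y₁ h₁) := by
          refine ⟨hx₁0, ?_⟩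
          have : (x₁ * x₂⁻¹)⁻¹ = (x₁ / x₂)⁻¹ := by field_simp
          rwa [this]
        have hG₂ : InG A W x₂⁻¹ (Point.some x₂ y₂ h₂) := by
          refine ⟨hx₂0, ?_⟩
          rw [mul_inv_cancel₀ hx₂0, inv_one]
          exact A.one_mem
        exact InKer_of_InG hw (inv_ne_zero hx₂0)
          (parallelogram hW hw (inv_ne_zero hx₂0) _ _ hG₁ hG₂).1

/-- The kernel of reduction is closed under subtraction. -/
theorem InKer_sub (hW : IntegralCoeffs A W) {P Q : W.Point} (hP : InKer A W P)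
    (hQ : InKer A W Q) : InKer A W (P - Q) := by
  rw [sub_eq_add_neg]
  exact InKer_add hW hP ((InKer_neg Q).mpr hQ)

/-- A point in the kernel of reduction killed by a unit `n` of `A` is zero. -/
theorem eq_zero_of_InKer_of_nsmul_eq_zero (hW : IntegralCoeffs A W) {P : W.Point}
    (hP : InKer A W P) (n : ℕ) (hn : (n : K) ∉ A.nonunits) (h : n • P = 0) : P = 0 := by
  cases P with
  | zero => rfl
  | some x y hxy => exact absurd h (nsmul_ne_zero_of_X_notMem hW hxy hP n hn)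

end Points

end Fermat.Agent.S05.KerRed

namespace Fermat.Agent.S05

open WeierstrassCurve WeierstrassCurve.Affine in
/-- (P1) The kernel of reduction has no torsion of order prime to the residue characteristic
(interface form). -/
theorem nsmul_ne_zero_of_X_notMem {K : Type*} [Field K] [DecidableEq K] (A : ValuationSubring K)
    (W : WeierstrassCurve.Affine K) (ha₁ : W.a₁ ∈ A) (ha₂ : W.a₂ ∈ A) (ha₃ : W.a₃ ∈ A)
    (ha₄ : W.a₄ ∈ A) (ha₆ : W.a₆ ∈ A) {x y : K} (h : W.Nonsingular x y) (hx : x ∉ A) (n : ℕ)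
    (hn : (n : K) ∉ A.nonunits) : n • (WeierstrassCurve.Affine.Point.some x y h) ≠ 0 :=
  KerRed.nsmul_ne_zero_of_X_notMem ⟨ha₁, ha₂, ha₃, ha₄, ha₆⟩ h hx n hn

end Fermat.Agent.S05
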