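import Mathlib
import Fermat.Agent.S05.Short

set_option autoImplicit false

namespace Fermat.Agent.S05

open WeierstrassCurve WeierstrassCurve.Affine

variable {K : Type*} [Field K]

/-- Congruence for affine points. -/
lemma point_some_congr {W : WeierstrassCurve.Affine K} {x y x' y' : K}
    (h : W.Nonsingular x y) (h' : W.Nonsingular x' y') (hx : x = x') (hy : y = y') :
    Point.some x y h = Point.some x' y' h' := by
  subst hx; subst hy; rfl

lemma affine_equation_iff (W : WeierstrassCurve K) (x y : K) :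
    W.toAffine.Equation x y ↔
      y ^ 2 + W.a₁ * x * y + W.a₃ * y = x ^ 3 + W.a₂ * x ^ 2 + W.a₄ * x + W.a₆ :=
  Affine.equation_iff x y

lemma affine_nonsingular_iff (W : WeierstrassCurve K) (x y : K) :
    W.toAffine.Nonsingular x y ↔ W.toAffine.Equation x y ∧
      (W.a₁ * y ≠ 3 * x ^ 2 + 2 * W.a₂ * x + W.a₄ ∨ y ≠ -y - W.a₁ * x - W.a₃) :=
  Affine.nonsingular_iff x y

lemma affine_negY (W : WeierstrassCurve K) (x y : K) :
    W.toAffine.negY x y = -y - W.a₁ * x - W.a₃ := rfl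

lemma affine_addX (W : WeierstrassCurve K) (x₁ x₂ ℓ : K) :
    W.toAffine.addX x₁ x₂ ℓ = ℓ ^ 2 + W.a₁ * ℓ - W.a₂ - x₁ - x₂ := rfl

lemma affine_addY (W : WeierstrassCurve K) (x₁ x₂ y₁ ℓ : K) :
    W.toAffine.addY x₁ x₂ y₁ ℓ =
      -(ℓ * (W.toAffine.addX x₁ x₂ ℓ - x₁) + y₁) - W.a₁ * W.toAffine.addX x₁ x₂ ℓ - W.a₃ := rfl

lemma affine_slope_of_X_ne [DecidableEq K] (W : WeierstrassCurve K) {x₁ x₂ y₁ y₂ : K}
    (hx : x₁ ≠ x₂) : W.toAffine.slope x₁ x₂ y₁ y₂ = (y₁ - y₂) / (x₁ - x₂) :=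
  Affine.slope_of_X_ne hx

lemma affine_slope_of_Y_ne [DecidableEq K] (W : WeierstrassCurve K) {x₁ x₂ y₁ y₂ : K}
    (hx : x₁ = x₂) (hy : y₁ ≠ W.toAffine.negY x₂ y₂) :
    W.toAffine.slope x₁ x₂ y₁ y₂ =
      (3 * x₁ ^ 2 + 2 * W.a₂ * x₁ + W.a₄ - W.a₁ * y₁) / (y₁ - (-y₁ - W.a₁ * x₁ - W.a₃)) :=
  Affine.slope_of_Y_ne hx hy

/-- The change of variables `X = 4x - r`, `Y = 8y + 4x` maps nonsingular points of
`y² + xy = x³ + a₂x² + a₄x` to nonsingular points of the short model. -/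
lemma shortHom_nonsingular (W : WeierstrassCurve K) (h2 : (2 : K) ≠ 0) (hW1 : W.a₁ = 1)
    (hW3 : W.a₃ = 0) (hW6 : W.a₆ = 0) (r : K)
    (hr : r ^ 3 + (4 * W.a₂ + 1) * r ^ 2 + 16 * W.a₄ * r = 0) {x y : K}
    (h : W.toAffine.Nonsingular x y) :
    (shortW (4 * W.a₂ + 1 + 3 * r)
      (3 * r ^ 2 + 2 * (4 * W.a₂ + 1) * r + 16 * W.a₄)).toAffine.Nonsingular
      (4 * x - r) (8 * y + 4 * x) := by
  rw [affine_nonsingular_iff] at h ⊢
  obtain ⟨he, hs⟩ := h
  rw [affine_equation_iff] at he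
  rw [hW1, hW3, hW6] at he
  rw [hW1, hW3] at hs
  have h16 : (16 : K) ≠ 0 := by
    have : (16 : K) = 2 ^ 4 := by norm_num
    rw [this]; exact pow_ne_zero _ h2
  refine ⟨?_, ?_⟩
  · rw [shortW_equation]
    linear_combination 64 * he + hr
  · simp only [shortW_a₁, shortW_a₂, shortW_a₃, shortW_a₄]
    by_cases hy : y = -y - 1 * x - 0
    · left
      have hs' : 1 * y ≠ 3 * x ^ 2 + 2 * W.a₂ * x + W.a₄ := by
        rcases hs with hs | hs
        · exact hs
        · exact absurd hy hs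
      intro hc
      apply hs'
      apply mul_left_cancel₀ h16
      linear_combination hc + 8 * hy
    · right
      intro hc
      apply hy
      apply mul_left_cancel₀ h16
      linear_combination 2 * hc

variable [DecidableEq K]

/-- The underlying function of the change of variables on points. -/
noncomputable def shortFun (W : WeierstrassCurve K) (h2 : (2 : K) ≠ 0) (hW1 : W.a₁ = 1)
    (hW3 : W.a₃ = 0) (hW6 : W.a₆ = 0) (r : K)
    (hr : r ^ 3 + (4 * W.a₂ + 1) * r ^ 2 + 16 * W.a₄ * r = 0) :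
    W.toAffine.Point → (shortW (4 * W.a₂ + 1 + 3 * r)
      (3 * r ^ 2 + 2 * (4 * W.a₂ + 1) * r + 16 * W.a₄)).toAffine.Point
  | .zero => 0
  | .some x y h => .some (4 * x - r) (8 * y + 4 * x)
      (shortHom_nonsingular W h2 hW1 hW3 hW6 r hr h)

omit [DecidableEq K] in
lemma shortFun_zero (W : WeierstrassCurve K) (h2 : (2 : K) ≠ 0) (hW1 : W.a₁ = 1)
    (hW3 : W.a₃ = 0) (hW6 : W.a₆ = 0) (r : K)
    (hr : r ^ 3 + (4 * W.a₂ + 1) * r ^ 2 + 16 * W.a₄ * r = 0) :
    shortFun W h2 hW1 hW3 hW6 r hr 0 = 0 := rfl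

omit [DecidableEq K] in
lemma shortFun_some (W : WeierstrassCurve K) (h2 : (2 : K) ≠ 0) (hW1 : W.a₁ = 1)
    (hW3 : W.a₃ = 0) (hW6 : W.a₆ = 0) (r : K)
    (hr : r ^ 3 + (4 * W.a₂ + 1) * r ^ 2 + 16 * W.a₄ * r = 0) {x y : K}
    (h : W.toAffine.Nonsingular x y) :
    shortFun W h2 hW1 hW3 hW6 r hr (.some x y h) = .some (4 * x - r) (8 * y + 4 * x)
      (shortHom_nonsingular W h2 hW1 hW3 hW6 r hr h) := rfl

lemma shortFun_add (W : WeierstrassCurve K) (h2 : (2 : K) ≠ 0) (hW1 : W.a₁ = 1)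
    (hW3 : W.a₃ = 0) (hW6 : W.a₆ = 0) (r : K)
    (hr : r ^ 3 + (4 * W.a₂ + 1) * r ^ 2 + 16 * W.a₄ * r = 0) (P Q : W.toAffine.Point) :
    shortFun W h2 hW1 hW3 hW6 r hr (P + Q) =
      shortFun W h2 hW1 hW3 hW6 r hr P + shortFun W h2 hW1 hW3 hW6 r hr Q := by
  have h4 : (4 : K) ≠ 0 := by
    have : (4 : K) = 2 ^ 2 := by norm_num
    rw [this]; exact pow_ne_zero _ h2
  have h8 : (8 : K) ≠ 0 := by
    have : (8 : K) = 2 ^ 3 := by norm_num
    rw [this]; exact pow_ne_zero _ h2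
  rcases P with _ | ⟨x₁, y₁, h₁⟩
  · change shortFun W h2 hW1 hW3 hW6 r hr (0 + Q) = 0 + shortFun W h2 hW1 hW3 hW6 r hr Q
    rw [zero_add, zero_add]
  rcases Q with _ | ⟨x₂, y₂, h₂⟩
  · change shortFun W h2 hW1 hW3 hW6 r hr (Point.some x₁ y₁ h₁ + 0) =
      shortFun W h2 hW1 hW3 hW6 r hr (Point.some x₁ y₁ h₁) + 0
    rw [add_zero, add_zero]
  rw [shortFun_some, shortFun_some]
  by_cases hxy : x₁ = x₂ ∧ y₁ = W.toAffine.negY x₂ y₂
  · obtain ⟨hx, hy⟩ := hxy
    rw [Point.add_of_Y_eq hx hy, shortFun_zero]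
    symm
    apply Point.add_of_Y_eq
    · rw [hx]
    · rw [shortW_negY, hy, hx, affine_negY, hW1, hW3]
      ring
  · have hxy' : ¬(4 * x₁ - r = 4 * x₂ - r ∧ 8 * y₁ + 4 * x₁ =
        (shortW (4 * W.a₂ + 1 + 3 * r)
          (3 * r ^ 2 + 2 * (4 * W.a₂ + 1) * r + 16 * W.a₄)).toAffine.negY
          (4 * x₂ - r) (8 * y₂ + 4 * x₂)) := by
      rintro ⟨hx, hy⟩
      apply hxy
      have hx' : x₁ = x₂ := by
        apply mul_left_cancel₀ h4
        linear_combination hx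
      refine ⟨hx', ?_⟩
      rw [shortW_negY] at hy
      rw [affine_negY, hW1, hW3]
      apply mul_left_cancel₀ h8
      rw [hx'] at hy
      linear_combination hy
    rw [Point.add_some hxy, Point.add_some hxy', shortFun_some]
    -- slope relation
    have hsl : (shortW (4 * W.a₂ + 1 + 3 * r)
          (3 * r ^ 2 + 2 * (4 * W.a₂ + 1) * r + 16 * W.a₄)).toAffine.slope
          (4 * x₁ - r) (4 * x₂ - r) (8 * y₁ + 4 * x₁) (8 * y₂ + 4 * x₂) =
        2 * W.toAffine.slope x₁ x₂ y₁ y₂ + 1 := by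
      by_cases hx : x₁ = x₂
      · have hy : y₁ ≠ W.toAffine.negY x₂ y₂ := fun hy => hxy ⟨hx, hy⟩
        have hx' : 4 * x₁ - r = 4 * x₂ - r := by rw [hx]
        have hy' : 8 * y₁ + 4 * x₁ ≠ (shortW (4 * W.a₂ + 1 + 3 * r)
          (3 * r ^ 2 + 2 * (4 * W.a₂ + 1) * r + 16 * W.a₄)).toAffine.negY
          (4 * x₂ - r) (8 * y₂ + 4 * x₂) := fun hy' => hxy' ⟨hx', hy'⟩
        rw [affine_slope_of_Y_ne W hx hy, affine_slope_of_Y_ne _ hx' hy']
        have e₁ := (affine_equation_iff W _ _).mp h₁.1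
        have e₂ := (affine_equation_iff W _ _).mp h₂.1
        rw [hW1, hW3, hW6] at e₁ e₂
        subst hx
        -- y₁ = y₂
        have hyy : y₁ = y₂ := by
          rw [affine_negY, hW1, hW3] at hy
          have h3 : (y₁ - y₂) * (y₁ - (-y₂ - 1 * x₁ - 0)) = 0 := by
            linear_combination e₁ - e₂
          rcases mul_eq_zero.mp h3 with h3 | h3
          · exact sub_eq_zero.mp h3
          · exact absurd (sub_eq_zero.mp h3) hy
        subst hyy
        rw [affine_negY, hW1, hW3] at hy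
        simp only [hW1, hW3, shortW_a₁, shortW_a₂, shortW_a₃, shortW_a₄]
        have hd : y₁ - (-y₁ - 1 * x₁ - 0) ≠ 0 := sub_ne_zero.mpr hy
        have e1 : y₁ - (-y₁ - 1 * x₁ - 0) = 2 * y₁ + x₁ := by ring
        have e2 : 8 * y₁ + 4 * x₁ - (-(8 * y₁ + 4 * x₁) - 0 * (4 * x₁ - r) - 0) =
            8 * (2 * y₁ + x₁) := by ring
        rw [e1] at hd
        rw [e1, e2]
        field_simp
        ring
      · have hx' : 4 * x₁ - r ≠ 4 * x₂ - r := by
          intro hc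
          apply hx
          apply mul_left_cancel₀ h4
          linear_combination hc
        rw [affine_slope_of_X_ne W hx, affine_slope_of_X_ne _ hx']
        have hd : x₁ - x₂ ≠ 0 := sub_ne_zero.mpr hx
        have hd' : 4 * x₁ - r - (4 * x₂ - r) ≠ 0 := sub_ne_zero.mpr hx'
        rw [div_eq_iff hd']
        field_simp
        ring
    apply point_some_congr
    · rw [hsl, affine_addX, affine_addX, hW1]
      simp only [shortW_a₁, shortW_a₂]
      ring
    · rw [hsl, affine_addY, affine_addY, affine_addX, affine_addX, hW1, hW3]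
      simp only [shortW_a₁, shortW_a₂, shortW_a₃]
      ring

/-- (P3) The change of variables `X = 4x - r`, `Y = 8y + 4x` as an injective group homomorphism
from the points of `y² + xy = x³ + a₂x² + a₄x` to the points of the short model. -/
theorem exists_shortHom (W : WeierstrassCurve K) (h2 : (2 : K) ≠ 0) (hW1 : W.a₁ = 1)
    (hW3 : W.a₃ = 0) (hW6 : W.a₆ = 0) (r : K)
    (hr : r ^ 3 + (4 * W.a₂ + 1) * r ^ 2 + 16 * W.a₄ * r = 0) :
    ∃ φ : W.toAffine.Point →+ (shortW (4 * W.a₂ + 1 + 3 * r)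
        (3 * r ^ 2 + 2 * (4 * W.a₂ + 1) * r + 16 * W.a₄)).toAffine.Point,
      Function.Injective φ ∧ ∀ (x y : K) (h : W.toAffine.Nonsingular x y),
        ∃ h', φ (.some x y h) = .some (4 * x - r) (8 * y + 4 * x) h' := by
  have h4 : (4 : K) ≠ 0 := by
    have : (4 : K) = 2 ^ 2 := by norm_num
    rw [this]; exact pow_ne_zero _ h2
  have h8 : (8 : K) ≠ 0 := by
    have : (8 : K) = 2 ^ 3 := by norm_num
    rw [this]; exact pow_ne_zero _ h2
  refine ⟨⟨⟨shortFun W h2 hW1 hW3 hW6 r hr, shortFun_zero W h2 hW1 hW3 hW6 r hr⟩,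
    shortFun_add W h2 hW1 hW3 hW6 r hr⟩, ?_, ?_⟩
  · intro P Q hPQ
    change shortFun W h2 hW1 hW3 hW6 r hr P = shortFun W h2 hW1 hW3 hW6 r hr Q at hPQ
    rcases P with _ | ⟨x₁, y₁, h₁⟩ <;> rcases Q with _ | ⟨x₂, y₂, h₂⟩
    · rfl
    · rw [shortFun_some] at hPQ
      exact absurd hPQ.symm (Point.some_ne_zero _)
    · rw [shortFun_some] at hPQ
      exact absurd hPQ (Point.some_ne_zero _)
    · rw [shortFun_some, shortFun_some] at hPQ
      have hX : 4 * x₁ - r = 4 * x₂ - r := (Point.some.inj hPQ).1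
      have hY : 8 * y₁ + 4 * x₁ = 8 * y₂ + 4 * x₂ := (Point.some.inj hPQ).2
      have hx : x₁ = x₂ := by
        apply mul_left_cancel₀ h4
        linear_combination hX
      have hy : y₁ = y₂ := by
        apply mul_left_cancel₀ h8
        rw [hx] at hY
        linear_combination hY
      exact point_some_congr _ _ hx hy
  · intro x y h
    exact ⟨shortHom_nonsingular W h2 hW1 hW3 hW6 r hr h, rfl⟩

end Fermat.Agent.S05
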