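import Mathlib
import Fermat.Agent.S05.Short
import Fermat.Agent.S05.RVal
import Fermat.Agent.S05.KerRed
import Fermat.Agent.S05.CongGood
import Fermat.Agent.S05.VarChange

/-!
# S05: sigma-free core lemmas on the short model

* `exists_shortHom'`: the change of variables with the coefficients of the short model given
  up to propositional equality;
* `eq_of_sub_eq_zero_or_ker`: two `n`-torsion points whose difference is zero or lies in the
  kernel of reduction are equal (`n` a unit);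
* `ns_of_unit_x`, `ns_of_unit_b`: nonsingularity of the reduction of an integral point;
* `cong_sub_mult`: the congruent pair lemma for points reducing to the node.
-/

set_option autoImplicit false

namespace Fermat.Agent.S05

open WeierstrassCurve WeierstrassCurve.Affine

variable {K : Type*} [Field K]

/-- The change of variables of `exists_shortHom`, with the coefficients of the target given up
to propositional equality. -/
theorem exists_shortHom' [DecidableEq K] (W : WeierstrassCurve K) (h2 : (2 : K) ≠ 0)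
    (hW1 : W.a₁ = 1) (hW3 : W.a₃ = 0) (hW6 : W.a₆ = 0) (r : K)
    (hr : r ^ 3 + (4 * W.a₂ + 1) * r ^ 2 + 16 * W.a₄ * r = 0) (a b : K)
    (ha : a = 4 * W.a₂ + 1 + 3 * r) (hb : b = 3 * r ^ 2 + 2 * (4 * W.a₂ + 1) * r + 16 * W.a₄) :
    ∃ φ : W.toAffine.Point →+ (shortW a b).toAffine.Point,
      Function.Injective φ ∧ ∀ (x y : K) (h : W.toAffine.Nonsingular x y),
        ∃ h', φ (.some x y h) = .some (4 * x - r) (8 * y + 4 * x) h' := by
  subst ha hb
  exact exists_shortHom W h2 hW1 hW3 hW6 r hr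

/-- Two `n`-torsion points of the short model (integral coefficients, `n` a unit) whose
difference is zero or lies in the kernel of reduction are equal. -/
theorem eq_of_sub_eq_zero_or_ker [DecidableEq K] (A : ValuationSubring K) (V : RVal K)
    (hV1 : ∀ x, V.w x ≤ 1 ↔ x ∈ A) (hV2 : ∀ x, V.w x < 1 ↔ x ∈ A.nonunits) {a b : K}
    (ha : V.w a ≤ 1) (hb : V.w b ≤ 1) (n : ℕ) (hn : V.w (n : K) = 1)
    {Q Q' : (shortW a b).toAffine.Point} (hQ : n • Q = 0) (hQ' : n • Q' = 0)
    (H : Q' - Q = 0 ∨ ∃ (x₃ y₃ : K) (h₃ : (shortW a b).toAffine.Nonsingular x₃ y₃),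
      Q' - Q = Point.some x₃ y₃ h₃ ∧ 1 < V.w x₃) : Q' = Q := by
  rcases H with H | ⟨x₃, y₃, h₃, H, hx₃⟩
  · exact sub_eq_zero.mp H
  · exfalso
    have h0 : n • (Q' - Q) = 0 := by rw [smul_sub, hQ, hQ', sub_zero]
    rw [H] at h0
    refine nsmul_ne_zero_of_X_notMem A (shortW a b).toAffine ?_ ?_ ?_ ?_ ?_ h₃ ?_ n ?_ h0
    · exact A.zero_mem
    · exact (hV1 a).mp ha
    · exact A.zero_mem
    · exact (hV1 b).mp hb
    · exact A.zero_mem
    · intro hc
      exact absurd ((hV1 x₃).mpr hc) (not_le.mpr hx₃)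
    · intro hc
      exact absurd ((hV2 _).mpr hc) (by rw [hn]; exact lt_irrefl _)

/-- Integrality of the `y`-coordinate of an integral point. -/
lemma w_y_le_one (V : RVal K) {a b x y : K} (ha : V.w a ≤ 1) (hb : V.w b ≤ 1)
    (he : y ^ 2 = x ^ 3 + a * x ^ 2 + b * x) (hx : V.w x ≤ 1) : V.w y ≤ 1 := by
  have h0 := V.w_nonneg x
  have h1 : V.w (y ^ 2) ≤ 1 := by
    rw [he]
    refine V.w_add_le (V.w_add_le ?_ ?_) ?_
    · rw [V.w_pow]; exact pow_le_one₀ h0 hx
    · rw [V.w_mul, V.w_pow]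
      exact mul_le_one₀ ha (pow_nonneg h0 _) (pow_le_one₀ h0 hx)
    · rw [V.w_mul]
      exact mul_le_one₀ hb h0 hx
  rw [V.w_pow] at h1
  have h2 := V.w_nonneg y
  by_contra hc
  rw [not_le] at hc
  nlinarith

/-- If the discriminant `a² - 4b` of the quadratic factor is a unit, an integral point with
unit `x`-coordinate has nonsingular reduction. -/
lemma ns_of_unit_x (V : RVal K) {a b x y : K} (ha : V.w a ≤ 1) (hb : V.w b ≤ 1)
    (h2 : V.w 2 = 1) (hd : V.w (a ^ 2 - 4 * b) = 1)
    (he : y ^ 2 = x ^ 3 + a * x ^ 2 + b * x) (hx : V.w x = 1) :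
    V.w y = 1 ∨ V.w (3 * x ^ 2 + 2 * a * x + b) = 1 := by
  by_contra hcon
  rw [not_or] at hcon
  obtain ⟨hy, hf⟩ := hcon
  have hy1 : V.w y ≤ 1 := w_y_le_one V ha hb he hx.le
  have hy' : V.w y < 1 := lt_of_le_of_ne hy1 hy
  have h2x : V.w (2 * x) ≤ 1 := by rw [V.w_mul, h2, hx, one_mul]
  have hax : V.w (a * x) ≤ 1 := by rw [V.w_mul, hx, mul_one]; exact ha
  have hx2 : V.w (x ^ 2) ≤ 1 := by rw [V.w_pow, hx, one_pow]
  have hg1 : V.w (x ^ 2 + a * x + b) ≤ 1 := V.w_add_le (V.w_add_le hx2 hax) hb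
  have hf1 : V.w (3 * x ^ 2 + 2 * a * x + b) ≤ 1 := by
    have : 3 * x ^ 2 + 2 * a * x + b = (x ^ 2 + a * x + b) + x * (2 * x + a) := by ring
    rw [this]
    refine V.w_add_le hg1 ?_
    rw [V.w_mul, hx, one_mul]
    exact V.w_add_le h2x ha
  have hf' : V.w (3 * x ^ 2 + 2 * a * x + b) < 1 := lt_of_le_of_ne hf1 hf
  -- `x² + a x + b` is a nonunit
  have hg : V.w (x ^ 2 + a * x + b) < 1 := by
    have h3 : V.w (y ^ 2) < 1 := by
      rw [V.w_pow]
      have := V.w_nonneg y
      nlinarith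
    have h4 : y ^ 2 = x * (x ^ 2 + a * x + b) := by rw [he]; ring
    rw [h4, V.w_mul, hx, one_mul] at h3
    exact h3
  -- `2x + a` is a nonunit
  have hl : V.w (2 * x + a) < 1 := by
    have h3 : x * (2 * x + a) = (3 * x ^ 2 + 2 * a * x + b) - (x ^ 2 + a * x + b) := by ring
    have h4 : V.w (x * (2 * x + a)) < 1 := by
      rw [h3]; exact V.w_sub_lt hf' hg
    rwa [V.w_mul, hx, one_mul] at h4
  -- contradiction with the discriminant
  have h5 : a ^ 2 - 4 * b = (2 * x + a) ^ 2 - 4 * (x ^ 2 + a * x + b) := by ring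
  have h6 : V.w (a ^ 2 - 4 * b) < 1 := by
    rw [h5]
    refine V.w_sub_lt ?_ ?_
    · rw [V.w_pow]
      have := V.w_nonneg (2 * x + a)
      nlinarith
    · rw [V.w_mul]
      have h4 : V.w 4 ≤ 1 := by
        have : (4 : K) = 2 * 2 := by norm_num
        rw [this, V.w_mul, h2, one_mul]
      have := V.w_nonneg (x ^ 2 + a * x + b)
      have := V.w_nonneg (4 : K)
      nlinarith
  rw [hd] at h6
  exact lt_irrefl _ h6

/-- If `b` is a unit, an integral point with nonunit `x`-coordinate has nonsingular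
reduction. -/
lemma ns_of_unit_b (V : RVal K) {a b x : K} (ha : V.w a ≤ 1) (hb : V.w b = 1)
    (hx : V.w x < 1) : V.w (3 * x ^ 2 + 2 * a * x + b) = 1 := by
  have h0 := V.w_nonneg x
  have h3 : V.w (3 : K) ≤ 1 := by
    have := V.w_natCast_le (K := K) 3
    simpa using this
  have h2 : V.w (2 : K) ≤ 1 := V.w_two_le
  have h1 : V.w (3 * x ^ 2 + 2 * a * x) < 1 := by
    refine V.w_add_lt ?_ ?_
    · rw [V.w_mul, V.w_pow]
      have := V.w_nonneg (3 : K)
      nlinarith
    · rw [V.w_mul, V.w_mul]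
      have := V.w_nonneg (2 : K)
      have := V.w_nonneg a
      have h5 : V.w 2 * V.w a ≤ 1 := mul_le_one₀ h2 (V.w_nonneg a) ha
      have h6 : 0 ≤ V.w 2 * V.w a := mul_nonneg (V.w_nonneg _) (V.w_nonneg _)
      nlinarith
  rw [V.w_add_eq_of_lt' (by rw [hb]; exact h1), hb]

/-- The congruent pair lemma for points reducing to the node: if `|y| = |x| ≤ 1`,
`|x' - x| < |x|` and `|y' - y| < |x|`, the difference of the two points is zero or lies in the
kernel of reduction. -/
theorem cong_sub_mult [DecidableEq K] (V : RVal K) {a b : K} (ha : V.w a ≤ 1)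
    (h2 : V.w 2 = 1) {x y x' y' : K} (h : (shortW a b).toAffine.Nonsingular x y)
    (h' : (shortW a b).toAffine.Nonsingular x' y') (hx : V.w x ≤ 1) (hy : V.w y = V.w x)
    (hxx : V.w (x' - x) < V.w x) (hyy : V.w (y' - y) < V.w x) :
    Point.some x' y' h' - Point.some x y h = 0 ∨
      ∃ (x₃ y₃ : K) (h₃ : (shortW a b).toAffine.Nonsingular x₃ y₃),
        Point.some x' y' h' - Point.some x y h = Point.some x₃ y₃ h₃ ∧ 1 < V.w x₃ := by
  by_cases heq : x' = x ∧ y' = y
  · left
    obtain ⟨rfl, rfl⟩ := heq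
    exact sub_self _
  right
  have hneg : (shortW a b).toAffine.Nonsingular x (-y) := by
    have := (Affine.nonsingular_neg (W' := (shortW a b).toAffine) x y).mpr h
    rwa [shortW_negY] at this
  have hsub : Point.some x' y' h' - Point.some x y h =
      Point.some x' y' h' + Point.some x (-y) hneg := by
    rw [sub_eq_add_neg, Point.neg_some]
    congr 2
    exact shortW_negY a b x y
  have hxy : ¬(x' = x ∧ y' = -(-y)) := by rwa [neg_neg]
  obtain ⟨x₃, y₃, l, n, h₃, hadd, hL⟩ := add_line h' hneg hxy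
  refine ⟨x₃, y₃, h₃, hsub.trans hadd, ?_⟩
  have hx' : V.w x' ≤ 1 := by
    have : x' = (x' - x) + x := by ring
    rw [this]
    exact V.w_add_le (hxx.le.trans hx) hx
  have hT : l * (x' - x) = y' + y := by
    have h1 := hL.L₁
    have h2 := hL.L₂
    linear_combination h2 - h1
  have hxpos : 0 < V.w x := lt_of_le_of_lt (V.w_nonneg _) hxx
  -- `|y' + y| = |x|`
  have hyy' : V.w (y' + y) = V.w x := by
    have h3 : y' + y = 2 * y + (y' - y) := by ring
    have h4 : V.w (2 * y) = V.w x := by rw [V.w_mul, h2, one_mul, hy]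
    rw [h3, V.w_add_eq_of_lt (by rw [h4]; exact hyy), h4]
  have hd0 : x' - x ≠ 0 := by
    intro hc
    rw [hc, mul_zero] at hT
    rw [← hT, V.w_zero] at hyy'
    exact hxpos.ne hyy'
  have hdpos : 0 < V.w (x' - x) := V.w_pos _ hd0
  have hl : 1 < V.w l := by
    have h3 : V.w l * V.w (x' - x) = V.w x := by rw [← V.w_mul, hT, hyy']
    by_contra hc
    rw [not_lt] at hc
    have : V.w l * V.w (x' - x) ≤ 1 * V.w (x' - x) :=
      mul_le_mul_of_nonneg_right hc hdpos.le
    linarith
  have hx₃ : x₃ = l ^ 2 - (a + x' + x) := by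
    have := hL.V₁
    linear_combination this
  rw [hx₃]
  have hl2 : 1 < V.w (l ^ 2) := by
    rw [V.w_pow]
    exact one_lt_pow₀ hl two_ne_zero
  have hsmall : V.w (a + x' + x) ≤ 1 := V.w_add_le (V.w_add_le ha hx') hx
  rw [V.w_sub_eq_of_lt (lt_of_le_of_lt hsmall hl2)]
  exact hl2

end Fermat.Agent.S05
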