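import Mathlib
import Fermat.Statements.S05

set_option autoImplicit false

namespace Fermat.Agent.S05

open WeierstrassCurve WeierstrassCurve.Affine

section General

variable {K L : Type*} [Field K] [Field L] [Algebra K L]

/-- Unpacking membership in the inertia subgroup: `σ` stabilises `A` and acts trivially on the
residue field. -/
theorem inertia_unpack (A : ValuationSubring L) (σ : L ≃ₐ[K] L)
    (hσ : σ ∈ A.inertiaSubgroupIn K) :
    (∀ a : L, a ∈ A → σ a ∈ A) ∧ (∀ a : L, a ∈ A → σ a - a ∈ A.nonunits) := by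
  obtain ⟨τ, hτ, rfl⟩ := Subgroup.mem_map.mp hσ
  have hmem : ∀ a : L, a ∈ A → (τ : L ≃ₐ[K] L) a ∈ A := by
    intro a ha
    exact (τ • (⟨a, ha⟩ : A)).2
  refine ⟨hmem, ?_⟩
  intro a ha
  have h1 : MulSemiringAction.toRingAut (A.decompositionSubgroup K)
      (IsLocalRing.ResidueField A) τ = 1 := hτ
  have h2 : τ • (IsLocalRing.residue A ⟨a, ha⟩) = IsLocalRing.residue A ⟨a, ha⟩ := by
    have := congrArg (fun f => f (IsLocalRing.residue A ⟨a, ha⟩)) h1
    simpa using this
  have h3 : IsLocalRing.residue A (τ • (⟨a, ha⟩ : A)) = IsLocalRing.residue A ⟨a, ha⟩ := by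
    rw [← h2]
    rfl
  have h4 : (τ • (⟨a, ha⟩ : A)) - ⟨a, ha⟩ ∈ IsLocalRing.maximalIdeal A := by
    rw [← Ideal.Quotient.eq]
    exact h3
  rw [ValuationSubring.mem_nonunits_iff_exists_mem_maximalIdeal]
  exact ⟨A.sub_mem (hmem a ha) ha, h4⟩

/-- Elements of the inertia subgroup stabilise the valuation subring. -/
theorem inertia_mem (A : ValuationSubring L) (σ : L ≃ₐ[K] L)
    (hσ : σ ∈ A.inertiaSubgroupIn K) (t : L) (ht : t ∈ A) : σ t ∈ A :=
  (inertia_unpack A σ hσ).1 t ht

/-- Elements of the inertia subgroup stabilise the maximal ideal. -/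
theorem inertia_mem_nonunits (A : ValuationSubring L) (σ : L ≃ₐ[K] L)
    (hσ : σ ∈ A.inertiaSubgroupIn K) (t : L) (ht : t ∈ A.nonunits) : σ t ∈ A.nonunits := by
  have h1 := (inertia_unpack A σ hσ).2 t (A.nonunits_le ht)
  have h2 : σ t = (σ t - t) + t := by ring
  rw [h2]
  rw [ValuationSubring.mem_nonunits_iff_exists_mem_maximalIdeal] at h1 ht ⊢
  obtain ⟨ha, ha'⟩ := h1
  obtain ⟨hb, hb'⟩ := ht
  exact ⟨A.add_mem _ _ ha hb, (IsLocalRing.maximalIdeal A).add_mem ha' hb'⟩

end General

/-- (P4) Inertia acts trivially modulo the maximal ideal. -/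
theorem inertia_sub_mem_nonunits (A : ValuationSubring (AlgebraicClosure ℚ))
    (σ : AlgebraicClosure ℚ ≃ₐ[ℚ] AlgebraicClosure ℚ) (hσ : σ ∈ A.inertiaSubgroupIn ℚ)
    (t : AlgebraicClosure ℚ) (ht : t ∈ A) : σ t - t ∈ A.nonunits :=
  (inertia_unpack A σ hσ).2 t ht

section Action

variable {R : Type*} {S : Type*} {K : Type*} [CommRing R] [CommRing S] [Field K]
  [DecidableEq K] {W' : Affine R} [Algebra R S] [Algebra R K] [Algebra S K]
  [IsScalarTower R S K]

/-- The Galois action on an affine point is coordinatewise. -/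
theorem smul_some (σ : K ≃ₐ[S] K) {x y : K} (h : (W'⁄K).Nonsingular x y) :
    ∃ h' : (W'⁄K).Nonsingular (σ x) (σ y), σ • (Point.some x y h) = Point.some (σ x) (σ y) h' :=
  ⟨(W'.baseChange_nonsingular σ.toAlgHom.injective ..).mpr h, rfl⟩

/-- The Galois action fixes the point at infinity. -/
theorem smul_zero_point (σ : K ≃ₐ[S] K) : σ • (0 : (W'⁄K).Point) = 0 := rfl

/-- The Galois action on the torsion submodule is the restriction of the action on points. -/
theorem coe_smul_torsionBy (n : ℕ) (σ : K ≃ₐ[S] K)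
    (x : Submodule.torsionBy ℤ (W'⁄K).Point n) :
    ((σ • x : Submodule.torsionBy ℤ (W'⁄K).Point n) : (W'⁄K).Point) = σ • (x : (W'⁄K).Point) :=
  rfl

/-- The Galois action on points is additive. -/
theorem smul_add_point (σ : K ≃ₐ[S] K) (P Q : (W'⁄K).Point) : σ • (P + Q) = σ • P + σ • Q :=
  smul_add σ P Q

/-- The Galois action on points commutes with negation. -/
theorem smul_neg_point (σ : K ≃ₐ[S] K) (P : (W'⁄K).Point) : σ • (-P) = -(σ • P) :=
  smul_neg σ P

/-- The Galois action on points commutes with subtraction. -/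
theorem smul_sub_point (σ : K ≃ₐ[S] K) (P Q : (W'⁄K).Point) : σ • (P - Q) = σ • P - σ • Q :=
  smul_sub σ P Q

end Action

end Fermat.Agent.S05
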