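import Mathlib
import Fermat.Statements.S05
import Fermat.Agent.S05.Short
import Fermat.Agent.S05.RVal
import Fermat.Agent.S05.Inertia
import Fermat.Agent.S05.Cores

/-!
# S05: reduction of the statement to the short model

`frey_glue`: to prove that `σ` fixes the `p`-torsion of the Frey curve it suffices to prove that
for every `p`-torsion point `(X, Y)` of the short model `Y² = X³ + a X² + b X` (obtained by
`X = 4x - ρ`, `Y = 8y + 4x` with `ρ ∈ {0, a^p, -b^p}`) such that `(σ X, σ Y)` is `p`-torsion as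
well, the two points are equal.
-/

set_option autoImplicit false

namespace Fermat.Agent.S05

open WeierstrassCurve WeierstrassCurve.Affine

section Galois

variable {K L : Type*} [Field K] [Field L] [Algebra K L]

/-- Inertia moves integral elements by nonunits (absolute value form). -/
theorem inertia_w_sub_lt_one (A : ValuationSubring L) (V : RVal L)
    (hV1 : ∀ x, V.w x ≤ 1 ↔ x ∈ A) (hV2 : ∀ x, V.w x < 1 ↔ x ∈ A.nonunits)
    (σ : L ≃ₐ[K] L) (hσ : σ ∈ A.inertiaSubgroupIn K) {z : L} (hz : V.w z ≤ 1) :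
    V.w (σ z - z) < 1 :=
  (hV2 _).mpr ((inertia_unpack A σ hσ).2 z ((hV1 z).mp hz))

/-- If `|z| = |t|` for some `t ≠ 0` fixed by `σ` in the inertia group, then
`|σ z - z| < |z|`. -/
theorem inertia_w_sub_lt (A : ValuationSubring L) (V : RVal L)
    (hV1 : ∀ x, V.w x ≤ 1 ↔ x ∈ A) (hV2 : ∀ x, V.w x < 1 ↔ x ∈ A.nonunits)
    (σ : L ≃ₐ[K] L) (hσ : σ ∈ A.inertiaSubgroupIn K) {t z : L} (ht : σ t = t) (ht0 : t ≠ 0)
    (hz : V.w z = V.w t) : V.w (σ z - z) < V.w z := by
  have htpos : 0 < V.w t := V.w_pos t ht0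
  have hu : V.w (z / t) ≤ 1 := by
    rw [V.w_div, hz, div_self htpos.ne']
  have h1 := inertia_w_sub_lt_one A V hV1 hV2 σ hσ hu
  have h2 : σ z - z = t * (σ (z / t) - z / t) := by
    rw [map_div₀, ht]
    field_simp
  rw [h2, V.w_mul, hz]
  calc V.w t * V.w (σ (z / t) - z / t) < V.w t * 1 := by
        exact mul_lt_mul_of_pos_left h1 htpos
    _ = V.w t := mul_one _

end Galois

section Action

variable {R : Type*} {S : Type*} {K : Type*} [CommRing R] [CommRing S] [Field K]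
  [DecidableEq K] {W' : Affine R} [Algebra R S] [Algebra R K] [Algebra S K]
  [IsScalarTower R S K]

/-- The Galois action on points commutes with multiplication by `n`. -/
theorem smul_nsmul_comm_point (σ : K ≃ₐ[S] K) (n : ℕ) (P : (W'⁄K).Point) :
    σ • (n • P) = n • (σ • P) :=
  map_nsmul (Point.map σ.toAlgHom) n P

end Action

section Frey

local notation "Qbar" => AlgebraicClosure ℚ

lemma frey_a₁ (P : FreyPackage) : (WeierstrassCurve.baseChange P.freyCurve Qbar).a₁ = 1 := by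
  simp [WeierstrassCurve.baseChange, FreyPackage.freyCurve]

lemma frey_a₃ (P : FreyPackage) : (WeierstrassCurve.baseChange P.freyCurve Qbar).a₃ = 0 := by
  simp [WeierstrassCurve.baseChange, FreyPackage.freyCurve]

lemma frey_a₆ (P : FreyPackage) : (WeierstrassCurve.baseChange P.freyCurve Qbar).a₆ = 0 := by
  simp [WeierstrassCurve.baseChange, FreyPackage.freyCurve]

lemma frey_a₂ (P : FreyPackage) :
    4 * (WeierstrassCurve.baseChange P.freyCurve Qbar).a₂ + 1 =
      ((P.b ^ P.p - P.a ^ P.p : ℤ) : Qbar) := by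
  simp only [WeierstrassCurve.baseChange, FreyPackage.freyCurve, WeierstrassCurve.map_a₂,
    eq_ratCast]
  push_cast
  ring

lemma frey_a₄ (P : FreyPackage) :
    16 * (WeierstrassCurve.baseChange P.freyCurve Qbar).a₄ =
      ((-(P.a ^ P.p * P.b ^ P.p) : ℤ) : Qbar) := by
  simp only [WeierstrassCurve.baseChange, FreyPackage.freyCurve, WeierstrassCurve.map_a₄,
    eq_ratCast]
  push_cast
  ring

/-- Reduction of the unramifiedness statement for the Frey curve to the short model. -/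
theorem frey_glue (P : FreyPackage) (σ : Qbar ≃ₐ[ℚ] Qbar) (ρ : ℤ)
    (hρ : ρ ^ 3 + (P.b ^ P.p - P.a ^ P.p) * ρ ^ 2 - P.a ^ P.p * P.b ^ P.p * ρ = 0)
    (Hcore : ∀ (X Y : Qbar)
      (h : (shortW (((P.b ^ P.p - P.a ^ P.p + 3 * ρ : ℤ) : Qbar))
        (((3 * ρ ^ 2 + 2 * (P.b ^ P.p - P.a ^ P.p) * ρ - P.a ^ P.p * P.b ^ P.p : ℤ) :
          Qbar))).toAffine.Nonsingular X Y)
      (h' : (shortW (((P.b ^ P.p - P.a ^ P.p + 3 * ρ : ℤ) : Qbar))
        (((3 * ρ ^ 2 + 2 * (P.b ^ P.p - P.a ^ P.p) * ρ - P.a ^ P.p * P.b ^ P.p : ℤ) :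
          Qbar))).toAffine.Nonsingular (σ X) (σ Y)),
      P.p • Point.some X Y h = 0 → P.p • Point.some (σ X) (σ Y) h' = 0 →
      Point.some (σ X) (σ Y) h' = Point.some X Y h) :
    ∀ x : Submodule.torsionBy ℤ (P.freyCurve⁄Qbar).Point P.p, σ • x = x := by
  intro x
  apply Subtype.ext
  rw [coe_smul_torsionBy]
  have hx : P.p • (x : (P.freyCurve⁄Qbar).Point) = 0 := by
    have := x.2
    rw [Submodule.mem_torsionBy_iff] at this
    rw [← this, natCast_zsmul]
  have h2 : (2 : Qbar) ≠ 0 := two_ne_zero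
  have hr : ((ρ : ℤ) : Qbar) ^ 3 +
      (4 * (WeierstrassCurve.baseChange P.freyCurve Qbar).a₂ + 1) * ((ρ : ℤ) : Qbar) ^ 2 +
      16 * (WeierstrassCurve.baseChange P.freyCurve Qbar).a₄ * ((ρ : ℤ) : Qbar) = 0 := by
    rw [frey_a₂, frey_a₄]
    have := congrArg (Int.cast (R := Qbar)) hρ
    push_cast at this ⊢
    linear_combination this
  obtain ⟨φ, hinj, hφ⟩ := exists_shortHom' (WeierstrassCurve.baseChange P.freyCurve Qbar) h2
    (frey_a₁ P) (frey_a₃ P) (frey_a₆ P) ((ρ : ℤ) : Qbar) hr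
    (((P.b ^ P.p - P.a ^ P.p + 3 * ρ : ℤ) : Qbar))
    (((3 * ρ ^ 2 + 2 * (P.b ^ P.p - P.a ^ P.p) * ρ - P.a ^ P.p * P.b ^ P.p : ℤ) : Qbar))
    (by rw [frey_a₂]; push_cast; ring)
    (by
      have h4 := frey_a₄ P
      rw [frey_a₂, h4]; push_cast; ring)
  generalize (x : (P.freyCurve⁄Qbar).Point) = Pt at hx ⊢
  rcases Pt with _ | ⟨x₀, y₀, h₀⟩
  · rfl
  · obtain ⟨h₀', hσ⟩ := smul_some (S := ℚ) σ h₀
    have hx' : P.p • (σ • (Point.some x₀ y₀ h₀ : (P.freyCurve⁄Qbar).Point)) = 0 := by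
      rw [← smul_nsmul_comm_point, hx, smul_zero]
    obtain ⟨h1, e1⟩ := hφ x₀ y₀ h₀
    obtain ⟨h1', e1'⟩ := hφ (σ x₀) (σ y₀) h₀'
    have eX : 4 * σ x₀ - ((ρ : ℤ) : Qbar) = σ (4 * x₀ - ((ρ : ℤ) : Qbar)) := by
      rw [map_sub, map_mul, map_intCast, map_ofNat]
    have eY : 8 * σ y₀ + 4 * σ x₀ = σ (8 * y₀ + 4 * x₀) := by
      rw [map_add, map_mul, map_mul, map_ofNat, map_ofNat]
    have h1'' := h1'
    rw [eX, eY] at h1''
    have e1'' : φ (Point.some (σ x₀) (σ y₀) h₀') =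
        Point.some (σ (4 * x₀ - ((ρ : ℤ) : Qbar))) (σ (8 * y₀ + 4 * x₀)) h1'' := by
      rw [e1']
      exact point_some_congr _ _ eX eY
    have hp1 : P.p • Point.some (4 * x₀ - ((ρ : ℤ) : Qbar)) (8 * y₀ + 4 * x₀) h1 = 0 := by
      rw [← e1, ← map_nsmul]
      erw [hx]
      exact map_zero φ
    have hp2 : P.p • Point.some (σ (4 * x₀ - ((ρ : ℤ) : Qbar))) (σ (8 * y₀ + 4 * x₀)) h1'' =
        0 := by
      rw [← e1'', ← map_nsmul]
      rw [hσ] at hx'
      erw [hx']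
      exact map_zero φ
    have key := Hcore _ _ h1 h1'' hp1 hp2
    rw [hσ]
    apply hinj
    rw [e1'', key]
    exact e1.symm

end Frey

end Fermat.Agent.S05
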