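import Mathlib
import Fermat.Agent.S05.RVal

set_option autoImplicit false

namespace Fermat.Agent.S05

/-! ### Arithmetic corollaries for a real absolute value with `w q < 1` -/

namespace RVal

variable {K : Type*} [Field K] (V : RVal K)

/-- If `w q < 1` for a prime `q`, then integers prime to `q` have absolute value `1`. -/
lemma w_intCast_eq_one_of_not_dvd {q : ℕ} (hq : q.Prime) (hV : V.w (q : K) < 1) {n : ℤ}
    (hn : ¬ (q : ℤ) ∣ n) : V.w (n : K) = 1 := by
  refine le_antisymm (V.w_intCast_le n) (le_of_not_gt fun hlt => ?_)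
  have hcop : IsCoprime (q : ℤ) n :=
    ((Nat.prime_iff_prime_int.1 hq).coprime_iff_not_dvd).2 hn
  obtain ⟨u, t, hut⟩ := hcop
  have h1 : ((u : K) * (q : K) + (t : K) * (n : K)) = 1 := by
    have := congrArg (Int.cast : ℤ → K) hut
    push_cast at this
    exact this
  have h2 : V.w ((u : K) * (q : K) + (t : K) * (n : K)) < 1 := by
    apply V.w_add_lt
    · rw [V.w_mul]
      have := V.w_intCast_le (K := K) u
      have h0 := V.w_nonneg (q : K)
      nlinarith
    · rw [V.w_mul]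
      have := V.w_intCast_le (K := K) t
      have h0 := V.w_nonneg (n : K)
      nlinarith
  rw [h1, V.w_one] at h2
  exact lt_irrefl _ h2

/-- If `w q < 1`, then multiples of `q` have absolute value `< 1`. -/
lemma w_intCast_lt_one_of_dvd {q : ℕ} (hV : V.w (q : K) < 1) {n : ℤ}
    (hn : (q : ℤ) ∣ n) : V.w (n : K) < 1 := by
  obtain ⟨m, rfl⟩ := hn
  push_cast
  rw [V.w_mul]
  have := V.w_intCast_le (K := K) m
  have h0 := V.w_nonneg (q : K)
  nlinarith

lemma w_natCast_eq_one_of_not_dvd {q : ℕ} (hq : q.Prime) (hV : V.w (q : K) < 1) {n : ℕ}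
    (hn : ¬ q ∣ n) : V.w (n : K) = 1 := by
  have := V.w_intCast_eq_one_of_not_dvd hq hV (n := (n : ℤ)) (by exact_mod_cast hn)
  simpa using this

lemma w_natCast_lt_one_of_dvd {q : ℕ} (hV : V.w (q : K) < 1) {n : ℕ}
    (hn : q ∣ n) : V.w (n : K) < 1 := by
  have := V.w_intCast_lt_one_of_dvd hV (n := (n : ℤ)) (by exact_mod_cast hn)
  simpa using this

/-- `w (n) < 1 ↔ q ∣ n` for integers. -/
lemma w_intCast_lt_one_iff {q : ℕ} (hq : q.Prime) (hV : V.w (q : K) < 1) {n : ℤ} :
    V.w (n : K) < 1 ↔ (q : ℤ) ∣ n := by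
  constructor
  · intro h
    by_contra hn
    exact h.ne (V.w_intCast_eq_one_of_not_dvd hq hV hn)
  · exact V.w_intCast_lt_one_of_dvd hV

end RVal

/-! ### Two terms of equal valuation in a vanishing sum -/

section TwoTerms

variable {K Γ : Type*} [Field K] [LinearOrderedCommGroupWithZero Γ] (v : Valuation K Γ)

/-- In a vanishing finite sum with a nonzero term, two distinct terms have the same
(nonzero) valuation. -/
lemma exists_pair_valuation_eq_of_sum_eq_zero {ι : Type*} [DecidableEq ι] (s : Finset ι)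
    (t : ι → K) (hsum : ∑ i ∈ s, t i = 0) (hne : ∃ i ∈ s, t i ≠ 0) :
    ∃ i ∈ s, ∃ j ∈ s, i ≠ j ∧ t i ≠ 0 ∧ v (t i) = v (t j) := by
  obtain ⟨i₀, hi₀s, hi₀⟩ := hne
  obtain ⟨i, his, hmax⟩ := s.exists_max_image (fun i => v (t i)) ⟨i₀, hi₀s⟩
  have hti : t i ≠ 0 := by
    intro h
    have h1 := hmax i₀ hi₀s
    simp only [h, map_zero] at h1
    exact hi₀ (v.zero_iff.1 (le_antisymm h1 zero_le))
  have hvi : v (t i) ≠ 0 := v.ne_zero_iff.2 hti
  by_contra hcon
  push Not at hcon
  have hlt : ∀ j ∈ s.erase i, v (t j) < v (t i) := by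
    intro j hj
    have hj' := Finset.mem_erase.1 hj
    exact lt_of_le_of_ne (hmax j hj'.2)
      (fun h => hcon i his j hj'.2 (Ne.symm hj'.1) hti h.symm)
  have h1 : v (∑ j ∈ s.erase i, t j) < v (t i) := v.map_sum_lt hvi hlt
  have h2 : ∑ j ∈ s.erase i, t j = - t i := by
    rw [← Finset.add_sum_erase s t his] at hsum
    exact eq_neg_of_add_eq_zero_right hsum
  rw [h2, v.map_neg] at h1
  exact lt_irrefl _ h1

end TwoTerms

/-! ### Valuations of integers and rationals in a valuation subring with `q` a nonunit -/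

section KeyClaim

variable {K : Type*} [Field K] (A : ValuationSubring K) {q : ℕ}

lemma valuation_intCast_le_one (n : ℤ) : A.valuation (n : K) ≤ 1 :=
  (A.valuation_le_one_iff _).2 (intCast_mem A n)

lemma valuation_intCast_eq_one_of_not_dvd (hq : q.Prime) (hA : (q : K) ∈ A.nonunits) {n : ℤ}
    (hn : ¬ (q : ℤ) ∣ n) : A.valuation (n : K) = 1 := by
  refine le_antisymm (valuation_intCast_le_one A n) (le_of_not_gt fun hlt => ?_)
  have hcop : IsCoprime (q : ℤ) n :=
    ((Nat.prime_iff_prime_int.1 hq).coprime_iff_not_dvd).2 hn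
  obtain ⟨u, t, hut⟩ := hcop
  have h1 : ((u : K) * (q : K) + (t : K) * (n : K)) = 1 := by
    have := congrArg (Int.cast : ℤ → K) hut
    push_cast at this
    exact this
  have hq1 : A.valuation (q : K) < 1 := A.mem_nonunits_iff.1 hA
  have h2 : A.valuation ((u : K) * (q : K) + (t : K) * (n : K)) < 1 := by
    apply A.valuation.map_add_lt
    · rw [map_mul]
      calc A.valuation (u : K) * A.valuation (q : K) ≤ 1 * A.valuation (q : K) :=
            mul_le_mul_left (valuation_intCast_le_one A u) _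
        _ < 1 := by rwa [one_mul]
    · rw [map_mul]
      calc A.valuation (t : K) * A.valuation (n : K) ≤ 1 * A.valuation (n : K) :=
            mul_le_mul_left (valuation_intCast_le_one A t) _
        _ < 1 := by rwa [one_mul]
  rw [h1, map_one] at h2
  exact lt_irrefl _ h2

/-- The valuation of a nonzero integer is a power of the valuation of `q`. -/
lemma exists_valuation_intCast_eq_pow (hq : q.Prime) (hA : (q : K) ∈ A.nonunits) {n : ℤ}
    (hn : n ≠ 0) : ∃ k : ℕ, A.valuation (n : K) = A.valuation (q : K) ^ k := by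
  obtain ⟨e, n', hn', hnn⟩ :=
    Nat.exists_eq_pow_mul_and_not_dvd (Int.natAbs_ne_zero.2 hn) q hq.ne_one
  refine ⟨e, ?_⟩
  have h1 : A.valuation (n : K) = A.valuation ((n.natAbs : ℕ) : K) := by
    rcases Int.natAbs_eq n with h | h
    · conv_lhs => rw [h]
      simp
    · conv_lhs => rw [h]
      simp [Valuation.map_neg]
  have h2 : A.valuation ((n' : ℕ) : K) = 1 := by
    have := valuation_intCast_eq_one_of_not_dvd A hq hA (n := (n' : ℤ)) (by exact_mod_cast hn')
    simpa using this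
  rw [h1, hnn]
  push_cast
  rw [map_mul, map_pow, h2, mul_one]

/-- The valuation of a nonzero rational is an integral power of the valuation of `q`. -/
lemma exists_valuation_ratCast_eq_zpow [CharZero K] (hq : q.Prime) (hA : (q : K) ∈ A.nonunits)
    {r : ℚ} (hr : r ≠ 0) : ∃ m : ℤ, A.valuation (r : K) = A.valuation (q : K) ^ m := by
  obtain ⟨k₁, h₁⟩ := exists_valuation_intCast_eq_pow A hq hA (Rat.num_ne_zero.2 hr)
  obtain ⟨k₂, h₂⟩ := exists_valuation_intCast_eq_pow A hq hA (n := (r.den : ℤ))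
    (by exact_mod_cast r.den_ne_zero)
  refine ⟨(k₁ : ℤ) - k₂, ?_⟩
  have hr' : (r : K) = (r.num : K) / ((r.den : ℤ) : K) := by
    rw [Rat.cast_def]
    simp
  have hπ : A.valuation (q : K) ≠ 0 := by
    rw [Valuation.ne_zero_iff]
    exact_mod_cast hq.ne_zero
  rw [hr', map_div₀, h₁, h₂, zpow_sub₀ hπ, zpow_natCast, zpow_natCast]

lemma exists_pow_valuation_eq_zpow_aux [CharZero K] (hq : q.Prime) (hA : (q : K) ∈ A.nonunits)
    {x : K} (hx : x ≠ 0) {c d : ℚ} (hc : c ≠ 0) (hd : d ≠ 0) {i j : ℕ} (hij : i < j)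
    (h : A.valuation ((c : K) * x ^ i) = A.valuation ((d : K) * x ^ j)) :
    ∃ n : ℕ, ∃ m : ℤ, 0 < n ∧ A.valuation x ^ n = A.valuation (q : K) ^ m := by
  obtain ⟨m, hm⟩ := exists_valuation_ratCast_eq_zpow A hq hA (div_ne_zero hc hd)
  obtain ⟨k, rfl⟩ := Nat.exists_eq_add_of_lt hij
  refine ⟨k + 1, m, Nat.succ_pos k, ?_⟩
  rw [← hm]
  have hvx : A.valuation x ≠ 0 := (Valuation.ne_zero_iff _).2 hx
  have hvd : A.valuation (d : K) ≠ 0 := (Valuation.ne_zero_iff _).2 (by exact_mod_cast hd)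
  rw [map_mul, map_mul, map_pow, map_pow] at h
  push_cast
  rw [map_div₀, eq_div_iff hvd]
  have h' : A.valuation (c : K) * A.valuation x ^ i
      = (A.valuation x ^ (k + 1) * A.valuation (d : K)) * A.valuation x ^ i := by
    rw [h, show i + k + 1 = (k + 1) + i by omega, pow_add, ← mul_assoc,
      mul_comm (A.valuation (d : K))]
  exact (mul_right_cancel₀ (pow_ne_zero i hvx) h').symm

/-- For an element `x ≠ 0` algebraic over `ℚ`, some positive power of its valuation is an
integral power of the valuation of `q`. -/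
lemma exists_pow_valuation_eq_zpow [CharZero K] [Algebra ℚ K] (hq : q.Prime)
    (hA : (q : K) ∈ A.nonunits) {x : K} (hx : x ≠ 0) (halg : IsAlgebraic ℚ x) :
    ∃ n : ℕ, ∃ m : ℤ, 0 < n ∧ A.valuation x ^ n = A.valuation (q : K) ^ m := by
  classical
  obtain ⟨P, hP0, hP⟩ := halg
  rw [Polynomial.aeval_def, Polynomial.eval₂_eq_sum, Polynomial.sum_def] at hP
  simp only [eq_ratCast] at hP
  have hne : ∃ i ∈ P.support, ((P.coeff i : ℚ) : K) * x ^ i ≠ 0 := by
    obtain ⟨i, hi⟩ := Polynomial.nonempty_support_iff.2 hP0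
    refine ⟨i, hi, mul_ne_zero ?_ (pow_ne_zero i hx)⟩
    exact_mod_cast Polynomial.mem_support_iff.1 hi
  obtain ⟨i, hi, j, hj, hij, -, hv⟩ :=
    exists_pair_valuation_eq_of_sum_eq_zero A.valuation P.support
      (fun i => ((P.coeff i : ℚ) : K) * x ^ i) hP hne
  have hci := Polynomial.mem_support_iff.1 hi
  have hcj := Polynomial.mem_support_iff.1 hj
  rcases lt_or_gt_of_ne hij with h | h
  · exact exists_pow_valuation_eq_zpow_aux A hq hA hx hci hcj h hv
  · exact exists_pow_valuation_eq_zpow_aux A hq hA hx hcj hci h hv.symm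

end KeyClaim

/-! ### Construction of the real absolute value -/

section Construct

lemma le_iff_div_le_div_of_pow_eq_zpow {Γ : Type*} [LinearOrderedCommGroupWithZero Γ] {π : Γ}
    (hπ0 : 0 < π) (hπ1 : π < 1) {a b : Γ} {n n' : ℕ} {m m' : ℤ} (hn : 0 < n) (hn' : 0 < n')
    (h : a ^ n = π ^ m) (h' : b ^ n' = π ^ m') :
    a ≤ b ↔ (m' : ℝ) / n' ≤ (m : ℝ) / n := by
  have h1 : a ≤ b ↔ a ^ (n * n') ≤ b ^ (n * n') :=
    (pow_le_pow_iff_left₀ zero_le zero_le (Nat.mul_ne_zero hn.ne' hn'.ne')).symm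
  have h2 : a ^ (n * n') = π ^ (m * n') := by rw [pow_mul, h, zpow_mul, zpow_natCast]
  have h3 : b ^ (n * n') = π ^ (m' * n) := by
    rw [mul_comm n n', pow_mul, h', zpow_mul, zpow_natCast]
  have hn0 : (0 : ℝ) < n := by exact_mod_cast hn
  have hn0' : (0 : ℝ) < n' := by exact_mod_cast hn'
  rw [h1, h2, h3, zpow_le_zpow_iff_right_of_lt_one₀ hπ0 hπ1, div_le_div_iff₀ hn0' hn0]
  norm_cast

variable {K : Type*} [Field K] (A : ValuationSubring K)

theorem exists_rval_of_pow_eq_zpow (π : A.ValueGroup) (hπ0 : 0 < π) (hπ1 : π < 1)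
    (hkey : ∀ x : K, x ≠ 0 → ∃ n : ℕ, ∃ m : ℤ, 0 < n ∧ A.valuation x ^ n = π ^ m) :
    ∃ V : RVal K, (∀ x, V.w x ≤ 1 ↔ x ∈ A) ∧ (∀ x, V.w x < 1 ↔ x ∈ A.nonunits) := by
  classical
  choose! N M hN hNM using hkey
  set ρ : K → ℝ := fun x => (M x : ℝ) / (N x : ℝ) with hρ
  have hcmp : ∀ x y, x ≠ 0 → y ≠ 0 → (A.valuation x ≤ A.valuation y ↔ ρ y ≤ ρ x) :=
    fun x y hx hy =>
      le_iff_div_le_div_of_pow_eq_zpow hπ0 hπ1 (hN x hx) (hN y hy) (hNM x hx) (hNM y hy)
  have hmul : ∀ x y, x ≠ 0 → y ≠ 0 → ρ (x * y) = ρ x + ρ y := by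
    intro x y hx hy
    have hxy : x * y ≠ 0 := mul_ne_zero hx hy
    have hNx : (0 : ℝ) < N x := by exact_mod_cast hN x hx
    have hNy : (0 : ℝ) < N y := by exact_mod_cast hN y hy
    have h1 : A.valuation (x * y) ^ (N x * N y) = π ^ (M x * N y + M y * N x) := by
      rw [map_mul, mul_pow, pow_mul, hNM x hx, mul_comm (N x) (N y), pow_mul, hNM y hy,
        zpow_add₀ hπ0.ne', zpow_mul, zpow_mul, zpow_natCast, zpow_natCast]
    have h2 := le_iff_div_le_div_of_pow_eq_zpow hπ0 hπ1 (hN _ hxy)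
      (Nat.mul_pos (hN x hx) (hN y hy)) (hNM _ hxy) h1
    have h3 := le_iff_div_le_div_of_pow_eq_zpow hπ0 hπ1
      (Nat.mul_pos (hN x hx) (hN y hy)) (hN _ hxy) h1 (hNM _ hxy)
    have h4 := h2.1 le_rfl
    have h5 := h3.1 le_rfl
    have h6 : ρ (x * y) = ((M x * N y + M y * N x : ℤ) : ℝ) / ((N x * N y : ℕ) : ℝ) :=
      le_antisymm h5 h4
    rw [h6]
    simp only [hρ]
    push_cast
    field_simp
  have hone : ρ 1 = 0 := by
    have := hmul 1 1 one_ne_zero one_ne_zero
    rw [one_mul] at this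
    linarith
  refine ⟨⟨fun x => if x = 0 then 0 else Real.exp (-ρ x), ?_, ?_, ?_, ?_, ?_⟩, ?_, ?_⟩
  · simp
  · simp [hone]
  · intro x y
    by_cases hx : x = 0
    · simp [hx]
    by_cases hy : y = 0
    · simp [hy]
    simp only [hx, hy, mul_ne_zero hx hy, if_false, hmul x y hx hy]
    rw [neg_add, Real.exp_add]
  · intro x y
    by_cases hx : x = 0
    · simp [hx]
    by_cases hy : y = 0
    · simp [hy]
    by_cases hxy : x + y = 0
    · simp only [hxy, if_true, hx, hy, if_false]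
      exact le_max_of_le_left (Real.exp_pos _).le
    simp only [hxy, hx, hy, if_false]
    rcases le_max_iff.1 (A.valuation.map_add x y) with h | h
    · exact le_max_of_le_left (Real.exp_le_exp.2 (neg_le_neg ((hcmp _ _ hxy hx).1 h)))
    · exact le_max_of_le_right (Real.exp_le_exp.2 (neg_le_neg ((hcmp _ _ hxy hy).1 h)))
  · intro x hx
    simp only [hx, if_false]
    exact Real.exp_pos _
  · intro x
    by_cases hx : x = 0
    · simp [hx, zero_mem]
    simp only [hx, if_false]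
    rw [← A.valuation_le_one_iff, ← A.valuation.map_one, hcmp x 1 hx one_ne_zero, hone,
      Real.exp_le_one_iff]
    constructor <;> intro h <;> linarith
  · intro x
    by_cases hx : x = 0
    · simp [hx, zero_mem]
    simp only [hx, if_false]
    have hc := hcmp 1 x one_ne_zero hx
    rw [map_one, hone] at hc
    rw [A.mem_nonunits_iff, Real.exp_lt_one_iff]
    constructor
    · intro h
      refine lt_of_not_ge fun h' => ?_
      have := hc.1 h'
      linarith
    · intro h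
      by_contra h'
      exact (not_le.2 h) (hc.2 (by linarith))

end Construct

/-! ### The main statement -/

/-- A valuation subring of `ℚ̄` in which the prime `q` is a nonunit comes from a real-valued
absolute value. -/
theorem exists_rval (A : ValuationSubring (AlgebraicClosure ℚ)) {q : ℕ} (hq : q.Prime)
    (hA : (q : AlgebraicClosure ℚ) ∈ A.nonunits) :
    ∃ V : RVal (AlgebraicClosure ℚ),
      (∀ x, V.w x ≤ 1 ↔ x ∈ A) ∧ (∀ x, V.w x < 1 ↔ x ∈ A.nonunits) := by
  have hq0 : (q : AlgebraicClosure ℚ) ≠ 0 := by exact_mod_cast hq.ne_zero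
  have hπ0 : 0 < A.valuation (q : AlgebraicClosure ℚ) :=
    lt_of_le_of_ne zero_le (Ne.symm ((Valuation.ne_zero_iff _).2 hq0))
  have hπ1 : A.valuation (q : AlgebraicClosure ℚ) < 1 := A.mem_nonunits_iff.1 hA
  refine exists_rval_of_pow_eq_zpow A _ hπ0 hπ1 fun x hx => ?_
  have halg := (AlgebraicClosure.isAlgebraic ℚ).isAlgebraic x
  exact @exists_pow_valuation_eq_zpow _ _ A q _ _ hq hA x hx halg

/-- Bundled version of `exists_rval` with the arithmetic corollaries. -/
theorem exists_rval' (A : ValuationSubring (AlgebraicClosure ℚ)) {q : ℕ} (hq : q.Prime)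
    (hA : (q : AlgebraicClosure ℚ) ∈ A.nonunits) :
    ∃ V : RVal (AlgebraicClosure ℚ),
      (∀ x, V.w x ≤ 1 ↔ x ∈ A) ∧ (∀ x, V.w x < 1 ↔ x ∈ A.nonunits) ∧
      V.w (q : AlgebraicClosure ℚ) < 1 ∧
      (∀ n : ℤ, ¬ (q : ℤ) ∣ n → V.w (n : AlgebraicClosure ℚ) = 1) ∧
      (∀ n : ℤ, (q : ℤ) ∣ n → V.w (n : AlgebraicClosure ℚ) < 1) := by
  obtain ⟨V, h1, h2⟩ := exists_rval A hq hA
  have hVq : V.w (q : AlgebraicClosure ℚ) < 1 := (h2 _).2 hA
  exact ⟨V, h1, h2, hVq, fun n hn => V.w_intCast_eq_one_of_not_dvd hq hVq hn,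
    fun n hn => V.w_intCast_lt_one_of_dvd hVq hn⟩

end Fermat.Agent.S05
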