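import Mathlib
import Fermat.Statements.S05
import Fermat.Agent.S05.Short
import Fermat.Agent.S05.RVal
import Fermat.Agent.S05.RValOfSubring
import Fermat.Agent.S05.Inertia
import Fermat.Agent.S05.Cores
import Fermat.Agent.S05.Glue

/-!
# S05: assembly on the short model

`short_fixed`: on the short model over a field with a valuation subring `A`, an absolute value
`V` and an automorphism `σ` in the inertia group, `σ` fixes every `n`-torsion point (`n` a
unit), provided the points reducing to the node satisfy the hypothesis `Hnode`.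
-/

set_option autoImplicit false

namespace Fermat.Agent.S05

open WeierstrassCurve WeierstrassCurve.Affine

section Short

variable {K L : Type*} [Field K] [Field L] [Algebra K L] [DecidableEq L]

/-- `σ` in the inertia group fixes the `n`-torsion points of the short model (`n` a unit, integral
coefficients, unit discriminant of the quadratic factor), provided each torsion point reducing
to the origin either has nonsingular reduction, or satisfies `|Y| = |X| = |t|` for some nonzero
`t` fixed by `σ`. -/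
theorem short_fixed (A : ValuationSubring L) (V : RVal L)
    (hV1 : ∀ x, V.w x ≤ 1 ↔ x ∈ A) (hV2 : ∀ x, V.w x < 1 ↔ x ∈ A.nonunits)
    (σ : L ≃ₐ[K] L) (hσ : σ ∈ A.inertiaSubgroupIn K) {a b : L} (ha : V.w a ≤ 1)
    (hb : V.w b ≤ 1) (h2 : V.w 2 = 1) (hd : V.w (a ^ 2 - 4 * b) = 1) (n : ℕ)
    (hn : V.w (n : L) = 1)
    (Hnode : ∀ (X Y : L) (h : (shortW a b).toAffine.Nonsingular X Y),
      n • Point.some X Y h = 0 → V.w X < 1 →
        V.w (3 * X ^ 2 + 2 * a * X + b) = 1 ∨
          (V.w Y = V.w X ∧ ∃ t : L, σ t = t ∧ t ≠ 0 ∧ V.w X = V.w t))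
    {X Y : L} (h : (shortW a b).toAffine.Nonsingular X Y)
    (h' : (shortW a b).toAffine.Nonsingular (σ X) (σ Y))
    (hp : n • Point.some X Y h = 0) (hp' : n • Point.some (σ X) (σ Y) h' = 0) :
    Point.some (σ X) (σ Y) h' = Point.some X Y h := by
  have he := shortW_equation.mp h.1
  -- `X` is integral
  have hX : V.w X ≤ 1 := by
    by_contra hc
    refine nsmul_ne_zero_of_X_notMem A (shortW a b).toAffine ?_ ?_ ?_ ?_ ?_ h ?_ n ?_ hp
    · exact A.zero_mem
    · exact (hV1 a).mp ha
    · exact A.zero_mem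
    · exact (hV1 b).mp hb
    · exact A.zero_mem
    · intro hc'
      exact hc ((hV1 X).mpr hc')
    · intro hc'
      exact absurd ((hV2 _).mpr hc') (by rw [hn]; exact lt_irrefl _)
  have hY : V.w Y ≤ 1 := w_y_le_one V ha hb he hX
  apply eq_of_sub_eq_zero_or_ker A V hV1 hV2 ha hb n hn hp hp'
  have good : (V.w Y = 1 ∨ V.w (3 * X ^ 2 + 2 * a * X + b) = 1) →
      (Point.some (σ X) (σ Y) h' - Point.some X Y h = 0 ∨
      ∃ (x₃ y₃ : L) (h₃ : (shortW a b).toAffine.Nonsingular x₃ y₃),
        Point.some (σ X) (σ Y) h' - Point.some X Y h = Point.some x₃ y₃ h₃ ∧ 1 < V.w x₃) :=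
    fun hns => cong_sub_good V ha hb h2 h h' hX
      (inertia_w_sub_lt_one A V hV1 hV2 σ hσ hX) (inertia_w_sub_lt_one A V hV1 hV2 σ hσ hY) hns
  rcases lt_or_eq_of_le hX with hX1 | hX1
  · rcases Hnode X Y h hp hX1 with hns | ⟨hYX, t, ht, ht0, hXt⟩
    · exact good (Or.inr hns)
    · exact cong_sub_mult V ha h2 h h' hX hYX
        (inertia_w_sub_lt A V hV1 hV2 σ hσ ht ht0 hXt)
        (by
          have := inertia_w_sub_lt A V hV1 hV2 σ hσ ht ht0 (hYX.trans hXt)
          rwa [hYX] at this)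
  · exact good (ns_of_unit_x V ha hb h2 hd he hX1)

omit [DecidableEq L] in
/-- In the multiplicative case, the information provided by the tropical analysis gives the
`Hnode` hypothesis of `short_fixed`. -/
theorem node_of_mult (V : RVal L) (σ : L ≃ₐ[K] L) {a b : L} (ha : V.w a = 1)
    (τ : L) (hτσ : σ τ = τ) (hτ0 : τ ≠ 0) (p : ℕ) (hp0 : p ≠ 0) (hbτ : V.w b = V.w τ ^ p)
    {X Y : L} (he : Y ^ 2 = X ^ 3 + a * X ^ 2 + b * X) (hX : V.w X < 1)
    (hbX : V.w b < V.w X) (k : ℤ) (hk : V.w X ^ p = V.w b ^ k) :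
    V.w Y = V.w X ∧ ∃ t : L, σ t = t ∧ t ≠ 0 ∧ V.w X = V.w t := by
  have hXpos : 0 < V.w X := lt_of_le_of_lt (V.w_nonneg _) hbX
  constructor
  · have h1 : V.w (X ^ 2 + a * X + b) = V.w X := by
      have h2 : V.w (a * X) = V.w X := by rw [V.w_mul, ha, one_mul]
      have h3 : V.w (X ^ 2) < V.w X := by
        rw [V.w_pow]
        nlinarith
      have h4 : V.w (X ^ 2 + a * X) = V.w X := by
        rw [V.w_add_eq_of_lt' (by rw [h2]; exact h3), h2]
      rw [V.w_add_eq_of_lt (by rw [h4]; exact hbX), h4]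
    have h5 : Y ^ 2 = X * (X ^ 2 + a * X + b) := by rw [he]; ring
    have h6 : V.w Y ^ 2 = V.w X ^ 2 := by
      rw [← V.w_pow, h5, V.w_mul, h1]; ring
    exact (pow_left_inj₀ (V.w_nonneg Y) hXpos.le two_ne_zero).mp h6
  · refine ⟨τ ^ k, ?_, zpow_ne_zero k hτ0, ?_⟩
    · rw [map_zpow₀, hτσ]
    · rw [V.w_zpow]
      have hτpos : 0 < V.w τ := V.w_pos τ hτ0
      have h1 : V.w X ^ p = (V.w τ ^ k) ^ p := by
        rw [hk, hbτ, ← zpow_natCast, ← zpow_mul, ← zpow_natCast (V.w τ ^ k), ← zpow_mul,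
          mul_comm]
      have h2 : 0 ≤ V.w τ ^ k := (zpow_pos hτpos k).le
      exact (pow_left_inj₀ hXpos.le h2 hp0).mp h1

end Short

end Fermat.Agent.S05
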