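import Fermat.Agent.S05.RegionsMain

set_option autoImplicit false
set_option linter.unusedSectionVars false

namespace Fermat.Agent.S05

open WeierstrassCurve WeierstrassCurve.Affine

variable {K : Type*} [Field K] [DecidableEq K]

namespace MultSetting

variable {V : RVal K} {a b α : K} (hS : MultSetting V a b α)
include hS

/-- Two points of `E₀` (`|x| ≥ 1`) add up to a point of `E₀`. -/
theorem add_00 {x₁ y₁ x₂ y₂ : K}
    (h₁ : (shortW a b).toAffine.Nonsingular x₁ y₁) (h₂ : (shortW a b).toAffine.Nonsingular x₂ y₂)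
    (hx₁ : 1 ≤ V.w x₁) (hx₂ : 1 ≤ V.w x₂) :
    Point.some x₁ y₁ h₁ + Point.some x₂ y₂ h₂ = 0 ∨
    ∃ (x₃ y₃ : K) (h₃ : (shortW a b).toAffine.Nonsingular x₃ y₃),
      Point.some x₁ y₁ h₁ + Point.some x₂ y₂ h₂ = Point.some x₃ y₃ h₃ ∧ 1 ≤ V.w x₃ := by
  by_cases hxy : x₁ = x₂ ∧ y₁ = -y₂
  · left
    exact Point.add_of_Y_eq hxy.1 (by rw [shortW_negY]; exact hxy.2)
  right
  obtain ⟨x₃, y₃, l, n, h₃, hadd, hL⟩ := add_line h₁ h₂ hxy
  refine ⟨x₃, y₃, h₃, hadd, ?_⟩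
  by_contra hc
  push Not at hc
  have hβ1 := hS.wb_lt
  have g₃0 := V.w_nonneg x₃
  have g12 : 1 ≤ V.w x₁ * V.w x₂ := by nlinarith
  -- |n|² = g₁ g₂ g₃
  have hn : V.w n ^ 2 = V.w x₁ * V.w x₂ * V.w x₃ := by
    have := congrArg V.w hL.V₃
    rw [V.w_mul, V.w_mul, V.w_pow] at this
    exact this.symm
  -- |b - 2 l n| = g₁ g₂
  have hV2 : V.w (b - 2 * l * n) = V.w x₁ * V.w x₂ := by
    rw [← hL.V₂, add_assoc, V.w_add_eq_of_lt, V.w_mul]
    rw [V.w_mul]
    apply V.w_add_lt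
    · rw [V.w_mul]; nlinarith
    · rw [V.w_mul]; nlinarith
  have hln : V.w l * V.w n = V.w x₁ * V.w x₂ := by
    have e : 2 * l * n = -(b - 2 * l * n) + b := by ring
    have h1 : V.w (2 * l * n) = V.w x₁ * V.w x₂ := by
      rw [e, V.w_add_eq_of_lt (by rw [V.w_neg, hV2]; linarith), V.w_neg, hV2]
    rwa [V.w_mul, V.w_mul, hS.w2, one_mul] at h1
  -- |l|² ≤ max(g₁, g₂) ≤ g₁ g₂
  have hl : V.w l ^ 2 ≤ V.w x₁ * V.w x₂ := by
    have e : l ^ 2 = x₁ + x₂ + x₃ + a := by linear_combination -hL.V₁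
    rw [← V.w_pow, e]
    apply V.w_add_le
    · apply V.w_add_le
      · apply V.w_add_le
        · nlinarith
        · nlinarith
      · linarith
    · rw [hS.wa]; exact g12
  -- (|l||n|)² = |l|² g₁ g₂ g₃ < (g₁ g₂)²
  have h3 : (V.w l * V.w n) ^ 2 = V.w l ^ 2 * (V.w x₁ * V.w x₂ * V.w x₃) := by
    rw [mul_pow, hn]
  rw [hln] at h3
  have g12pos : 0 < V.w x₁ * V.w x₂ := lt_of_lt_of_le one_pos g12
  have h4 : V.w l ^ 2 * (V.w x₁ * V.w x₂ * V.w x₃) ≤ V.w x₁ * V.w x₂ * (V.w x₁ * V.w x₂ * V.w x₃) :=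
    mul_le_mul_of_nonneg_right hl (by positivity)
  have h5 : V.w x₁ * V.w x₂ * (V.w x₁ * V.w x₂ * V.w x₃) < V.w x₁ * V.w x₂ * (V.w x₁ * V.w x₂) := by
    apply mul_lt_mul_of_pos_left _ g12pos
    nlinarith
  nlinarith

/-- `E₀` is closed under addition. -/
lemma pos_one_add {P Q : (shortW a b).toAffine.Point} (hP : Pos V α 1 P) (hQ : Pos V α 1 Q) :
    Pos V α 1 (P + Q) := by
  rcases hS.pos_one hP with rfl | ⟨x₁, y₁, h₁, rfl, hx₁⟩
  · rwa [zero_add]
  rcases hS.pos_one hQ with rfl | ⟨x₂, y₂, h₂, rfl, hx₂⟩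
  · rwa [add_zero]
  rcases hS.add_00 h₁ h₂ hx₁ hx₂ with h0 | ⟨x₃, y₃, h₃, hadd, hx₃⟩
  · rw [h0]; exact rfl
  · rw [hadd]; exact Or.inl ⟨rfl, hx₃⟩

lemma pos_one_nsmul {P : (shortW a b).toAffine.Point} (hP : Pos V α 1 P) (m : ℕ) :
    Pos V α 1 (m • P) := by
  induction m with
  | zero => rw [zero_smul]; exact rfl
  | succ m ih => rw [succ_nsmul]; exact hS.pos_one_add ih hP

omit [DecidableEq K] in
lemma not_pos_one_T0 : ¬ Pos V α 1 (T0 a hS.b_ne_zero) := by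
  intro h
  rcases hS.pos_one h with h0 | ⟨x, y, hxy, he, hx⟩
  · exact absurd h0 (by simp [T0])
  · have : (0 : K) = x := by
      simp only [T0] at he
      injection he
    rw [← this, V.w_zero] at hx
    linarith

end MultSetting

/-- Valuation of the `X`-coordinate of a `p`-torsion point (`p` odd) of the short model with
multiplicative reduction that reduces to the node. -/
theorem mult_torsion_val (V : RVal K) {a b α : K} (hα : α ^ 2 = a) (hα1 : V.w α = 1)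
    (h2 : V.w 2 = 1) (hb0 : b ≠ 0) (hb : V.w b < 1) {X Y : K}
    (h : (shortW a b).toAffine.Nonsingular X Y) {p : ℕ} (hp : Odd p)
    (hpt : p • Point.some X Y h = 0) (hX : V.w X < 1) :
    V.w b < V.w X ∧ ∃ k : ℤ, V.w X ^ p = V.w b ^ k := by
  have hS : MultSetting V a b α := ⟨hα, hα1, h2, V.w_pos b hb0, hb⟩
  have hTT := T0_add_T0 a hS.b_ne_zero
  have hbX : V.w b < V.w X := by
    by_contra hc
    push Not at hc
    have hpos : Pos V α (V.w b) (Point.some X Y h) := Or.inr (Or.inr (Or.inr ⟨rfl, hc⟩))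
    have h1 := hS.pos_T0_beta hpos
    have h3 := hS.pos_one_nsmul h1 p
    have hpT : p • T0 a hS.b_ne_zero = T0 a hS.b_ne_zero := by
      obtain ⟨m, rfl⟩ := hp
      rw [add_smul, mul_comm 2 m, mul_smul, one_smul, two_smul, hTT, smul_zero, zero_add]
    rw [smul_add, hpt, zero_add, hpT] at h3
    exact hS.not_pos_one_T0 h3
  refine ⟨hbX, ?_⟩
  have e := shortW_equation.mp h.1
  rcases hS.branch_cases e hbX hX with hp₀ | hm₀
  · exact hS.plus_torsion h hbX hX hp₀ p hpt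
  · obtain ⟨h', hneg⟩ := neg_some_short h
    have hpt' : p • Point.some X (-Y) h' = 0 := by
      rw [← hneg, smul_neg, hpt, neg_zero]
    refine hS.plus_torsion h' hbX hX ?_ p hpt'
    rw [show -Y - α * X = -(Y + α * X) by ring, V.w_neg]
    exact hm₀

end Fermat.Agent.S05
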