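import Mathlib
import Fermat.Statements.S05
import Fermat.Agent.S05.Short
import Fermat.Agent.S05.RVal
import Fermat.Agent.S05.RValOfSubring
import Fermat.Agent.S05.Inertia
import Fermat.Agent.S05.Cores
import Fermat.Agent.S05.Glue
import Fermat.Agent.S05.Assembly
import Fermat.Agent.S05.MultTorsion

/-!
# S05: the Frey curve, uniform treatment of the three cases

`frey_case`: inertia at `q` fixes the `p`-torsion of the Frey curve, given a root `ρ` of the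
2-division cubic such that the short model `Y² = X³ + as X² + bs X` has `q ∤ as² - 4 bs` and,
if `q ∣ bs`, then `q ∤ as` and `bs = ± τ ^ p`.
-/

set_option autoImplicit false

namespace Fermat.Agent.S05

open WeierstrassCurve WeierstrassCurve.Affine

local notation "Qbar" => AlgebraicClosure ℚ

/-- Uniform treatment of the good and multiplicative cases for the Frey curve. -/
theorem frey_case (P : FreyPackage) {q : ℕ} (hq : q.Prime) (hq2 : q ≠ 2) (hqp : q ≠ P.p)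
    (A : ValuationSubring Qbar) (hA : A.LiesOverPrime q) (σ : Qbar ≃ₐ[ℚ] Qbar)
    (hσ : σ ∈ A.inertiaSubgroupIn ℚ) (ρ : ℤ)
    (hρ : ρ ^ 3 + (P.b ^ P.p - P.a ^ P.p) * ρ ^ 2 - P.a ^ P.p * P.b ^ P.p * ρ = 0)
    (as bs : ℤ) (has : as = P.b ^ P.p - P.a ^ P.p + 3 * ρ)
    (hbs : bs = 3 * ρ ^ 2 + 2 * (P.b ^ P.p - P.a ^ P.p) * ρ - P.a ^ P.p * P.b ^ P.p)
    (hdisc : ¬ (q : ℤ) ∣ as ^ 2 - 4 * bs)
    (hcase : (q : ℤ) ∣ bs → ¬ (q : ℤ) ∣ as ∧ bs ≠ 0 ∧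
      ∃ τ : ℤ, τ ≠ 0 ∧ (bs = τ ^ P.p ∨ bs = -τ ^ P.p)) :
    ∀ x : Submodule.torsionBy ℤ (P.freyCurve⁄Qbar).Point P.p, σ • x = x := by
  obtain ⟨V, hV1, hV2, hVq, hunit, hnon⟩ := exists_rval' A hq hA
  have h2 : V.w (2 : Qbar) = 1 := by
    have h := hunit 2 (by
      intro hc
      have h1 : q ∣ 2 := by exact_mod_cast hc
      exact hq2 ((Nat.prime_dvd_prime_iff_eq hq Nat.prime_two).mp h1))
    simpa using h
  have hn : V.w ((P.p : ℕ) : Qbar) = 1 := by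
    have h := hunit (P.p : ℤ) (by
      intro hc
      have h1 : q ∣ P.p := by exact_mod_cast hc
      exact hqp ((Nat.prime_dvd_prime_iff_eq hq P.pp).mp h1))
    simpa using h
  have ha : V.w ((as : ℤ) : Qbar) ≤ 1 := V.w_intCast_le _
  have hb : V.w ((bs : ℤ) : Qbar) ≤ 1 := V.w_intCast_le _
  have hd : V.w (((as : ℤ) : Qbar) ^ 2 - 4 * ((bs : ℤ) : Qbar)) = 1 := by
    have h := hunit _ hdisc
    have e : (((as ^ 2 - 4 * bs : ℤ)) : Qbar) = ((as : ℤ) : Qbar) ^ 2 - 4 * ((bs : ℤ) : Qbar) := by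
      push_cast; ring
    rwa [e] at h
  subst has hbs
  apply frey_glue P σ ρ hρ
  intro X Y h h' hp hp'
  refine short_fixed A V hV1 hV2 σ hσ ha hb h2 hd P.p hn ?_ h h' hp hp'
  intro X Y h hp hX
  by_cases hqb : (q : ℤ) ∣ 3 * ρ ^ 2 + 2 * (P.b ^ P.p - P.a ^ P.p) * ρ - P.a ^ P.p * P.b ^ P.p
  · right
    obtain ⟨has_unit, hbs0, τ, hτ0, hτ⟩ := hcase hqb
    have ha1 := hunit _ has_unit
    have hb1 := hnon _ hqb
    obtain ⟨α, hα⟩ : ∃ α : Qbar, α ^ 2 = ((P.b ^ P.p - P.a ^ P.p + 3 * ρ : ℤ) : Qbar) :=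
      IsAlgClosed.exists_pow_nat_eq _ (by norm_num)
    have hα1 : V.w α = 1 := by
      have h1 : V.w α ^ 2 = 1 := by rw [← V.w_pow, hα, ha1]
      have h0 := V.w_nonneg α
      nlinarith
    have hb0 : ((3 * ρ ^ 2 + 2 * (P.b ^ P.p - P.a ^ P.p) * ρ - P.a ^ P.p * P.b ^ P.p : ℤ) :
        Qbar) ≠ 0 := by
      exact_mod_cast hbs0
    obtain ⟨hbX, k, hk⟩ := mult_torsion_val V hα hα1 h2 hb0 hb1 h P.hp_odd hp hX
    have hτ0' : ((τ : ℤ) : Qbar) ≠ 0 := by exact_mod_cast hτ0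
    have hbτ : V.w ((3 * ρ ^ 2 + 2 * (P.b ^ P.p - P.a ^ P.p) * ρ - P.a ^ P.p * P.b ^ P.p : ℤ) :
        Qbar) = V.w ((τ : ℤ) : Qbar) ^ P.p := by
      rcases hτ with hτ | hτ
      · rw [hτ]; push_cast; rw [V.w_pow]
      · rw [hτ]; push_cast; rw [V.w_neg, V.w_pow]
    exact node_of_mult V σ ha1 ((τ : ℤ) : Qbar) (map_intCast σ τ) hτ0' P.p P.hp0 hbτ
      (shortW_equation.mp h.1) hX hbX k hk
  · left
    exact ns_of_unit_b V ha (hunit _ hqb) hX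

end Fermat.Agent.S05
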