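import Fermat.Agent.S05.RegionsBasic

set_option autoImplicit false

namespace Fermat.Agent.S05

open WeierstrassCurve WeierstrassCurve.Affine

variable {K : Type*} [Field K] [DecidableEq K]

namespace MultSetting

variable {V : RVal K} {a b α : K} (hS : MultSetting V a b α)
include hS

/-- (L-c) Two points on the `+` branch with `|b| < |x₁||x₂|` add up to a point on the `+` branch
with `|x₃| = |x₁||x₂|`. -/
theorem add_pp {x₁ y₁ x₂ y₂ : K}
    (h₁ : (shortW a b).toAffine.Nonsingular x₁ y₁) (h₂ : (shortW a b).toAffine.Nonsingular x₂ y₂)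
    (hx₁ : V.w x₁ < 1) (hp₁ : V.w (y₁ - α * x₁) < V.w x₁)
    (hx₂ : V.w x₂ < 1) (hp₂ : V.w (y₂ - α * x₂) < V.w x₂)
    (hprod : V.w b < V.w x₁ * V.w x₂) :
    ∃ (x₃ y₃ : K) (h₃ : (shortW a b).toAffine.Nonsingular x₃ y₃),
      Point.some x₁ y₁ h₁ + Point.some x₂ y₂ h₂ = Point.some x₃ y₃ h₃ ∧
      V.w x₃ = V.w x₁ * V.w x₂ ∧ V.w (y₃ - α * x₃) < V.w x₃ := by
  have hβ := hS.wb_pos
  have g₁0 : 0 < V.w x₁ := by
    rcases (V.w_nonneg x₁).lt_or_eq with h | h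
    · exact h
    · rw [← h] at hprod; simp at hprod; linarith
  have g₂0 : 0 < V.w x₂ := by
    rcases (V.w_nonneg x₂).lt_or_eq with h | h
    · exact h
    · rw [← h] at hprod; simp at hprod; linarith
  have g12 : 0 < V.w x₁ * V.w x₂ := mul_pos g₁0 g₂0
  have g12lt : V.w x₁ * V.w x₂ < 1 := by nlinarith
  have hm₁ := hS.w_m_of_p hp₁
  have hm₂ := hS.w_m_of_p hp₂
  have hxy : ¬(x₁ = x₂ ∧ y₁ = -y₂) := by
    rintro ⟨rfl, rfl⟩
    have : y₂ + α * x₁ = -(-y₂ - α * x₁) := by ring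
    rw [this, V.w_neg] at hm₂
    linarith
  obtain ⟨x₃, y₃, l, n, h₃, hadd, hL⟩ := add_line h₁ h₂ hxy
  refine ⟨x₃, y₃, h₃, hadd, ?_⟩
  -- |y₁x₂ + y₂x₁| = |x₁||x₂|
  have hSv : V.w (y₁ * x₂ + y₂ * x₁) = V.w x₁ * V.w x₂ := by
    have e : y₁ * x₂ + y₂ * x₁ = 2 * α * (x₁ * x₂) + ((y₁ - α * x₁) * x₂ + (y₂ - α * x₂) * x₁) := by
      ring
    rw [e, V.w_add_eq_of_lt, hS.w_two_alpha_mul, V.w_mul]
    rw [hS.w_two_alpha_mul, V.w_mul]
    apply V.w_add_lt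
    · rw [V.w_mul]; exact mul_lt_mul_of_pos_right hp₁ g₂0
    · rw [V.w_mul, mul_comm]; exact mul_lt_mul_of_pos_left hp₂ g₁0
  have hbx : V.w (b - x₁ * x₂) = V.w x₁ * V.w x₂ := by
    rw [V.w_sub_eq_of_lt' (by rwa [V.w_mul]), V.w_mul]
  have hn : V.w n = V.w x₁ * V.w x₂ := by
    have := congrArg V.w hL.nu_mul
    rw [V.w_mul, V.w_mul, V.w_mul, hSv, hbx] at this
    exact mul_right_cancel₀ g12.ne' this
  have hx₃ : V.w x₃ = V.w x₁ * V.w x₂ := by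
    have := congrArg V.w hL.V₃
    rw [V.w_mul, V.w_mul, V.w_pow, hn] at this
    have h' : V.w x₁ * V.w x₂ * V.w x₃ = V.w x₁ * V.w x₂ * (V.w x₁ * V.w x₂) := by
      rw [this]; ring
    exact mul_left_cancel₀ g12.ne' h'
  refine ⟨hx₃, ?_⟩
  -- |l + α| ≤ 1
  have hlα : V.w (l + α) ≤ 1 := by
    have e : (l + α) * x₁ = (y₁ + α * x₁) - n := by rw [hL.L₁]; ring
    have h1 : V.w ((l + α) * x₁) ≤ V.w x₁ := by
      rw [e]
      apply V.w_sub_le hm₁.le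
      rw [hn]; nlinarith
    rw [V.w_mul] at h1
    by_contra hc
    push Not at hc
    nlinarith
  have hD : V.w (n ^ 2 + b * (l + α) ^ 2) < V.w x₁ * V.w x₂ := by
    apply V.w_add_lt
    · rw [V.w_pow, hn]; nlinarith
    · rw [V.w_mul, V.w_pow]
      have : V.w (l + α) ^ 2 ≤ 1 := by
        have := V.w_nonneg (l + α)
        nlinarith
      nlinarith [V.w_nonneg b]
  have hprodM := congrArg V.w (hL.prodM hS.hα)
  rw [V.w_mul, V.w_mul, V.w_neg, V.w_mul, hm₁, hm₂, hn] at hprodM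
  rw [hx₃]
  have : V.w x₁ * V.w x₂ * V.w (y₃ - α * x₃) < V.w x₁ * V.w x₂ * (V.w x₁ * V.w x₂) := by
    rw [hprodM]; exact mul_lt_mul_of_pos_left hD g12
  exact lt_of_mul_lt_mul_left this g12.le

/-- (L-d) A point on the `+` branch and a point on the `-` branch of the same depth add up to a
point of `E₀`. -/
theorem add_pm {x₁ y₁ x₂ y₂ : K}
    (h₁ : (shortW a b).toAffine.Nonsingular x₁ y₁) (h₂ : (shortW a b).toAffine.Nonsingular x₂ y₂)
    (hx₁ : 0 < V.w x₁) (hp₁ : V.w (y₁ - α * x₁) < V.w x₁)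
    (hx₂ : V.w x₂ = V.w x₁) (hm₂ : V.w (y₂ + α * x₂) < V.w x₂) :
    Point.some x₁ y₁ h₁ + Point.some x₂ y₂ h₂ = 0 ∨
    ∃ (x₃ y₃ : K) (h₃ : (shortW a b).toAffine.Nonsingular x₃ y₃),
      Point.some x₁ y₁ h₁ + Point.some x₂ y₂ h₂ = Point.some x₃ y₃ h₃ ∧ 1 ≤ V.w x₃ := by
  by_cases hxy : x₁ = x₂ ∧ y₁ = -y₂
  · left
    exact Point.add_of_Y_eq hxy.1 (by rw [shortW_negY]; exact hxy.2)
  right
  obtain ⟨x₃, y₃, l, n, h₃, hadd, hL⟩ := add_line h₁ h₂ hxy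
  refine ⟨x₃, y₃, h₃, hadd, ?_⟩
  set g := V.w x₁ with hg
  have hnum : V.w (y₁ * x₂ - y₂ * x₁) = g * g := by
    have e : y₁ * x₂ - y₂ * x₁ = 2 * α * (x₁ * x₂) + ((y₁ - α * x₁) * x₂ - (y₂ + α * x₂) * x₁) := by
      ring
    rw [e, V.w_add_eq_of_lt, hS.w_two_alpha_mul, V.w_mul, hx₂]
    rw [hS.w_two_alpha_mul, V.w_mul, hx₂]
    apply V.w_sub_lt
    · rw [V.w_mul, hx₂]; exact mul_lt_mul_of_pos_right hp₁ hx₁
    · rw [V.w_mul, mul_comm]; rw [hx₂] at hm₂; exact mul_lt_mul_of_pos_left hm₂ hx₁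
  have hden : V.w (x₂ - x₁) ≤ g := V.w_sub_le hx₂.le le_rfl
  have h1 := congrArg V.w hL.nu_mul'
  rw [V.w_mul, hnum] at h1
  -- |n| ≥ g
  have hn : g ≤ V.w n := by
    by_contra hc
    push Not at hc
    have : V.w n * V.w (x₂ - x₁) < g * g := by
      calc V.w n * V.w (x₂ - x₁) ≤ V.w n * g := mul_le_mul_of_nonneg_left hden (V.w_nonneg _)
        _ < g * g := mul_lt_mul_of_pos_right hc hx₁
    linarith
  have h3 := congrArg V.w hL.V₃
  rw [V.w_mul, V.w_mul, V.w_pow, hx₂] at h3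
  by_contra hc
  push Not at hc
  have hgg : 0 < g * g := mul_pos hx₁ hx₁
  nlinarith [mul_lt_mul_of_pos_left hc hgg, mul_le_mul hn hn hx₁.le (V.w_nonneg _)]

/-- (L-b) A point of `E₀` plus a point of the `+` branch stays on the `+` branch at the same
depth. -/
theorem add_0p {x₁ y₁ x₂ y₂ : K}
    (h₁ : (shortW a b).toAffine.Nonsingular x₁ y₁) (h₂ : (shortW a b).toAffine.Nonsingular x₂ y₂)
    (hx₁ : 1 ≤ V.w x₁) (hx₂ : V.w b < V.w x₂) (hx₂' : V.w x₂ < 1)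
    (hp₂ : V.w (y₂ - α * x₂) < V.w x₂) :
    ∃ (x₃ y₃ : K) (h₃ : (shortW a b).toAffine.Nonsingular x₃ y₃),
      Point.some x₁ y₁ h₁ + Point.some x₂ y₂ h₂ = Point.some x₃ y₃ h₃ ∧
      V.w x₃ = V.w x₂ ∧ V.w (y₃ - α * x₃) < V.w x₃ := by
  have hβ := hS.wb_pos
  have e₁ := shortW_equation.mp h₁.1
  set g := V.w x₁ with hg
  set γ := V.w x₂ with hγ
  have hγ0 : 0 < γ := lt_trans hβ hx₂
  have hg0 : 0 < g := lt_of_lt_of_le one_pos hx₁
  have hm₂ := hS.w_m_of_p hp₂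
  -- |y₁ - αx₁| = |y₁ + αx₁| =: μ with μ² = g³
  have hpm := congrArg V.w (hS.pm_eq e₁)
  have hx2b : V.w (x₁ ^ 2 + b) = g ^ 2 := by
    rw [V.w_add_eq_of_lt, V.w_pow]
    rw [V.w_pow]; nlinarith [hS.wb_lt]
  rw [V.w_mul, V.w_mul, hx2b] at hpm
  have hdiff : V.w ((y₁ + α * x₁) - (y₁ - α * x₁)) = g := by
    rw [show (y₁ + α * x₁) - (y₁ - α * x₁) = 2 * α * x₁ by ring, hS.w_two_alpha_mul]
  have hpm_eq : V.w (y₁ - α * x₁) = V.w (y₁ + α * x₁) := by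
    rcases lt_trichotomy (V.w (y₁ - α * x₁)) (V.w (y₁ + α * x₁)) with h | h | h
    · exfalso
      rw [V.w_sub_eq_of_lt h] at hdiff
      rw [hdiff] at hpm h
      have : V.w (y₁ - α * x₁) = g ^ 2 := by
        have : V.w (y₁ - α * x₁) * g = g ^ 2 * g := by rw [hpm]; ring
        exact mul_right_cancel₀ hg0.ne' this
      nlinarith
    · exact h
    · exfalso
      rw [V.w_sub_eq_of_lt' h] at hdiff
      rw [hdiff] at hpm h
      have : V.w (y₁ + α * x₁) = g ^ 2 := by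
        have : g * V.w (y₁ + α * x₁) = g * g ^ 2 := by rw [hpm]
        exact mul_left_cancel₀ hg0.ne' this
      nlinarith
  set μ := V.w (y₁ + α * x₁) with hμ
  rw [hpm_eq] at hpm
  have hμ2 : μ * μ = g ^ 3 := by rw [hpm]; ring
  have hμ0 : 0 ≤ μ := V.w_nonneg _
  have hμg : g ≤ μ := by
    by_contra hc
    push Not at hc
    nlinarith [mul_lt_mul'' hc hc hμ0 hμ0, pow_le_pow_left₀ (zero_le_one) hx₁ 2,
      mul_le_mul_of_nonneg_left hx₁ (sq_nonneg g)]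
  have hμpos : 0 < μ := lt_of_lt_of_le hg0 hμg
  have hxy : ¬(x₁ = x₂ ∧ y₁ = -y₂) := by
    rintro ⟨rfl, -⟩
    linarith
  obtain ⟨x₃, y₃, l, n, h₃, hadd, hL⟩ := add_line h₁ h₂ hxy
  refine ⟨x₃, y₃, h₃, hadd, ?_⟩
  have hden : V.w (x₂ - x₁) = g := by
    rw [V.w_sub_eq_of_lt' (by linarith)]
  have hnum : V.w (y₁ * x₂ - y₂ * x₁) = μ * γ := by
    have e : y₁ * x₂ - y₂ * x₁ = (y₁ - α * x₁) * x₂ - (y₂ - α * x₂) * x₁ := by ring
    rw [e, V.w_sub_eq_of_lt, V.w_mul, hpm_eq]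
    rw [V.w_mul, V.w_mul, hpm_eq]
    calc V.w (y₂ - α * x₂) * g < γ * g := mul_lt_mul_of_pos_right hp₂ hg0
      _ ≤ γ * μ := mul_le_mul_of_nonneg_left hμg hγ0.le
      _ = μ * γ := mul_comm _ _
  have hn := congrArg V.w hL.nu_mul'
  rw [V.w_mul, hden, hnum] at hn
  -- hn : |n| * g = μ * γ
  have hx₃ : V.w x₃ = γ := by
    have h3 := congrArg V.w hL.V₃
    rw [V.w_mul, V.w_mul, V.w_pow] at h3
    -- g * γ * |x₃| = |n|²
    have : V.w x₃ * (g ^ 3 * γ) = γ * (g ^ 3 * γ) := by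
      have e1 : V.w x₃ * (g ^ 3 * γ) = (g * γ * V.w x₃) * g ^ 2 := by ring
      rw [e1, h3]
      have e2 : V.w n ^ 2 * g ^ 2 = (V.w n * g) ^ 2 := by ring
      rw [e2, hn]
      have e3 : (μ * γ) ^ 2 = (μ * μ) * γ ^ 2 := by ring
      rw [e3, hμ2]; ring
    exact mul_right_cancel₀ (by positivity) this
  refine ⟨hx₃, ?_⟩
  rw [hx₃]
  -- |n| < μ
  have hnμ : V.w n < μ := by
    have : V.w n * g < μ * g := by
      rw [hn]
      calc μ * γ < μ * 1 := mul_lt_mul_of_pos_left hx₂' hμpos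
        _ ≤ μ * g := mul_le_mul_of_nonneg_left hx₁ hμ0
    exact lt_of_mul_lt_mul_right this hg0.le
  -- |l + α| * g = μ
  have hlα : V.w (l + α) * g = μ := by
    have e : (l + α) * x₁ = (y₁ + α * x₁) - n := by rw [hL.L₁]; ring
    have := congrArg V.w e
    rwa [V.w_mul, V.w_sub_eq_of_lt hnμ] at this
  set Lα := V.w (l + α) with hLα
  have hLα0 : 0 < Lα := by
    by_contra hc
    push Not at hc
    have : Lα = 0 := le_antisymm hc (V.w_nonneg _)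
    rw [this] at hlα; linarith
  have hnL : V.w n = γ * Lα := by
    have : V.w n * g = γ * Lα * g := by rw [hn, ← hlα]; ring
    exact mul_right_cancel₀ hg0.ne' this
  have hD : V.w (n ^ 2 + b * (l + α) ^ 2) < γ * Lα ^ 2 := by
    apply V.w_add_lt
    · rw [V.w_pow, hnL]
      have : (γ * Lα) ^ 2 = γ * (γ * Lα ^ 2) := by ring
      rw [this]
      have hpos : 0 < γ * Lα ^ 2 := by positivity
      nlinarith [mul_lt_mul_of_pos_right hx₂' hpos]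
    · rw [V.w_mul, V.w_pow]
      exact mul_lt_mul_of_pos_right hx₂ (by positivity)
  have hL3 : Lα ^ 3 = μ := by
    have : Lα ^ 3 * g ^ 3 = μ * g ^ 3 := by
      have e : Lα ^ 3 * g ^ 3 = (Lα * g) ^ 3 := by ring
      rw [e, hlα, ← hμ2]; ring
    exact mul_right_cancel₀ (by positivity) this
  have hprodM := congrArg V.w (hL.prodM hS.hα)
  rw [V.w_mul, V.w_mul, V.w_neg, V.w_mul, hm₂, hnL] at hprodM
  -- μ * γ * |y₃ - αx₃| = γ * Lα * D
  have key : μ * γ * V.w (y₃ - α * x₃) < μ * γ * γ := by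
    rw [hprodM]
    calc γ * Lα * V.w (n ^ 2 + b * (l + α) ^ 2) < γ * Lα * (γ * Lα ^ 2) :=
          mul_lt_mul_of_pos_left hD (by positivity)
      _ = Lα ^ 3 * γ * γ := by ring
      _ = μ * γ * γ := by rw [hL3]
  exact lt_of_mul_lt_mul_left key (by positivity)

end MultSetting

end Fermat.Agent.S05
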