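import Fermat.Agent.S05.Short
import Fermat.Agent.S05.RVal

set_option autoImplicit false

namespace Fermat.Agent.S05

open WeierstrassCurve WeierstrassCurve.Affine

variable {K : Type*} [Field K]

/-- The multiplicative-reduction setting for the short model `Y² = X³ + aX² + bX`:
`a = α²` is a unit, `2` is a unit and `0 < |b| < 1`. -/
structure MultSetting (V : RVal K) (a b α : K) : Prop where
  hα : α ^ 2 = a
  wα : V.w α = 1
  w2 : V.w 2 = 1
  wb_pos : 0 < V.w b
  wb_lt : V.w b < 1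

namespace MultSetting

variable {V : RVal K} {a b α : K} (hS : MultSetting V a b α)
include hS

lemma wa : V.w a = 1 := by
  rw [← hS.hα, V.w_pow, hS.wα, one_pow]

lemma b_ne_zero : b ≠ 0 := by
  intro h
  have := hS.wb_pos
  rw [h, V.w_zero] at this
  exact lt_irrefl _ this

lemma w_two_alpha_mul (x : K) : V.w (2 * α * x) = V.w x := by
  rw [V.w_mul, V.w_mul, hS.w2, hS.wα, one_mul, one_mul]

/-- `(y - αx)(y + αx) = x(x² + b)` on the curve. -/
lemma pm_eq {x y : K} (e : y ^ 2 = x ^ 3 + a * x ^ 2 + b * x) :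
    (y - α * x) * (y + α * x) = x * (x ^ 2 + b) := by
  linear_combination e - x ^ 2 * hS.hα

/-- On the `+` branch, `|y + αx| = |x|`. -/
lemma w_m_of_p {x y : K} (hp : V.w (y - α * x) < V.w x) : V.w (y + α * x) = V.w x := by
  have h1 : y + α * x = 2 * α * x + (y - α * x) := by ring
  rw [h1, V.w_add_eq_of_lt (by rwa [hS.w_two_alpha_mul]), hS.w_two_alpha_mul]

/-- On the `-` branch, `|y - αx| = |x|`. -/
lemma w_p_of_m {x y : K} (hm : V.w (y + α * x) < V.w x) : V.w (y - α * x) = V.w x := by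
  have h1 : y - α * x = -(2 * α * x) + (y + α * x) := by ring
  rw [h1, V.w_add_eq_of_lt (by rwa [V.w_neg, hS.w_two_alpha_mul]), V.w_neg, hS.w_two_alpha_mul]

/-- For a point with `|b| < |x| < 1`, `|y| = |x|`. -/
lemma w_y_of_mid {x y : K} (e : y ^ 2 = x ^ 3 + a * x ^ 2 + b * x)
    (hx1 : V.w b < V.w x) (hx2 : V.w x < 1) : V.w y = V.w x := by
  have hx0 : 0 < V.w x := lt_trans hS.wb_pos hx1
  have h1 : V.w (a * x ^ 2) = V.w x ^ 2 := by rw [V.w_mul, hS.wa, one_mul, V.w_pow]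
  have h2 : V.w (x ^ 3) < V.w (a * x ^ 2) := by
    rw [h1, V.w_pow]
    have hsq : 0 < V.w x ^ 2 := by positivity
    nlinarith [mul_lt_mul_of_pos_left hx2 hsq]
  have h3 : V.w (b * x) < V.w (a * x ^ 2) := by
    rw [h1, V.w_mul]; nlinarith
  have h4 : V.w (y ^ 2) = V.w x ^ 2 := by
    rw [e, show x ^ 3 + a * x ^ 2 + b * x = a * x ^ 2 + (x ^ 3 + b * x) by ring,
      V.w_add_eq_of_lt (V.w_add_lt h2 h3), h1]
  rw [V.w_pow] at h4
  have hy0 := V.w_nonneg y
  nlinarith [sq_nonneg (V.w y - V.w x), sq_nonneg (V.w y + V.w x)]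

/-- For a point with `|b| < |x| < 1`, exactly one of `y ∓ αx` is small. -/
lemma branch_cases {x y : K} (e : y ^ 2 = x ^ 3 + a * x ^ 2 + b * x)
    (hx1 : V.w b < V.w x) (hx2 : V.w x < 1) :
    V.w (y - α * x) < V.w x ∨ V.w (y + α * x) < V.w x := by
  have hx0 : 0 < V.w x := lt_trans hS.wb_pos hx1
  by_contra hcon
  push Not at hcon
  obtain ⟨h1, h2⟩ := hcon
  have h3 : V.w (y - α * x) * V.w (y + α * x) = V.w x * V.w (x ^ 2 + b) := by
    rw [← V.w_mul, hS.pm_eq e, V.w_mul]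
  have h4 : V.w (x ^ 2 + b) < V.w x := by
    apply V.w_add_lt
    · rw [V.w_pow]; nlinarith
    · exact hx1
  nlinarith [mul_le_mul h1 h2 hx0.le (V.w_nonneg _)]

end MultSetting

end Fermat.Agent.S05
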