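import Fermat.Agent.S05.RegionsStep

set_option autoImplicit false
set_option linter.unusedSectionVars false

namespace Fermat.Agent.S05

open WeierstrassCurve WeierstrassCurve.Affine

variable {K : Type*} [Field K] [DecidableEq K]

namespace MultSetting

variable {V : RVal K} {a b α : K} (hS : MultSetting V a b α)
include hS

lemma pos_T0_one {P : (shortW a b).toAffine.Point} (h : Pos V α 1 P) :
    Pos V α (V.w b) (P + T0 a hS.b_ne_zero) := by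
  rcases hS.pos_one h with rfl | ⟨x, y, hxy, rfl, hx⟩
  · rw [zero_add]
    exact Or.inr (Or.inr (Or.inr ⟨rfl, by rw [V.w_zero]; exact hS.wb_pos.le⟩))
  · obtain ⟨x₃, y₃, h₃, hadd, hx₃⟩ := hS.T0_zero hxy hx
    rw [hadd]
    exact Or.inr (Or.inr (Or.inr ⟨rfl, hx₃⟩))

lemma pos_T0_mid {δ : ℝ} {P : (shortW a b).toAffine.Point} (h : Pos V α δ P)
    (h1 : V.w b < δ) (h2 : δ < 1) : Pos V α (δ / V.w b) (P + T0 a hS.b_ne_zero) := by
  have hβ := hS.wb_pos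
  have hδ : 0 < δ := lt_trans hβ h1
  obtain ⟨x, y, hxy, rfl, hx, hp⟩ := hS.pos_mid h h1 h2
  obtain ⟨x₃, y₃, h₃, hadd, hx₃, hm₃⟩ := hS.T0_plus hxy hδ hx hp
  rw [hadd]
  refine Or.inr (Or.inr (Or.inl ⟨?_, ?_, ?_, ?_⟩))
  · rw [lt_div_iff₀ hβ]; linarith
  · rw [div_lt_iff₀ hβ, inv_mul_cancel₀ hβ.ne']; exact h2
  · rw [inv_div]; exact hx₃
  · rw [inv_div]; exact hm₃

lemma pos_T0_big {δ : ℝ} {P : (shortW a b).toAffine.Point} (h : Pos V α δ P)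
    (h1 : 1 < δ) : Pos V α (δ * V.w b) (P + T0 a hS.b_ne_zero) := by
  have hβ := hS.wb_pos
  have hδ : 0 < δ := lt_trans one_pos h1
  obtain ⟨x, y, hxy, rfl, h2, hx, hm⟩ := hS.pos_big h h1
  obtain ⟨x₃, y₃, h₃, hadd, hx₃, hp₃⟩ := hS.T0_minus hxy (inv_pos.mpr hδ) hx hm
  rw [hadd]
  have e : V.w b / δ⁻¹ = δ * V.w b := by rw [div_inv_eq_mul, mul_comm]
  rw [e] at hx₃ hp₃
  refine Or.inr (Or.inl ⟨?_, ?_, hx₃, hp₃⟩)
  · nlinarith
  · have := mul_lt_mul_of_pos_right h2 hβ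
    rwa [inv_mul_cancel₀ hβ.ne'] at this

lemma pos_T0_beta {P : (shortW a b).toAffine.Point} (h : Pos V α (V.w b) P) :
    Pos V α 1 (P + T0 a hS.b_ne_zero) := by
  obtain ⟨x, y, hxy, rfl, hx⟩ := hS.pos_beta h
  rcases hS.T0_N hxy hx with h0 | ⟨x₃, y₃, h₃, hadd, hx₃⟩
  · rw [h0]; exact rfl
  · rw [hadd]; exact Or.inl ⟨rfl, hx₃⟩

/-- Translation by `T₀` multiplies the position by `|b|`. -/
lemma reg_T0 {δ : ℝ} {P : (shortW a b).toAffine.Point} (h : Reg V α δ P) :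
    Reg V α (δ * V.w b) (P + T0 a hS.b_ne_zero) := by
  have hβ := hS.wb_pos
  obtain ⟨k, hk⟩ := h
  rcases hS.pos_cases hk with h1 | ⟨h1, h2⟩ | ⟨h1, h2⟩ | h1
  · rw [h1] at hk
    refine ⟨k, ?_⟩
    have := hS.pos_T0_one hk
    have e : δ * V.w b * V.w b ^ (2 * k) = V.w b := by
      rw [mul_right_comm, h1, one_mul]
    rwa [e]
  · refine ⟨k - 1, ?_⟩
    have := hS.pos_T0_mid hk h1 h2
    have e : δ * V.w b * V.w b ^ (2 * (k - 1)) = δ * V.w b ^ (2 * k) / V.w b := by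
      rw [show 2 * (k - 1) = 2 * k + (-2) by ring, zpow_add₀ hβ.ne']
      rw [show (-2 : ℤ) = -(2 : ℕ) by norm_num, zpow_neg, zpow_natCast]
      field_simp
    rwa [e]
  · refine ⟨k, ?_⟩
    have := hS.pos_T0_big hk h1
    have e : δ * V.w b * V.w b ^ (2 * k) = δ * V.w b ^ (2 * k) * V.w b := by ring
    rwa [e]
  · rw [h1] at hk
    refine ⟨k - 1, ?_⟩
    have := hS.pos_T0_beta hk
    have e : δ * V.w b * V.w b ^ (2 * (k - 1)) = 1 := by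
      rw [show 2 * (k - 1) = 2 * k + (-2) by ring, zpow_add₀ hβ.ne']
      rw [show (-2 : ℤ) = -(2 : ℕ) by norm_num, zpow_neg, zpow_natCast]
      have : δ * V.w b * (V.w b ^ (2 * k) * (V.w b ^ 2)⁻¹)
          = (δ * V.w b ^ (2 * k)) * V.w b * (V.w b ^ 2)⁻¹ := by ring
      rw [this, h1]
      field_simp
    rwa [e]

/-- Negation inverts the position. -/
lemma reg_neg {δ : ℝ} {P : (shortW a b).toAffine.Point} (h : Reg V α δ P) :
    Reg V α δ⁻¹ (-P) := by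
  have hβ := hS.wb_pos
  have hβ1 := hS.wb_lt
  obtain ⟨k, hk⟩ := h
  have einv : δ⁻¹ * V.w b ^ (2 * (-k)) = (δ * V.w b ^ (2 * k))⁻¹ := by
    rw [mul_inv, mul_neg, zpow_neg]
  rcases hS.pos_cases hk with h1 | ⟨h1, h2⟩ | ⟨h1, h2⟩ | h1
  · rw [h1] at hk
    refine ⟨-k, ?_⟩
    rw [einv, h1, inv_one]
    rcases hS.pos_one hk with rfl | ⟨x, y, hxy, rfl, hx⟩
    · rw [neg_zero]; exact rfl
    · obtain ⟨h', hneg⟩ := neg_some_short hxy
      rw [hneg]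
      exact Or.inl ⟨rfl, hx⟩
  · refine ⟨-k, ?_⟩
    rw [einv]
    have hδ : 0 < δ * V.w b ^ (2 * k) := lt_trans hβ h1
    obtain ⟨x, y, hxy, rfl, hx, hp⟩ := hS.pos_mid hk h1 h2
    obtain ⟨h', hneg⟩ := neg_some_short hxy
    rw [hneg]
    refine Or.inr (Or.inr (Or.inl ⟨?_, ?_, ?_, ?_⟩))
    · exact (one_lt_inv₀ hδ).mpr h2
    · exact (inv_lt_inv₀ hδ hβ).mpr h1
    · rw [inv_inv]; exact hx
    · rw [inv_inv, show -y + α * x = -(y - α * x) by ring, V.w_neg]; exact hp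
  · refine ⟨-k, ?_⟩
    rw [einv]
    have hδ : 0 < δ * V.w b ^ (2 * k) := lt_trans one_pos h1
    obtain ⟨x, y, hxy, rfl, h3, hx, hm⟩ := hS.pos_big hk h1
    obtain ⟨h', hneg⟩ := neg_some_short hxy
    rw [hneg]
    refine Or.inr (Or.inl ⟨?_, ?_, hx, ?_⟩)
    · have := (inv_lt_inv₀ (inv_pos.mpr hβ) hδ).mpr h3
      rwa [inv_inv] at this
    · exact inv_lt_one_of_one_lt₀ h1
    · rw [show -y - α * x = -(y + α * x) by ring, V.w_neg]; exact hm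
  · rw [h1] at hk
    refine ⟨1 - k, ?_⟩
    have e : δ⁻¹ * V.w b ^ (2 * (1 - k)) = V.w b := by
      rw [show 2 * (1 - k) = 2 + 2 * (-k) by ring, zpow_add₀ hβ.ne', ← mul_assoc,
        mul_comm δ⁻¹, mul_assoc, einv, h1]
      rw [show (2 : ℤ) = (2 : ℕ) by norm_num, zpow_natCast]
      field_simp
    rw [e]
    obtain ⟨x, y, hxy, rfl, hx⟩ := hS.pos_beta hk
    obtain ⟨h', hneg⟩ := neg_some_short hxy
    rw [hneg]
    exact Or.inr (Or.inr (Or.inr ⟨rfl, hx⟩))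

end MultSetting

end Fermat.Agent.S05
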