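import Fermat.Agent.S05.RegionsInd

set_option autoImplicit false
set_option linter.unusedSectionVars false

namespace Fermat.Agent.S05

open WeierstrassCurve WeierstrassCurve.Affine

variable {K : Type*} [Field K] [DecidableEq K]

namespace MultSetting

variable {V : RVal K} {a b α : K} (hS : MultSetting V a b α)
include hS

/-- Adding a point `x₀` of the `+` branch (depth `γ`) to a point of `E₀` or of the `+` branch
multiplies the position by `γ`. -/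
lemma pos_add_plus {x₀ y₀ : K} (h₀ : (shortW a b).toAffine.Nonsingular x₀ y₀)
    (hγ₁ : V.w b < V.w x₀) (hγ₂ : V.w x₀ < 1) (hp₀ : V.w (y₀ - α * x₀) < V.w x₀)
    {δ : ℝ} {P : (shortW a b).toAffine.Point} (h : Pos V α δ P)
    (hδ : δ = 1 ∨ (V.w b < δ ∧ δ < 1)) :
    Reg V α (δ * V.w x₀) (P + Point.some x₀ y₀ h₀) := by
  have hβ := hS.wb_pos
  have hβ1 := hS.wb_lt
  have hγ0 : 0 < V.w x₀ := lt_trans hβ hγ₁
  have hTT := T0_add_T0 a hS.b_ne_zero
  rcases hδ with rfl | ⟨h1, h2⟩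
  · rw [one_mul]
    rcases hS.pos_one h with rfl | ⟨x, y, hxy, rfl, hx⟩
    · rw [zero_add]
      exact reg_of_pos (Or.inr (Or.inl ⟨hγ₁, hγ₂, rfl, hp₀⟩))
    · obtain ⟨x₃, y₃, h₃, hadd, hx₃, hp₃⟩ := hS.add_0p hxy h₀ hx hγ₁ hγ₂ hp₀
      rw [hadd]
      exact reg_of_pos (Or.inr (Or.inl ⟨by rw [← hx₃] at hγ₁; rw [← hx₃]; exact hγ₁,
        by rw [← hx₃]; rw [← hx₃] at hγ₂; exact hγ₂, hx₃, by rw [← hx₃]; exact hp₃⟩))
  · have hδ0 : 0 < δ := lt_trans hβ h1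
    obtain ⟨x, y, hxy, rfl, hx, hp⟩ := hS.pos_mid h h1 h2
    rcases lt_trichotomy (V.w b) (δ * V.w x₀) with hlt | heq | hgt
    · -- both on the + branch, product above |b|
      obtain ⟨x₃, y₃, h₃, hadd, hx₃, hp₃⟩ :=
        hS.add_pp hxy h₀ (by rw [hx]; exact h2) (by rw [hx]; exact hp) hγ₂ hp₀
          (by rw [hx]; exact hlt)
      rw [hadd]
      rw [hx] at hx₃
      refine reg_of_pos (Or.inr (Or.inl ⟨hlt, ?_, hx₃, by rw [← hx₃]; exact hp₃⟩))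
      nlinarith
    · -- product exactly |b|: the sum lies in T₀ + E₀
      obtain ⟨x₁, y₁, h₁, hadd₁, hx₁, hm₁⟩ := hS.T0_plus h₀ hγ0 rfl hp₀
      have hx₁δ : V.w x₁ = V.w x := by
        rw [hx₁, hx, heq]; field_simp
      have hsum : Point.some x y hxy + Point.some x₁ y₁ h₁ = 0 ∨
          ∃ (x₃ y₃ : K) (h₃ : (shortW a b).toAffine.Nonsingular x₃ y₃),
            Point.some x y hxy + Point.some x₁ y₁ h₁ = Point.some x₃ y₃ h₃ ∧ 1 ≤ V.w x₃ :=
        hS.add_pm hxy h₁ (by rw [hx]; exact hδ0) (by rw [hx]; exact hp) hx₁δ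
          (by rw [hx₁]; exact hm₁)
      have hpos1 : Pos V α 1 (Point.some x y hxy + Point.some x₁ y₁ h₁) := by
        rcases hsum with h0 | ⟨x₃, y₃, h₃, hadd, hx₃⟩
        · rw [h0]; exact rfl
        · rw [hadd]; exact Or.inl ⟨rfl, hx₃⟩
      have := hS.pos_T0_one hpos1
      have e : Point.some x y hxy + Point.some x₁ y₁ h₁ + T0 a hS.b_ne_zero
          = Point.some x y hxy + Point.some x₀ y₀ h₀ := by
        rw [← hadd₁, add_assoc, add_assoc, hTT, add_zero]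
      rw [e, heq] at this
      exact reg_of_pos this
    · -- product below |b|: negate and translate both points
      obtain ⟨hn, hneg⟩ := neg_some_short hxy
      obtain ⟨hn₀, hneg₀⟩ := neg_some_short h₀
      obtain ⟨x₁, y₁, h₁, hadd₁, hx₁, hp₁⟩ := hS.T0_minus hn hδ0 hx
        (by rw [show -y + α * x = -(y - α * x) by ring, V.w_neg]; exact hp)
      obtain ⟨x₂, y₂, h₂, hadd₂, hx₂, hp₂⟩ := hS.T0_minus hn₀ hγ0 rfl
        (by rw [show -y₀ + α * x₀ = -(y₀ - α * x₀) by ring, V.w_neg]; exact hp₀)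
      have hx₁lt : V.w x₁ < 1 := by rw [hx₁, div_lt_one hδ0]; exact h1
      have hx₂lt : V.w x₂ < 1 := by rw [hx₂, div_lt_one hγ0]; exact hγ₁
      have hprod : V.w b < V.w x₁ * V.w x₂ := by
        rw [hx₁, hx₂, div_mul_div_comm, lt_div_iff₀ (mul_pos hδ0 hγ0)]
        nlinarith
      obtain ⟨x₃, y₃, h₃, hadd, hx₃, hp₃⟩ :=
        hS.add_pp h₁ h₂ hx₁lt (by rw [hx₁]; exact hp₁) hx₂lt (by rw [hx₂]; exact hp₂) hprod
      have hpos : Pos V α (V.w x₁ * V.w x₂) (Point.some x₃ y₃ h₃) := by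
        refine Or.inr (Or.inl ⟨hprod, ?_, hx₃, by rw [← hx₃]; exact hp₃⟩)
        have := V.w_nonneg x₁
        nlinarith
      have hS3 : Point.some x₃ y₃ h₃
          = -(Point.some x y hxy + Point.some x₀ y₀ h₀) := by
        rw [← hadd, ← hadd₁, ← hadd₂, ← hneg, ← hneg₀]
        have : -Point.some x y hxy + T0 a hS.b_ne_zero + (-Point.some x₀ y₀ h₀ + T0 a hS.b_ne_zero)
            = -(Point.some x y hxy + Point.some x₀ y₀ h₀)
              + (T0 a hS.b_ne_zero + T0 a hS.b_ne_zero) := by abel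
        rw [this, hTT, add_zero]
      have hreg := hS.reg_neg (reg_of_pos hpos)
      rw [hS3, neg_neg] at hreg
      -- index: (|x₁||x₂|)⁻¹ = δ γ / |b|²
      have e : (V.w x₁ * V.w x₂)⁻¹ = δ * V.w x₀ * V.w b ^ (2 * (-1 : ℤ)) := by
        rw [hx₁, hx₂, show (2 : ℤ) * (-1) = -(2 : ℕ) by norm_num, zpow_neg, zpow_natCast]
        field_simp
      rw [e] at hreg
      exact (reg_shift hβ (-1)).mp hreg

/-- Adding a point `x₀` of the `+` branch (depth `γ`) multiplies the position by `γ`. -/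
lemma reg_add {x₀ y₀ : K} (h₀ : (shortW a b).toAffine.Nonsingular x₀ y₀)
    (hγ₁ : V.w b < V.w x₀) (hγ₂ : V.w x₀ < 1) (hp₀ : V.w (y₀ - α * x₀) < V.w x₀)
    {δ : ℝ} {P : (shortW a b).toAffine.Point} (h : Reg V α δ P) :
    Reg V α (δ * V.w x₀) (P + Point.some x₀ y₀ h₀) := by
  have hβ := hS.wb_pos
  have hTT := T0_add_T0 a hS.b_ne_zero
  obtain ⟨k, hk⟩ := h
  have eshift : δ * V.w x₀ * V.w b ^ (2 * k) = δ * V.w b ^ (2 * k) * V.w x₀ := by ring
  rw [← reg_shift hβ k, eshift]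
  set δ' := δ * V.w b ^ (2 * k) with hδ'
  have eTT : ∀ Q : (shortW a b).toAffine.Point,
      Q + T0 a hS.b_ne_zero + Point.some x₀ y₀ h₀ + T0 a hS.b_ne_zero
        = Q + Point.some x₀ y₀ h₀ := by
    intro Q
    have : Q + T0 a hS.b_ne_zero + Point.some x₀ y₀ h₀ + T0 a hS.b_ne_zero
        = Q + Point.some x₀ y₀ h₀ + (T0 a hS.b_ne_zero + T0 a hS.b_ne_zero) := by abel
    rw [this, hTT, add_zero]
  rcases hS.pos_cases hk with h1 | ⟨h1, h2⟩ | ⟨h1, h2⟩ | h1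
  · exact hS.pos_add_plus h₀ hγ₁ hγ₂ hp₀ hk (Or.inl h1)
  · exact hS.pos_add_plus h₀ hγ₁ hγ₂ hp₀ hk (Or.inr ⟨h1, h2⟩)
  · -- `-` branch: translate by T₀ first
    have hpos := hS.pos_T0_big hk h1
    have hr := hS.pos_add_plus h₀ hγ₁ hγ₂ hp₀ hpos (Or.inr ⟨by nlinarith, by
      have := mul_lt_mul_of_pos_right h2 hβ
      rwa [inv_mul_cancel₀ hβ.ne'] at this⟩)
    have hr2 := hS.reg_T0 hr
    rw [eTT] at hr2
    have e : δ' * V.w b * V.w x₀ * V.w b = δ' * V.w x₀ * V.w b ^ (2 * (1 : ℤ)) := by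
      rw [show (2 : ℤ) * 1 = (2 : ℕ) by norm_num, zpow_natCast]; ring
    rw [e] at hr2
    exact (reg_shift hβ 1).mp hr2
  · -- `T₀ + E₀`: translate by T₀ first
    rw [h1] at hk
    have hpos := hS.pos_T0_beta hk
    have hr := hS.pos_add_plus h₀ hγ₁ hγ₂ hp₀ hpos (Or.inl rfl)
    have hr2 := hS.reg_T0 hr
    rw [eTT] at hr2
    rw [h1]
    have e : 1 * V.w x₀ * V.w b = V.w b * V.w x₀ := by ring
    rwa [e] at hr2

/-- The multiples of a point on the `+` branch. -/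
lemma reg_nsmul {x₀ y₀ : K} (h₀ : (shortW a b).toAffine.Nonsingular x₀ y₀)
    (hγ₁ : V.w b < V.w x₀) (hγ₂ : V.w x₀ < 1) (hp₀ : V.w (y₀ - α * x₀) < V.w x₀) (m : ℕ) :
    Reg V α (V.w x₀ ^ m) (m • Point.some x₀ y₀ h₀) := by
  induction m with
  | zero =>
    rw [zero_smul, pow_zero]
    exact reg_of_pos rfl
  | succ m ih =>
    rw [succ_nsmul, pow_succ]
    exact hS.reg_add h₀ hγ₁ hγ₂ hp₀ ih

/-- A torsion point on the `+` branch has depth `γ` with `γ^m ∈ |b|^(2ℤ)`. -/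
lemma plus_torsion {x₀ y₀ : K} (h₀ : (shortW a b).toAffine.Nonsingular x₀ y₀)
    (hγ₁ : V.w b < V.w x₀) (hγ₂ : V.w x₀ < 1) (hp₀ : V.w (y₀ - α * x₀) < V.w x₀) (m : ℕ)
    (hm : m • Point.some x₀ y₀ h₀ = 0) :
    ∃ k : ℤ, V.w x₀ ^ m = V.w b ^ k := by
  have hβ := hS.wb_pos
  obtain ⟨k, hk⟩ := hS.reg_nsmul h₀ hγ₁ hγ₂ hp₀ m
  rw [hm] at hk
  have h1 : V.w x₀ ^ m * V.w b ^ (2 * k) = 1 := hk
  refine ⟨-(2 * k), ?_⟩
  rw [zpow_neg]
  exact eq_inv_of_mul_eq_one_left h1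

end MultSetting

end Fermat.Agent.S05
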