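import Fermat.Agent.S05.RegionsT0

set_option autoImplicit false

namespace Fermat.Agent.S05

open WeierstrassCurve WeierstrassCurve.Affine

variable {K : Type*} [Field K] [DecidableEq K]

/-- The position of a point of the short model relative to the node: `Pos δ P` says that `P`
lies in the region with index `δ ∈ [|b|, |b|⁻¹)`:
`δ = 1` for `E₀`, `|b| < δ < 1` for the `+` branch at depth `δ`, `1 < δ < |b|⁻¹` for the `-`
branch at depth `δ⁻¹`, and `δ = |b|` for `T₀ + E₀`. -/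
def Pos (V : RVal K) (α : K) {a b : K} (δ : ℝ) : (shortW a b).toAffine.Point → Prop
  | .zero => δ = 1
  | .some x y _ =>
      (δ = 1 ∧ 1 ≤ V.w x) ∨ (V.w b < δ ∧ δ < 1 ∧ V.w x = δ ∧ V.w (y - α * x) < δ) ∨
      (1 < δ ∧ δ < (V.w b)⁻¹ ∧ V.w x = δ⁻¹ ∧ V.w (y + α * x) < δ⁻¹) ∨
      (δ = V.w b ∧ V.w x ≤ V.w b)

/-- `Reg δ P`: the position of `P` is `δ` modulo `|b|^(2ℤ)`. -/
def Reg (V : RVal K) (α : K) {a b : K} (δ : ℝ) (P : (shortW a b).toAffine.Point) : Prop :=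
  ∃ k : ℤ, Pos V α (δ * V.w b ^ (2 * k)) P

section
variable {V : RVal K} {a b α : K}

omit [DecidableEq K] in
lemma pos_zero {δ : ℝ} : Pos V α δ (0 : (shortW a b).toAffine.Point) ↔ δ = 1 := Iff.rfl

omit [DecidableEq K] in
lemma pos_some {δ : ℝ} {x y : K} (h : (shortW a b).toAffine.Nonsingular x y) :
    Pos V α δ (Point.some x y h) ↔
      (δ = 1 ∧ 1 ≤ V.w x) ∨ (V.w b < δ ∧ δ < 1 ∧ V.w x = δ ∧ V.w (y - α * x) < δ) ∨
      (1 < δ ∧ δ < (V.w b)⁻¹ ∧ V.w x = δ⁻¹ ∧ V.w (y + α * x) < δ⁻¹) ∨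
      (δ = V.w b ∧ V.w x ≤ V.w b) := Iff.rfl

omit [DecidableEq K] in
lemma reg_of_pos {δ : ℝ} {P : (shortW a b).toAffine.Point} (h : Pos V α δ P) : Reg V α δ P :=
  ⟨0, by simpa using h⟩

omit [DecidableEq K] in
lemma reg_shift (hb : 0 < V.w b) {δ : ℝ} {P : (shortW a b).toAffine.Point} (j : ℤ) :
    Reg V α (δ * V.w b ^ (2 * j)) P ↔ Reg V α δ P := by
  constructor
  · rintro ⟨k, hk⟩
    refine ⟨j + k, ?_⟩
    rwa [mul_add, zpow_add₀ hb.ne', ← mul_assoc]
  · rintro ⟨k, hk⟩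
    refine ⟨k - j, ?_⟩
    rwa [mul_assoc, ← zpow_add₀ hb.ne', ← mul_add, add_sub_cancel]

end

namespace MultSetting

variable {V : RVal K} {a b α : K} (hS : MultSetting V a b α)
include hS

omit [DecidableEq K] in
lemma pos_cases {δ : ℝ} {P : (shortW a b).toAffine.Point} (h : Pos V α δ P) :
    δ = 1 ∨ (V.w b < δ ∧ δ < 1) ∨ (1 < δ ∧ δ < (V.w b)⁻¹) ∨ δ = V.w b := by
  cases P with
  | zero => exact Or.inl h
  | some x y hxy =>
    rcases h with h | h | h | h
    · exact Or.inl h.1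
    · exact Or.inr (Or.inl ⟨h.1, h.2.1⟩)
    · exact Or.inr (Or.inr (Or.inl ⟨h.1, h.2.1⟩))
    · exact Or.inr (Or.inr (Or.inr h.1))

omit [DecidableEq K] in
lemma pos_one {P : (shortW a b).toAffine.Point} (h : Pos V α 1 P) :
    P = 0 ∨ ∃ (x y : K) (hxy : (shortW a b).toAffine.Nonsingular x y),
      P = Point.some x y hxy ∧ 1 ≤ V.w x := by
  have hb1 := hS.wb_lt
  cases P with
  | zero => exact Or.inl rfl
  | some x y hxy =>
    right
    refine ⟨x, y, hxy, rfl, ?_⟩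
    rcases h with h | h | h | h
    · exact h.2
    · exact absurd h.2.1 (lt_irrefl _)
    · exact absurd h.1 (lt_irrefl _)
    · exact absurd h.1.symm hb1.ne

omit [DecidableEq K] in
lemma pos_mid {δ : ℝ} {P : (shortW a b).toAffine.Point} (h : Pos V α δ P)
    (h1 : V.w b < δ) (h2 : δ < 1) :
    ∃ (x y : K) (hxy : (shortW a b).toAffine.Nonsingular x y),
      P = Point.some x y hxy ∧ V.w x = δ ∧ V.w (y - α * x) < δ := by
  cases P with
  | zero => exact absurd h h2.ne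
  | some x y hxy =>
    refine ⟨x, y, hxy, rfl, ?_⟩
    rcases h with h | h | h | h
    · exact absurd h.1 h2.ne
    · exact ⟨h.2.2.1, h.2.2.2⟩
    · exact absurd h.1 (not_lt.mpr h2.le)
    · exact absurd h.1 h1.ne'

omit [DecidableEq K] in
lemma pos_big {δ : ℝ} {P : (shortW a b).toAffine.Point} (h : Pos V α δ P) (h1 : 1 < δ) :
    ∃ (x y : K) (hxy : (shortW a b).toAffine.Nonsingular x y),
      P = Point.some x y hxy ∧ δ < (V.w b)⁻¹ ∧ V.w x = δ⁻¹ ∧ V.w (y + α * x) < δ⁻¹ := by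
  have hb1 := hS.wb_lt
  cases P with
  | zero => exact absurd h h1.ne'
  | some x y hxy =>
    refine ⟨x, y, hxy, rfl, ?_⟩
    rcases h with h | h | h | h
    · exact absurd h.1 h1.ne'
    · exact absurd h.2.1 (not_lt.mpr h1.le)
    · exact ⟨h.2.1, h.2.2.1, h.2.2.2⟩
    · rw [h.1] at h1; exact absurd h1 (not_lt.mpr hb1.le)

omit [DecidableEq K] in
lemma pos_beta {P : (shortW a b).toAffine.Point} (h : Pos V α (V.w b) P) :
    ∃ (x y : K) (hxy : (shortW a b).toAffine.Nonsingular x y),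
      P = Point.some x y hxy ∧ V.w x ≤ V.w b := by
  have hb1 := hS.wb_lt
  have hb0 := hS.wb_pos
  cases P with
  | zero => exact absurd h hb1.ne
  | some x y hxy =>
    refine ⟨x, y, hxy, rfl, ?_⟩
    rcases h with h | h | h | h
    · exact absurd h.1 hb1.ne
    · exact absurd h.1 (lt_irrefl _)
    · exact absurd h.1 (not_lt.mpr hb1.le)
    · exact h.2

end MultSetting

end Fermat.Agent.S05
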