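import Fermat.Agent.S05.RegionsPos

set_option autoImplicit false
set_option linter.unusedSectionVars false

namespace Fermat.Agent.S05

open WeierstrassCurve WeierstrassCurve.Affine

variable {K : Type*} [Field K] [DecidableEq K]

namespace MultSetting

variable {V : RVal K} {a b α : K} (hS : MultSetting V a b α)
include hS

/-- `T₀ + (+ branch at δ) = (- branch at |b|/δ)`. -/
lemma T0_plus {x y : K} (h : (shortW a b).toAffine.Nonsingular x y) {δ : ℝ}
    (hδ : 0 < δ) (hx : V.w x = δ) (hp : V.w (y - α * x) < δ) :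
    ∃ (x₃ y₃ : K) (h₃ : (shortW a b).toAffine.Nonsingular x₃ y₃),
      Point.some x y h + T0 a hS.b_ne_zero = Point.some x₃ y₃ h₃ ∧
      V.w x₃ = V.w b / δ ∧ V.w (y₃ + α * x₃) < V.w b / δ := by
  have hx0 : x ≠ 0 := by
    intro h0; rw [h0, V.w_zero] at hx; linarith
  obtain ⟨x₃, y₃, h₃, hadd, e1, e2⟩ := add_T0 hS.b_ne_zero h hx0
  refine ⟨x₃, y₃, h₃, hadd, ?_, ?_⟩
  · have := congrArg V.w e1
    rw [V.w_mul, hx] at this
    rw [eq_div_iff hδ.ne', this]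
  · have e3 : (y₃ + α * x₃) * x ^ 2 = -(b * (y - α * x)) := by
      linear_combination e2 + α * x * e1
    have := congrArg V.w e3
    rw [V.w_mul, V.w_pow, V.w_neg, V.w_mul, hx] at this
    rw [lt_div_iff₀ hδ]
    have h4 : V.w (y₃ + α * x₃) * δ ^ 2 < V.w b * δ := by
      rw [this]; exact mul_lt_mul_of_pos_left hp hS.wb_pos
    have h5 : V.w (y₃ + α * x₃) * δ * δ < V.w b * δ := by
      rw [mul_assoc, ← sq]; exact h4
    exact lt_of_mul_lt_mul_right h5 hδ.le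

/-- `T₀ + (- branch at γ) = (+ branch at |b|/γ)`. -/
lemma T0_minus {x y : K} (h : (shortW a b).toAffine.Nonsingular x y) {γ : ℝ}
    (hγ : 0 < γ) (hx : V.w x = γ) (hm : V.w (y + α * x) < γ) :
    ∃ (x₃ y₃ : K) (h₃ : (shortW a b).toAffine.Nonsingular x₃ y₃),
      Point.some x y h + T0 a hS.b_ne_zero = Point.some x₃ y₃ h₃ ∧
      V.w x₃ = V.w b / γ ∧ V.w (y₃ - α * x₃) < V.w b / γ := by
  have hx0 : x ≠ 0 := by
    intro h0; rw [h0, V.w_zero] at hx; linarith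
  obtain ⟨x₃, y₃, h₃, hadd, e1, e2⟩ := add_T0 hS.b_ne_zero h hx0
  refine ⟨x₃, y₃, h₃, hadd, ?_, ?_⟩
  · have := congrArg V.w e1
    rw [V.w_mul, hx] at this
    rw [eq_div_iff hγ.ne', this]
  · have e3 : (y₃ - α * x₃) * x ^ 2 = -(b * (y + α * x)) := by
      linear_combination e2 - α * x * e1
    have := congrArg V.w e3
    rw [V.w_mul, V.w_pow, V.w_neg, V.w_mul, hx] at this
    rw [lt_div_iff₀ hγ]
    have h4 : V.w (y₃ - α * x₃) * γ ^ 2 < V.w b * γ := by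
      rw [this]; exact mul_lt_mul_of_pos_left hm hS.wb_pos
    have h5 : V.w (y₃ - α * x₃) * γ * γ < V.w b * γ := by
      rw [mul_assoc, ← sq]; exact h4
    exact lt_of_mul_lt_mul_right h5 hγ.le

/-- `T₀ + E₀ ⊆ T₀ + E₀`-region: `|x| ≥ 1` goes to `|x₃| ≤ |b|`. -/
lemma T0_zero {x y : K} (h : (shortW a b).toAffine.Nonsingular x y) (hx : 1 ≤ V.w x) :
    ∃ (x₃ y₃ : K) (h₃ : (shortW a b).toAffine.Nonsingular x₃ y₃),
      Point.some x y h + T0 a hS.b_ne_zero = Point.some x₃ y₃ h₃ ∧ V.w x₃ ≤ V.w b := by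
  have hx0 : x ≠ 0 := by
    intro h0; rw [h0, V.w_zero] at hx; linarith
  obtain ⟨x₃, y₃, h₃, hadd, e1, -⟩ := add_T0 hS.b_ne_zero h hx0
  refine ⟨x₃, y₃, h₃, hadd, ?_⟩
  have := congrArg V.w e1
  rw [V.w_mul] at this
  nlinarith [V.w_nonneg x₃]

/-- `|x| ≤ |b|` goes to `E₀` under translation by `T₀`. -/
lemma T0_N {x y : K} (h : (shortW a b).toAffine.Nonsingular x y) (hx : V.w x ≤ V.w b) :
    Point.some x y h + T0 a hS.b_ne_zero = 0 ∨
    ∃ (x₃ y₃ : K) (h₃ : (shortW a b).toAffine.Nonsingular x₃ y₃),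
      Point.some x y h + T0 a hS.b_ne_zero = Point.some x₃ y₃ h₃ ∧ 1 ≤ V.w x₃ := by
  by_cases hx0 : x = 0
  · left
    subst hx0
    rw [some_eq_T0_of_x_eq_zero hS.b_ne_zero h, T0_add_T0]
  · right
    obtain ⟨x₃, y₃, h₃, hadd, e1, -⟩ := add_T0 hS.b_ne_zero h hx0
    refine ⟨x₃, y₃, h₃, hadd, ?_⟩
    have := congrArg V.w e1
    rw [V.w_mul] at this
    have hxpos : 0 < V.w x := V.w_pos x hx0
    by_contra hc
    push Not at hc
    nlinarith [mul_lt_mul_of_pos_right hc hxpos]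

end MultSetting

end Fermat.Agent.S05
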