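import Fermat.Agent.S05.RegionsAdd

set_option autoImplicit false

namespace Fermat.Agent.S05

open WeierstrassCurve WeierstrassCurve.Affine

variable {K : Type*} [Field K] [DecidableEq K]

/-- The 2-torsion point `(0,0)` of the short model. -/
def T0 (a : K) {b : K} (hb : b ≠ 0) : (shortW a b).toAffine.Point :=
  Point.some 0 0 (by rw [Affine.nonsingular_zero]; exact ⟨rfl, Or.inr hb⟩)

lemma T0_add_T0 (a : K) {b : K} (hb : b ≠ 0) : T0 a hb + T0 a hb = 0 :=
  Point.add_of_Y_eq rfl (by simp [shortW_negY])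

lemma neg_some_short {a b x y : K} (h : (shortW a b).toAffine.Nonsingular x y) :
    ∃ h' : (shortW a b).toAffine.Nonsingular x (-y), -Point.some x y h = Point.some x (-y) h' := by
  have e : (shortW a b).toAffine.negY x y = -y := shortW_negY a b x y
  have h' : (shortW a b).toAffine.Nonsingular x (-y) := by
    rw [← e]; exact (Affine.nonsingular_neg ..).mpr h
  refine ⟨h', ?_⟩
  rw [Point.neg_some]
  congr 1

lemma some_eq_T0_of_x_eq_zero {a b y : K} (hb : b ≠ 0)
    (h : (shortW a b).toAffine.Nonsingular 0 y) : Point.some 0 y h = T0 a hb := by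
  have e := shortW_equation.mp h.1
  have hy : y = 0 := by
    have : y ^ 2 = 0 := by rw [e]; ring
    exact pow_eq_zero_iff (two_ne_zero) |>.mp this
  subst hy
  rfl

/-- Translation by `T₀`: `(x, y) + T₀ = (b/x, -by/x²)`. -/
theorem add_T0 {a b x y : K} (hb : b ≠ 0) (h : (shortW a b).toAffine.Nonsingular x y)
    (hx : x ≠ 0) :
    ∃ (x₃ y₃ : K) (h₃ : (shortW a b).toAffine.Nonsingular x₃ y₃),
      Point.some x y h + T0 a hb = Point.some x₃ y₃ h₃ ∧ x₃ * x = b ∧ y₃ * x ^ 2 = -(b * y) := by
  have hxy : ¬(x = 0 ∧ y = -0) := fun hc => hx hc.1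
  obtain ⟨x₃, y₃, l, n, h₃, hadd, hL⟩ := add_line h
    (by rw [Affine.nonsingular_zero]; exact ⟨rfl, Or.inr hb⟩ :
      (shortW a b).toAffine.Nonsingular 0 0) hxy
  refine ⟨x₃, y₃, h₃, hadd, ?_, ?_⟩
  · have hn : n = 0 := by have := hL.L₂; simpa using this.symm
    have := hL.V₂
    rw [hn] at this
    linear_combination this
  · have hn : n = 0 := by have := hL.L₂; simpa using this.symm
    have h2 := hL.V₂
    have h1 := hL.L₁
    have h3 := hL.L₃
    rw [hn] at h1 h2 h3
    have hy₃ : y₃ = -(l * x₃) := by linear_combination -h3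
    rw [hy₃, h1]
    linear_combination (-(l * x)) * h2

end Fermat.Agent.S05
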